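import Fermat.Agent.LT.Inert.PlaceMatch
import Fermat.Agent.LT.Descent.TensorMatch
import Fermat.Agent.LT.Descent.Places.Generic

/-!
# Matches at inert places, in the form used by the global match

For a radial matrix `φ` upstairs and its base change `f` downstairs the functions of `γ` and `δ`
match at an inert place; at almost all of them base point goes to base point; where `γ` is not a
local norm the fibre sums vanish.
-/

set_option autoImplicit false

noncomputable section

namespace Fermat.Agent.LT.Inert

open IsDedekindDomain IsDedekindDomain.HeightOneSpectrum NumberField Matrix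
open Fermat.Agent.LT.Descent Fermat.Agent.LT.Tame Fermat.Agent.LT.Geom
open scoped MatrixGroups

variable {K K' : Type*} [Field K] [NumberField K] [Field K'] [NumberField K'] [Algebra K K']
  {σ : K' ≃ₐ[K] K'} {v : HeightOneSpectrum (𝓞 K)} {w : HeightOneSpectrum (𝓞 K')}

/-- An inert place in the sense of the descent is an inert place. -/
theorem inertPlace_of_isInert (hσ : Places.IsCubicGen σ) (h : Places.IsInert σ v)
    (hw : Places.IsAbove v w) : InertPlace σ v w where
  order_three := hσ.order_three
  fixed := hσ.fixed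
  above := hw
  fixed_place := (h w hw).1
  residue_moved := not_forall.1 (h w hw).2
  unramified := h.valuation_algebraMap hσ hw
  absNorm := h.absNorm hσ hw

variable {π : HeightOneSpectrum (𝓞 K') → HeightOneSpectrum (𝓞 K)}

theorem fibre_iff_of_isInert (hπ : IsPlaceCover π) (hσ : Places.IsCubicGen σ)
    (h : Places.IsInert σ v) (hw : π w = v) (u : HeightOneSpectrum (𝓞 K')) : π u = v ↔ u = w :=
  ⟨fun hu => h.unique hσ (hw ▸ hπ.above w) (hu ▸ hπ.above u), fun hu => hu ▸ hw⟩

variable (hπ : IsPlaceCover π)
  {V : ∀ u : HeightOneSpectrum (𝓞 K), Subgroup (GL (Fin 2) (u.adicCompletion K))}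
  {V' : ∀ u : HeightOneSpectrum (𝓞 K'), Subgroup (GL (Fin 2) (u.adicCompletion K'))}
  (hσ : ∀ u, ∀ g ∈ V' (placePerm σ.toRingEquiv u), GeneralLinearGroup.map
    (completionEquiv σ.toRingEquiv (valuation_apply_placePerm σ.toRingEquiv u)).toRingHom g ∈ V' u)
  {k : KerFamily V} {k' : KerFamily V'} {γ : PGL(2, K)} {δ : PGL(2, K')}

namespace InertPlace

variable (P : InertPlace σ v w)

/-- **An inert place matches.** -/
theorem matchesAtPlace (hp : ∀ u, π u = v ↔ u = w)
    (hH₀ : IsUnimodularLevel (v.adicCompletionIntegers K) ((V v).map ProjGenLinGroup.mk))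
    (hH : IsUnimodularLevel (w.adicCompletionIntegers K') ((V' w).map ProjGenLinGroup.mk))
    {φ f : ℕ →₀ ℂ} (hf : IsBaseChange (resCard (v.adicCompletionIntegers K))
      (resCard (w.adicCompletionIntegers K')) φ f)
    (hk : k.ker v = radKer P.cubic.baseData hH₀ f)
    (hk' : k'.ker w = radKer P.cubic.treeData hH φ)
    (h1 : γ ≠ 1) (h0 : classInv γ ≠ 0)
    (hN : Geom.twNorm (pglSigma σ) δ = pglMap (algebraMap K K') γ) :
    MatchesAtPlace hπ σ hσ k k' γ δ v := by
  let _ := fibreAction (V' := V') hπ γ v
  exact P.hasFibreMatch_ker hσ k'.ker hH₀ hH hp (fun u hu => (hπ.map_placePerm σ u).trans hu) hf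
    hk hk' h1 h0 hN (locTorus γ v).subtype
    (fun t => Subgroup.mem_centralizer_singleton_iff.1 t.2) (fun _ _ => rfl) fun _ _ _ _ => rfl

include P in
/-- **An inert place with trivial matrices and integral `γ`, `δ` matches base point to base
point.** -/
theorem baseMatchesAtPlace (hp : ∀ u, π u = v ↔ u = w)
    (hH₀ : IsUnimodularLevel (v.adicCompletionIntegers K) ((V v).map ProjGenLinGroup.mk))
    (hH : IsUnimodularLevel (w.adicCompletionIntegers K') ((V' w).map ProjGenLinGroup.mk))
    (hk : k.ker v = LKer.one _ _) (hk' : k'.ker w = LKer.one _ _)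
    (hN : Geom.twNorm (pglSigma σ) δ = pglMap (algebraMap K K') γ)
    {M : Mat (v.adicCompletionIntegers K)} (hM : IsUnit M.det) (hM10 : IsUnit (M 1 0))
    (htr : M.trace ≠ 0)
    (hγ : pglMap (algebraMap K (v.adicCompletion K)) γ = toL (v.adicCompletion K) M hM.ne_zero)
    (hint : pglMap (algebraMap K' (w.adicCompletion K')) δ ∈ (V' w).map ProjGenLinGroup.mk) :
    BaseMatchesAtPlace hπ σ hσ k k' γ δ v := by
  let _ := fibreAction (V' := V') hπ γ v
  exact InertPlace.hasBaseMatch_one hσ k'.ker P hp (fun u hu => (hπ.map_placePerm σ u).trans hu) hk hk' hN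
    hM hM10 htr hγ hint hH₀ hH (locTorus γ v).subtype
    (fun t => Subgroup.mem_centralizer_singleton_iff.1 t.2) (fun _ _ => rfl) fun _ _ _ _ => rfl

/-- **An inert place where `γ` is not a norm.** -/
theorem vanishesAtPlace
    (hH₀ : IsUnimodularLevel (v.adicCompletionIntegers K) ((V v).map ProjGenLinGroup.mk))
    {φ f : ℕ →₀ ℂ} (hf : IsBaseChange (resCard (v.adicCompletionIntegers K))
      (resCard (w.adicCompletionIntegers K')) φ f)
    (hk : k.ker v = radKer P.cubic.baseData hH₀ f) (h0 : classInv γ ≠ 0)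
    (hN : ∀ d : PGL(2, w.adicCompletion K'), Geom.twNorm (pglEquiv P.aut) d ≠
      pglMap P.emb (pglMap (algebraMap K (v.adicCompletion K)) γ)) :
    VanishesAtPlace k γ v :=
  P.hasFibreMatch_zero hH₀ hf hk h0 hN (locTorus γ v).subtype
    (fun t => Subgroup.mem_centralizer_singleton_iff.1 t.2) fun _ _ => rfl

end InertPlace

end Fermat.Agent.LT.Inert

end
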