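import Fermat.Agent.LT.Inert.Kernel
import Fermat.Agent.LT.Descent.LKerLinear

/-!
# The Hecke algebra of radial kernels

The radial kernel of a polynomial in the Hecke operator is that polynomial in the kernel of
distance one.
-/

set_option autoImplicit false
set_option linter.unusedSectionVars false

noncomputable section

namespace Fermat.Agent.LT.Inert

open IsLocalRing Matrix Polynomial
open scoped MatrixGroups
open Fermat.Agent.LT.Descent

variable {O : Type*} [CommRing O] [IsDomain O] [IsDiscreteValuationRing O]
  [Finite (ResidueField O)] (D : TreeData O) {L : Type*} [Field L] [Algebra O L]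
  [IsFractionRing O L] {H : Subgroup PGL(2, L)} (hH : IsUnimodularLevel O H)

theorem radKer_add (φ ψ : ℕ →₀ ℂ) : radKer D hH (φ + ψ) = radKer D hH φ + radKer D hH ψ :=
  LKer.ext' fun a c => by simp only [radKer_apply, LKer.add_apply, Finsupp.add_apply]

theorem radKer_smul (r : ℂ) (φ : ℕ →₀ ℂ) : radKer D hH (r • φ) = r • radKer D hH φ :=
  LKer.ext' fun a c => by
    simp only [radKer_apply, LKer.smul_apply, Finsupp.smul_apply, smul_eq_mul]

/-- **Polynomials in the Hecke operator are polynomials in the kernel of distance one.** -/
theorem radKer_heckePoly (P : ℂ[X]) :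
    radKer D hH (heckePoly (resCard O) P) =
      aeval (radKer D hH (Finsupp.single 1 1)) P := by
  induction P using Polynomial.induction_on with
  | C r =>
    rw [aeval_C, Algebra.algebraMap_eq_smul_one, LKer.one_def, ← radKer_single_zero D hH,
      ← radKer_smul]
    congr 1
    simp [heckePoly, Algebra.algebraMap_eq_smul_one]
  | add P P' h h' =>
    rw [map_add, ← h, ← h', ← radKer_add]
    congr 1
    simp [heckePoly]
  | monomial n r h =>
    have e1 : C r * X ^ (n + 1) = X * (C r * X ^ n) := by ring
    rw [e1, heckePoly_X_mul, ← radKer_comp_step, h, ← LKer.mul_def, mul_comm X]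
    conv_rhs => rw [map_mul, aeval_X]

theorem radKer_heckePoly_mul (P P' : ℂ[X]) :
    radKer D hH (heckePoly (resCard O) (P * P')) =
      radKer D hH (heckePoly (resCard O) P) * radKer D hH (heckePoly (resCard O) P') := by
  rw [radKer_heckePoly, radKer_heckePoly, radKer_heckePoly, map_mul]

theorem radKer_heckePoly_one : radKer D hH (heckePoly (resCard O) 1) = 1 := by
  rw [radKer_heckePoly, map_one]

end Fermat.Agent.LT.Inert

end
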