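import Fermat.Agent.LT.Inert.Local
import Fermat.Agent.LT.Tame.AdelicAut
import Fermat.Agent.LT.Tame.BaseChange
import Fermat.Agent.LT.Descent.Levels

/-!
# Inert places in the completions

At a place `v` with a single place `w` above, fixed by the generator of a cubic cyclic extension
and not residue trivial, the completions form an unramified cubic extension.
-/

set_option autoImplicit false

noncomputable section

namespace Fermat.Agent.LT.Inert

open IsDedekindDomain IsDedekindDomain.HeightOneSpectrum IsLocalRing NumberField Matrix WithZero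
open Fermat.Agent.LT.Tame Fermat.Agent.LT.Descent
open scoped MatrixGroups

/-- A ring endomorphism of order three of a field with vanishing trace is the identity. -/
theorem eq_self_of_trace_eq_zero {F : Type*} [Field F] (s : F →+* F)
    (h : ∀ a, a + s a + s (s a) = 0) (a : F) : s a = a := by
  have h3 : (3 : F) = 0 := by
    have h1 := h 1
    rw [map_one, map_one] at h1
    linear_combination h1
  have hsq := h (a * a)
  rw [map_mul, map_mul] at hsq
  have h0 : (s a - a) ^ 2 = 0 := by
    linear_combination (a ^ 2 + s a ^ 2) * h3 - hsq + (s (s a) - a - s a) * h a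
  exact sub_eq_zero.1 (pow_eq_zero_iff two_ne_zero |>.1 h0)

/-- A nontrivial automorphism of order three of a field has an element of trace one. -/
theorem exists_trace_eq_one {F : Type*} [Field F] (s : F →+* F) (h3 : ∀ a, s (s (s a)) = a)
    (hs : ∃ a, s a ≠ a) : ∃ t, t + s t + s (s t) = 1 := by
  obtain ⟨a, ha⟩ : ∃ a, a + s a + s (s a) ≠ 0 := by
    by_contra h
    obtain ⟨a, ha⟩ := hs
    exact ha (eq_self_of_trace_eq_zero s (fun b => by_contra fun hb => h ⟨b, hb⟩) a)
  set c := a + s a + s (s a) with hc
  have hfix : s c = c := by rw [hc, map_add, map_add, h3]; ring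
  refine ⟨a * c⁻¹, ?_⟩
  simp only [map_mul, map_inv₀, hfix]
  rw [← add_mul, ← add_mul]
  exact mul_inv_cancel₀ ha

/-- A unit trace of an automorphism of order three gives trace one. -/
theorem exists_trace_one_of_residue {O : Type*} [CommRing O] [IsLocalRing O] (σ : O ≃+* O)
    (h3 : ∀ x, σ (σ (σ x)) = x) (hm : ∃ x, σ x - x ∉ maximalIdeal O) :
    ∃ t, t + σ t + σ (σ t) = 1 := by
  set s : ResidueField O →+* ResidueField O := ResidueField.map (σ : O →+* O) with hs
  have hres : ∀ x, s (residue O x) = residue O (σ x) := fun x => by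
    rw [hs, ResidueField.map_residue]; rfl
  obtain ⟨a, ha⟩ := exists_trace_eq_one s
    (fun a => by
      obtain ⟨x, rfl⟩ := residue_surjective a
      rw [hres, hres, hres, h3])
    (by
      obtain ⟨x, hx⟩ := hm
      refine ⟨residue O x, fun h => hx ?_⟩
      rw [hres, ← sub_eq_zero, ← map_sub, residue_eq_zero_iff] at h
      exact h)
  obtain ⟨x, rfl⟩ := residue_surjective a
  rw [hres, hres, ← map_add, ← map_add] at ha
  have hu : IsUnit (x + σ x + σ (σ x)) := by
    rw [← isUnit_map_iff (residue O), ha]; exact isUnit_one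
  obtain ⟨u, hu⟩ := hu
  have hfix : σ (u : O) = u := by rw [hu, map_add, map_add, h3]; ring
  have hinv : σ (↑u⁻¹ : O) = ↑u⁻¹ := by
    apply u.isUnit.mul_left_cancel
    calc (u : O) * σ ↑u⁻¹ = σ ((u : O) * ↑u⁻¹) := by rw [map_mul, hfix]
      _ = _ := by rw [Units.mul_inv, map_one]
  refine ⟨x * ↑u⁻¹, ?_⟩
  simp only [map_mul, hinv]
  rw [← add_mul, ← add_mul, ← hu, Units.mul_inv]

/-- An integer of valuation `exp (-1)` is a uniformiser. -/
theorem irreducible_of_valuation {F : Type*} [Field F] [NumberField F]
    (u : HeightOneSpectrum (𝓞 F)) (x : u.adicCompletionIntegers F)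
    (hx : Valued.v (x : u.adicCompletion F) = exp (-1 : ℤ)) : Irreducible x := by
  obtain ⟨π, hπ, hval⟩ := CFT.Kummer.kl_irreducible_uniformizer u
  have hO := adicCompletionIntegers.integers F u
  refine Associated.irreducible (associated_of_dvd_dvd (hO.dvd_iff_le.2 ?_) (hO.dvd_iff_le.2 ?_)) hπ
  · exact (hx.trans hval.symm).le
  · exact (hval.trans hx.symm).le

variable {K K' : Type*} [Field K] [NumberField K] [Field K'] [NumberField K'] [Algebra K K']

/-- A cubic cyclic extension with an inert place `w` over `v`. -/
structure InertPlace (σ : K' ≃ₐ[K] K') (v : HeightOneSpectrum (𝓞 K))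
    (w : HeightOneSpectrum (𝓞 K')) : Prop where
  order_three : ∀ x, σ (σ (σ x)) = x
  fixed : ∀ x, σ x = x → x ∈ Set.range (algebraMap K K')
  above : ∀ r : 𝓞 K, RingOfIntegers.mapRingHom (algebraMap K K') r ∈ w.asIdeal ↔ r ∈ v.asIdeal
  fixed_place : placePerm σ.toRingEquiv w = w
  residue_moved : ∃ r : 𝓞 K', RingOfIntegers.mapRingEquiv σ.toRingEquiv r - r ∉ w.asIdeal
  unramified : ∀ x, w.valuation K' (algebraMap K K' x) = v.valuation K x
  absNorm : Ideal.absNorm w.asIdeal = Ideal.absNorm v.asIdeal ^ 3

variable {σ : K' ≃ₐ[K] K'} {v : HeightOneSpectrum (𝓞 K)} {w : HeightOneSpectrum (𝓞 K')}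

namespace InertPlace

variable (P : InertPlace σ v w)
include P

/-- `K_v → K'_w`. -/
def emb : v.adicCompletion K →+* w.adicCompletion K' :=
  completionEmb (RingOfIntegers.mapRingHom (algebraMap K K')) (algebraMap K K')
    (fun _ => rfl) P.above

/-- `O_v → O'_w`. -/
def embInt : v.adicCompletionIntegers K →+* w.adicCompletionIntegers K' :=
  integersEmb (RingOfIntegers.mapRingHom (algebraMap K K')) (algebraMap K K')
    (fun _ => rfl) P.above

theorem emb_coe (x : K) : P.emb (x : v.adicCompletion K) = (algebraMap K K' x : _) :=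
  completionEmb_coe _ _ _ _ x

theorem coe_embInt (a : v.adicCompletionIntegers K) :
    (P.embInt a : w.adicCompletion K') = P.emb a := rfl

theorem valuation_map (x : K') :
    w.valuation K' (σ.toRingEquiv x) = w.valuation K' x :=
  (valuation_apply_placePerm σ.toRingEquiv w x).trans (by rw [P.fixed_place])

/-- The automorphism of `K'_w`. -/
def aut : w.adicCompletion K' ≃+* w.adicCompletion K' :=
  completionEquiv σ.toRingEquiv P.valuation_map

theorem aut_coe (x : K') : P.aut (x : w.adicCompletion K') = (σ x : _) :=
  completionEquiv_coe _ _ x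

theorem continuous_aut : Continuous P.aut := continuous_completionEquiv _ _

theorem aut_cube (x : w.adicCompletion K') : P.aut (P.aut (P.aut x)) = x :=
  congrFun (DenseRange.equalizer (denseRange_algebraMap K' w)
    (P.continuous_aut.comp (P.continuous_aut.comp P.continuous_aut)) continuous_id
    (funext fun a => by
      rw [Function.comp_apply, Function.comp_apply, Function.comp_apply, algebraMap_adicCompletion,
        Function.comp_apply, Algebra.algebraMap_self, RingHom.id_apply, aut_coe, aut_coe, aut_coe,
        P.order_three]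
      rfl)) x

theorem aut_emb (x : v.adicCompletion K) : P.aut (P.emb x) = P.emb x :=
  congrFun (DenseRange.equalizer (denseRange_algebraMap K v)
    (P.continuous_aut.comp (continuous_completionEmb _ _ _ _))
    (continuous_completionEmb _ _ _ _)
    (funext fun a => by
      show P.aut (P.emb a) = P.emb a
      rw [emb_coe, aut_coe, σ.commutes])) x

/-- The automorphism of `O'_w`. -/
def autInt : w.adicCompletionIntegers K' ≃+* w.adicCompletionIntegers K' where
  toFun x := ⟨P.aut x, completionEquiv_mem_integers _ _ x.2⟩
  invFun x := ⟨P.aut.symm x, completionEquiv_mem_integers σ.toRingEquiv.symm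
    (valuation_symm_apply σ.toRingEquiv P.valuation_map) x.2⟩
  left_inv x := Subtype.ext (P.aut.symm_apply_apply _)
  right_inv x := Subtype.ext (P.aut.apply_symm_apply _)
  map_mul' _ _ := Subtype.ext (map_mul P.aut _ _)
  map_add' _ _ := Subtype.ext (map_add P.aut _ _)

theorem coe_autInt (x : w.adicCompletionIntegers K') :
    (P.autInt x : w.adicCompletion K') = P.aut x := rfl

/-- The fixed field of the completion is the completion of the base. -/
theorem mem_range_emb {x : w.adicCompletion K'} (hx : P.aut x = x) : x ∈ Set.range P.emb := by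
  have h3 : (3 : w.adicCompletion K') ≠ 0 := by
    rw [← map_ofNat (algebraMap K' (w.adicCompletion K')) 3]
    exact (map_ne_zero _).2 (by norm_num)
  have key : ∀ y, (3 : w.adicCompletion K')⁻¹ * (y + P.aut y + P.aut (P.aut y)) ∈
      Set.range P.emb := by
    intro y
    have hc := P.continuous_aut
    refine (denseRange_algebraMap K' w).induction_on y
      ((isClosed_range_completionEmb _ _ _ _).preimage
        (continuous_const.mul ((continuous_id.add hc).add (hc.comp hc)))) fun a => ?_
    obtain ⟨b, hb⟩ := P.fixed (a + σ a + σ (σ a)) (by simp only [map_add, P.order_three]; ring)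
    refine ⟨((b / 3 : K) : v.adicCompletion K), ?_⟩
    rw [algebraMap_adicCompletion, Function.comp_apply, Algebra.algebraMap_self, RingHom.id_apply,
      aut_coe, aut_coe, emb_coe, map_div₀, map_ofNat, hb, ← adicCompletion.coe_add,
      ← adicCompletion.coe_add]
    have hE : ∀ z : K', (z : w.adicCompletion K') = FinitePlace.embedding w z :=
      fun z => (FinitePlace.embedding_apply w z).symm
    rw [hE, hE, map_div₀, map_ofNat]
    ring
  have := key x
  rw [hx, hx] at this
  convert this using 1
  rw [show x + x + x = 3 * x by ring, inv_mul_cancel_left₀ h3]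

theorem residue_moved_completion :
    ∃ x, P.autInt x - x ∉ maximalIdeal (w.adicCompletionIntegers K') := by
  obtain ⟨r, hr⟩ := P.residue_moved
  refine ⟨algebraMap (𝓞 K') (w.adicCompletionIntegers K') r, fun h => hr ?_⟩
  rw [← CFT.Kummer.klRed_ker w, RingHom.mem_ker, CFT.Kummer.klRed, RingHom.comp_apply,
    residue_eq_zero_iff, map_sub]
  have e : P.autInt (algebraMap (𝓞 K') (w.adicCompletionIntegers K') r) =
      algebraMap (𝓞 K') (w.adicCompletionIntegers K')
        (RingOfIntegers.mapRingEquiv σ.toRingEquiv r) := by
    refine Subtype.ext ?_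
    rw [coe_autInt, algebraMap_adicCompletionIntegers_apply,
      algebraMap_adicCompletionIntegers_apply, aut_coe]
    rfl
  rwa [← e]

/-- A uniformiser of `v` stays one. -/
theorem exists_unif : ∃ π : v.adicCompletionIntegers K,
    Irreducible π ∧ Irreducible (P.embInt π) := by
  obtain ⟨π₀, hπ₀⟩ := v.valuation_exists_uniformizer K
  have hv : Valued.v (π₀ : v.adicCompletion K) = exp (-1 : ℤ) := by
    rw [valuedAdicCompletion_eq_valuation', hπ₀]
  have hw : Valued.v (algebraMap K K' π₀ : w.adicCompletion K') = exp (-1 : ℤ) := by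
    rw [valuedAdicCompletion_eq_valuation', P.unramified, hπ₀]
  have hmem : (π₀ : v.adicCompletion K) ∈ v.adicCompletionIntegers K := by
    rw [mem_adicCompletionIntegers, hv, ← exp_zero, exp_le_exp]; omega
  refine ⟨⟨_, hmem⟩, irreducible_of_valuation v _ hv, irreducible_of_valuation w _ ?_⟩
  rw [coe_embInt, emb_coe, hw]

/-- The unramified cubic extension of the completions. -/
def cubic : CubicData (v.adicCompletionIntegers K) (w.adicCompletionIntegers K') where
  ι := P.embInt
  ι_injective _ _ h := Subtype.ext (P.emb.injective (congrArg Subtype.val h))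
  σ := P.autInt
  unif := P.exists_unif.choose
  irreducible₀ := P.exists_unif.choose_spec.1
  irreducible := P.exists_unif.choose_spec.2
  σ_ι a := Subtype.ext (P.aut_emb a)
  order_three x := Subtype.ext (P.aut_cube x)
  fixed x hx := by
    obtain ⟨b, hb⟩ := P.mem_range_emb (congrArg Subtype.val hx)
    refine ⟨⟨b, (completionEmb_mem_integers_iff (RingOfIntegers.mapRingHom (algebraMap K K'))
      (algebraMap K K') (fun _ => rfl) P.above b).1
      (show P.emb b ∈ w.adicCompletionIntegers K' from hb ▸ x.2)⟩, Subtype.ext hb⟩
  trace_one := exists_trace_one_of_residue P.autInt (fun x => Subtype.ext (P.aut_cube x))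
    P.residue_moved_completion
  residue_moved := by
    obtain ⟨x, hx⟩ := P.residue_moved_completion
    refine ⟨x, fun h => hx ?_⟩
    rw [mem_maximalIdeal, mem_nonunits_iff, isUnit_iff_not_dvd P.exists_unif.choose_spec.2]
    exact not_not_intro h

theorem resCard_cube :
    resCard (w.adicCompletionIntegers K') = resCard (v.adicCompletionIntegers K) ^ 3 := by
  rw [resCard, resCard, CFT.Kummer.kl_card_residueField, CFT.Kummer.kl_card_residueField, P.absNorm]

end InertPlace

/-- The maximal compact level is unimodular. -/
theorem isUnimodularLevel_localFull (v : HeightOneSpectrum (𝓞 K)) :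
    IsUnimodularLevel (v.adicCompletionIntegers K)
      ((localFull K v).map ProjGenLinGroup.mk) := by
  intro g
  have key : ∀ (M : Matrix (Fin 2) (Fin 2) (v.adicCompletionIntegers K)) (hM : IsUnit M.det),
      toL (v.adicCompletion K) M hM.ne_zero =
        ProjGenLinGroup.mk (intGL v (GeneralLinearGroup.mk'' M hM)) := fun M hM =>
    congrArg ProjGenLinGroup.mk (Units.ext (Matrix.ext fun _ _ => rfl))
  rw [Subgroup.mem_map]
  constructor
  · rintro ⟨γ, hγ, rfl⟩
    obtain ⟨M, rfl⟩ := exists_intGL_eq hγ
    have hM : IsUnit (M : Matrix (Fin 2) (Fin 2) (v.adicCompletionIntegers K)).det :=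
      (Matrix.isUnit_iff_isUnit_det _).1 M.isUnit
    refine ⟨M.1, hM, ?_⟩
    rw [key M.1 hM]
    exact congrArg _ (congrArg _ (Units.ext rfl))
  · rintro ⟨M, hM, rfl⟩
    exact ⟨_, isIntLocal_intGL _, (key M hM).symm⟩

end Fermat.Agent.LT.Inert

end
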