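import Fermat.Agent.LT.Inert.Disp
import Mathlib.LinearAlgebra.Matrix.GeneralLinearGroup.Projective
import Mathlib.RingTheory.Localization.FractionRing
import Mathlib.RingTheory.Localization.Integer
import Mathlib.GroupTheory.GroupAction.Quotient

/-!
# Vertices as cosets in `PGL₂` of the fraction field

For a DVR `O` with fraction field `L` and the image `H` of `GL₂(O)`, the vertices are the cosets
`PGL₂(L) ⧸ H`, compatibly with multiplication.  Radial kernels are the functions of the distance.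
-/

set_option autoImplicit false
set_option linter.unusedSectionVars false

noncomputable section

namespace Fermat.Agent.LT.Inert

open Matrix IsLocalRing
open scoped MatrixGroups

variable {O : Type*} [CommRing O] [IsDomain O] [IsDiscreteValuationRing O]
  (L : Type*) [Field L] [Algebra O L] [IsFractionRing O L]

theorem det_mapL_ne_zero {k : Mat O} (hk : k.det ≠ 0) :
    (k.map (algebraMap O L)).det ≠ 0 := by
  rw [← RingHom.mapMatrix_apply, ← RingHom.map_det]
  exact (map_ne_zero_iff _ (IsFractionRing.injective O L)).mpr hk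

/-- The element of `PGL₂(L)` of an integral matrix. -/
def toL (k : Mat O) (hk : k.det ≠ 0) : PGL(2, L) :=
  ProjGenLinGroup.mk (GeneralLinearGroup.mkOfDetNeZero _ (det_mapL_ne_zero L hk))

theorem toL_congr {k l : Mat O} (hk : k.det ≠ 0) (hl : l.det ≠ 0) (h : k = l) :
    toL L k hk = toL L l hl := by subst h; rfl

theorem toL_one (h : (1 : Mat O).det ≠ 0) : toL L (1 : Mat O) h = 1 := by
  rw [toL, show GeneralLinearGroup.mkOfDetNeZero _ (det_mapL_ne_zero L h) = 1 from
    Units.ext (Matrix.map_one _ (map_zero _) (map_one _)), map_one]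

theorem toL_mul {k l : Mat O} (hk : k.det ≠ 0) (hl : l.det ≠ 0) (h : (k * l).det ≠ 0) :
    toL L k hk * toL L l hl = toL L (k * l) h := by
  rw [toL, toL, toL, ← map_mul]
  congr 1
  exact Units.ext (Matrix.map_mul).symm

theorem toL_eq_iff {k l : Mat O} (hk : k.det ≠ 0) (hl : l.det ≠ 0) :
    toL L k hk = toL L l hl ↔ ∃ a b : O, a ≠ 0 ∧ b ≠ 0 ∧ a • k = b • l := by
  rw [toL, toL, ProjGenLinGroup.mk_eq_mk_iff]
  constructor
  · rintro ⟨u, hu⟩
    obtain ⟨x, y, hy, hxy⟩ := IsFractionRing.div_surjective (A := O) (u : L)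
    have hy0 : algebraMap O L y ≠ 0 :=
      (map_ne_zero_iff _ (IsFractionRing.injective O L)).mpr (nonZeroDivisors.ne_zero hy)
    have hx0 : x ≠ 0 := fun h => u.ne_zero (by rw [← hxy, h, map_zero, zero_div])
    refine ⟨x, y, hx0, nonZeroDivisors.ne_zero hy, ?_⟩
    ext i j
    apply IsFractionRing.injective O L
    have := congrArg (fun g : GL (Fin 2) L => (g : Matrix (Fin 2) (Fin 2) L) i j) hu
    simp only [Matrix.smul_apply, smul_eq_mul, map_mul]
    have e : algebraMap O L (k i j) * (u : L) = algebraMap O L (l i j) := by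
      fin_cases i <;> fin_cases j <;>
        simpa [GeneralLinearGroup.scalar, Matrix.mul_apply] using this
    rw [← e, ← hxy]
    field_simp
  · rintro ⟨a, b, ha, hb, h⟩
    have ha0 : algebraMap O L a ≠ 0 := (map_ne_zero_iff _ (IsFractionRing.injective O L)).mpr ha
    have hb0 : algebraMap O L b ≠ 0 := (map_ne_zero_iff _ (IsFractionRing.injective O L)).mpr hb
    refine ⟨Units.mk0 (algebraMap O L a / algebraMap O L b) (div_ne_zero ha0 hb0), ?_⟩
    ext i j
    have e : algebraMap O L a * algebraMap O L (k i j) = algebraMap O L b * algebraMap O L (l i j) := by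
      simpa [Matrix.smul_apply] using congrArg (algebraMap O L) (congrFun (congrFun h i) j)
    fin_cases i <;> fin_cases j <;>
      simp [GeneralLinearGroup.scalar, Matrix.mul_apply] at e ⊢ <;> field_simp <;> linear_combination e

/-- Every element of `PGL₂(L)` has an integral representative. -/
theorem exists_toL_eq (g : PGL(2, L)) : ∃ k hk, toL L (O := O) k hk = g := by
  induction g using ProjGenLinGroup.induction_on with | mk M =>
  obtain ⟨⟨b, hb⟩, hbM⟩ := IsLocalization.exist_integer_multiples_of_finite (nonZeroDivisors O)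
    (fun p : Fin 2 × Fin 2 => (M : Matrix (Fin 2) (Fin 2) L) p.1 p.2)
  choose k hk using hbM
  have hmap : (Matrix.of fun i j => k (i, j)).map (algebraMap O L)
      = algebraMap O L b • (M : Matrix (Fin 2) (Fin 2) L) := by
    ext i j
    simpa [Algebra.smul_def] using hk (i, j)
  have hb0 : algebraMap O L b ≠ 0 :=
    (map_ne_zero_iff _ (IsFractionRing.injective O L)).mpr (nonZeroDivisors.ne_zero hb)
  have hdet : (Matrix.of fun i j => k (i, j)).det ≠ 0 := by
    intro h
    have := congrArg (algebraMap O L) h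
    rw [RingHom.map_det, RingHom.mapMatrix_apply, hmap, Matrix.det_smul, map_zero,
      mul_eq_zero] at this
    exact this.elim (fun h => pow_ne_zero _ hb0 h)
      (fun h => ((Matrix.isUnit_iff_isUnit_det _).mp M.isUnit).ne_zero h)
  refine ⟨_, hdet, ?_⟩
  rw [toL, ProjGenLinGroup.mk_eq_mk_iff]
  refine ⟨(Units.mk0 _ hb0)⁻¹, ?_⟩
  ext i j
  have e := congrFun (congrFun hmap i) j
  fin_cases i <;> fin_cases j <;>
    simp [GeneralLinearGroup.scalar, Matrix.mul_apply] at e ⊢ <;> rw [e] <;> field_simp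

/-- `H` is the image of `GL₂(O)`. -/
def IsUnimodularLevel (O : Type*) [CommRing O] [IsDomain O] [IsDiscreteValuationRing O]
    {L : Type*} [Field L] [Algebra O L] [IsFractionRing O L] (H : Subgroup PGL(2, L)) : Prop :=
  ∀ g, g ∈ H ↔ ∃ (M : Mat O) (hM : IsUnit M.det), toL L M hM.ne_zero = g

variable {L} {H : Subgroup PGL(2, L)} (hH : IsUnimodularLevel O H)

/-- The coset of a vertex. -/
def cosetMap : Vertex O → PGL(2, L) ⧸ H :=
  Quotient.lift (fun k : Rep O => (toL L k.1 k.2 : PGL(2, L) ⧸ H))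
    fun k l ⟨U, a, b, hU, ha, hb, h⟩ => by
      rw [QuotientGroup.eq, hH]
      refine ⟨U, hU, ?_⟩
      rw [eq_inv_mul_iff_mul_eq, toL_mul L k.2 hU.ne_zero (by simp [k.2, hU.ne_zero]),
        toL_eq_iff]
      exact ⟨b, a, hb, ha, h.symm⟩

theorem cosetMap_mk {k : Mat O} (hk : k.det ≠ 0) :
    cosetMap hH (Vertex.mk k hk) = (toL L k hk : PGL(2, L) ⧸ H) := rfl

theorem cosetMap_bijective : Function.Bijective (cosetMap hH) := by
  constructor
  · intro x y h
    obtain ⟨k, hk, rfl⟩ := x.exists_rep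
    obtain ⟨l, hl, rfl⟩ := y.exists_rep
    rw [cosetMap_mk, cosetMap_mk, QuotientGroup.eq, hH] at h
    obtain ⟨U, hU, hUe⟩ := h
    rw [eq_inv_mul_iff_mul_eq, toL_mul L hk hU.ne_zero (by simp [hk, hU.ne_zero]),
      toL_eq_iff] at hUe
    obtain ⟨a, b, ha, hb, he⟩ := hUe
    exact Quotient.sound ⟨U, b, a, hU, hb, ha, he.symm⟩
  · intro q
    obtain ⟨g, rfl⟩ := QuotientGroup.mk_surjective q
    obtain ⟨k, hk, rfl⟩ := exists_toL_eq (O := O) L g
    exact ⟨Vertex.mk k hk, rfl⟩

/-- Vertices are cosets. -/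
def cosetEquiv : Vertex O ≃ PGL(2, L) ⧸ H := Equiv.ofBijective _ (cosetMap_bijective hH)

theorem cosetEquiv_mk {k : Mat O} (hk : k.det ≠ 0) :
    cosetEquiv hH (Vertex.mk k hk) = (toL L k hk : PGL(2, L) ⧸ H) := rfl

theorem cosetEquiv_leftMul (t : Mat O) (ht : t.det ≠ 0) (x : Vertex O) :
    cosetEquiv hH (leftMul t ht x) = toL L t ht • cosetEquiv hH x := by
  obtain ⟨k, hk, rfl⟩ := x.exists_rep
  show cosetMap hH (Vertex.mk (t * k) _) = toL L t ht • cosetMap hH (Vertex.mk k hk)
  rw [cosetMap_mk, cosetMap_mk, MulAction.Quotient.smul_coe, smul_eq_mul,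
    toL_mul L ht hk (by simp [ht, hk])]

theorem symm_smul (t : Mat O) (ht : t.det ≠ 0) (y : PGL(2, L) ⧸ H) :
    (cosetEquiv hH).symm (toL L t ht • y) = leftMul t ht ((cosetEquiv hH).symm y) := by
  rw [Equiv.symm_apply_eq, cosetEquiv_leftMul, Equiv.apply_symm_apply]

variable (D : TreeData O) {R : Type*}

/-- A function of the distance as a kernel on cosets. -/
def radial (φ : ℕ → R) (y y' : PGL(2, L) ⧸ H) : R :=
  φ (dist D ((cosetEquiv hH).symm y) ((cosetEquiv hH).symm y'))

/-- Radial kernels are invariant. -/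
theorem radial_smul (φ : ℕ → R) (g : PGL(2, L)) (y y' : PGL(2, L) ⧸ H) :
    radial hH D φ (g • y) (g • y') = radial hH D φ y y' := by
  obtain ⟨t, ht, rfl⟩ := exists_toL_eq (O := O) L g
  rw [radial, radial, symm_smul, symm_smul, dist_leftMul]

/-- Distance one: the double coset of `diag (ϖ, 1)`. -/
theorem dist_eq_one_iff (x y : Vertex O) :
    dist D x y = 1 ↔ ∃ g : PGL(2, L), cosetEquiv hH x = (g : PGL(2, L) ⧸ H) ∧
      cosetEquiv hH y = ((g * toL L (stepMat D) (by rw [det_stepMat]; exact D.irreducible.ne_zero) :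
        PGL(2, L)) : PGL(2, L) ⧸ H) := by
  have hs : (stepMat D).det ≠ 0 := by rw [det_stepMat]; exact D.irreducible.ne_zero
  constructor
  · intro h
    obtain ⟨k, hk, rfl⟩ := x.exists_rep
    obtain ⟨l, rfl⟩ := exists_nbr_eq D hk h
    have hU := isUnit_det_lineBasis l
    have hkU : (k * lineBasis l).det ≠ 0 := by simp [hk, hU.ne_zero]
    refine ⟨toL L (k * lineBasis l) hkU, ?_, ?_⟩
    · rw [cosetEquiv_mk, QuotientGroup.eq, hH]
      exact ⟨lineBasis l, hU, by rw [eq_inv_mul_iff_mul_eq, toL_mul L hk hU.ne_zero hkU]⟩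
    · rw [nbr, cosetEquiv_mk, toL_mul L hkU hs (by simp [hk, hU.ne_zero, hs])]
      exact congrArg _ (toL_congr L _ _ (Matrix.mul_assoc _ _ _).symm)
  · rintro ⟨g, hx, hy⟩
    obtain ⟨k, hk, rfl⟩ := exists_toL_eq (O := O) L g
    rw [← cosetEquiv_mk hH hk, EmbeddingLike.apply_eq_iff_eq] at hx
    rw [toL_mul L hk hs (by simp [hk, hs]), ← cosetEquiv_mk hH,
      EmbeddingLike.apply_eq_iff_eq] at hy
    subst hx hy
    rw [dist_mk, ← Matrix.mul_assoc, Matrix.adjugate_mul, Matrix.smul_mul, Matrix.one_mul,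
      gap_smul D hs hk, gap_of_prim D hs ⟨1, 1, by simp [stepMat]⟩, det_stepMat,
      ordO_irreducible D.irreducible]

end Fermat.Agent.LT.Inert

end
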