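import Mathlib.RingTheory.DiscreteValuationRing.Basic
import Mathlib.RingTheory.LocalRing.ResidueField.Basic
import Mathlib.LinearAlgebra.Matrix.NonsingularInverse
import Mathlib.LinearAlgebra.Matrix.Adjugate
import Mathlib.Tactic.Ring

/-!
# Vertices of the `PGL₂` tree over a DVR and the displacement of a semilinear map

Vertices are nonsingular integral `2 × 2` matrices up to scalars and `GL₂(O)` on the right.
The distance of `k, k'` is the elementary divisor gap of `adj k * k'`.  For a semilinear map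
`k ↦ δ * σ k` the displacement at the neighbours of a vertex is that at the vertex plus `2`, `0`
or `-2`, and if some neighbour descends it is unique and all others ascend.
-/

set_option autoImplicit false
set_option linter.unusedSectionVars false

noncomputable section

namespace Fermat.Agent.LT.Inert

open IsLocalRing Matrix

/-- A DVR with a uniformiser and an automorphism fixing it. -/
structure TreeData (O : Type*) [CommRing O] [IsDomain O] [IsDiscreteValuationRing O] where
  σ : O ≃+* O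
  unif : O
  irreducible : Irreducible unif
  σ_unif : σ unif = unif

variable {O : Type*} [CommRing O] [IsDomain O] [IsDiscreteValuationRing O]

/-- The normalised valuation, with junk value `0` at zero. -/
def ordO (a : O) : ℕ := (IsDiscreteValuationRing.addVal O a).toNat

theorem addVal_eq_ordO {a : O} (ha : a ≠ 0) :
    IsDiscreteValuationRing.addVal O a = (ordO a : ℕ∞) := by
  rw [ordO, ENat.natCast_toNat]
  simpa [IsDiscreteValuationRing.addVal_eq_top_iff] using ha

theorem ordO_mul {a b : O} (ha : a ≠ 0) (hb : b ≠ 0) : ordO (a * b) = ordO a + ordO b := by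
  have h := IsDiscreteValuationRing.addVal_mul (a := a) (b := b)
  rw [addVal_eq_ordO ha, addVal_eq_ordO hb, addVal_eq_ordO (mul_ne_zero ha hb)] at h
  exact_mod_cast h

theorem ordO_pow {a : O} (ha : a ≠ 0) (n : ℕ) : ordO (a ^ n) = n * ordO a := by
  induction n with
  | zero => simp [ordO]
  | succ n ih => rw [pow_succ, ordO_mul (pow_ne_zero _ ha) ha, ih]; ring

theorem ordO_unit {a : O} (ha : IsUnit a) : ordO a = 0 := by
  obtain ⟨u, rfl⟩ := ha
  simp [ordO]

theorem ordO_irreducible {π : O} (hπ : Irreducible π) : ordO π = 1 := by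
  simp [ordO, IsDiscreteValuationRing.addVal_uniformizer hπ]

theorem exists_unit_of_ne_zero {π : O} (hπ : Irreducible π) {a : O} (ha : a ≠ 0) :
    ∃ u : Oˣ, a = u * π ^ ordO a := by
  obtain ⟨n, u, rfl⟩ := IsDiscreteValuationRing.eq_unit_mul_pow_irreducible ha hπ
  exact ⟨u, by rw [ordO_mul u.ne_zero (pow_ne_zero _ hπ.ne_zero), ordO_unit u.isUnit,
    ordO_pow hπ.ne_zero, ordO_irreducible hπ, zero_add, mul_one]⟩

theorem pow_dvd_iff_le_ordO {π : O} (hπ : Irreducible π) {a : O} (ha : a ≠ 0) {n : ℕ} :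
    π ^ n ∣ a ↔ n ≤ ordO a := by
  constructor
  · rintro ⟨b, rfl⟩
    have hb : b ≠ 0 := right_ne_zero_of_mul ha
    rw [ordO_mul (pow_ne_zero _ hπ.ne_zero) hb, ordO_pow hπ.ne_zero, ordO_irreducible hπ]
    omega
  · intro h
    obtain ⟨u, hu⟩ := exists_unit_of_ne_zero hπ ha
    rw [hu]
    exact Dvd.dvd.mul_left (pow_dvd_pow π h) _

theorem isUnit_iff_not_dvd {π : O} (hπ : Irreducible π) {a : O} : IsUnit a ↔ ¬ π ∣ a := by
  constructor
  · intro ha hd; exact hπ.not_isUnit (isUnit_of_dvd_unit hd ha)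
  · intro h
    by_contra hu
    rw [← mem_nonunits_iff, ← IsLocalRing.mem_maximalIdeal, hπ.maximalIdeal_eq,
      Ideal.mem_span_singleton] at hu
    exact h hu

abbrev Mat (O : Type*) := Matrix (Fin 2) (Fin 2) O

/-- A matrix with a unit entry. -/
def IsPrimMat (P : Mat O) : Prop := ∃ i j, IsUnit (P i j)

theorem dvd_mul_left_entries {a : O} {P : Mat O} (h : ∀ i j, a ∣ P i j) (U : Mat O) :
    ∀ i j, a ∣ (U * P) i j := fun i j => by
  rw [Matrix.mul_apply]
  exact Finset.dvd_sum fun l _ => Dvd.dvd.mul_left (h l j) _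

theorem dvd_mul_right_entries {a : O} {P : Mat O} (h : ∀ i j, a ∣ P i j) (U : Mat O) :
    ∀ i j, a ∣ (P * U) i j := fun i j => by
  rw [Matrix.mul_apply]
  exact Finset.dvd_sum fun l _ => Dvd.dvd.mul_right (h i l) _

variable (D : TreeData O)

theorem isPrimMat_iff {P : Mat O} : IsPrimMat P ↔ ¬ ∀ i j, D.unif ∣ P i j := by
  simp only [IsPrimMat, isUnit_iff_not_dvd D.irreducible, not_forall]

theorem IsPrimMat.mul_units {P : Mat O} (hP : IsPrimMat P) {U W : Mat O}
    (hU : IsUnit U.det) (hW : IsUnit W.det) : IsPrimMat (U * P * W) := by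
  obtain ⟨π, hπ⟩ := IsDiscreteValuationRing.exists_irreducible O
  let D : TreeData O := ⟨RingEquiv.refl O, π, hπ, rfl⟩
  rw [isPrimMat_iff D] at hP ⊢
  intro h
  apply hP
  have h' := dvd_mul_left_entries (dvd_mul_right_entries h W⁻¹) U⁻¹
  intro i j
  have := h' i j
  rwa [Matrix.mul_nonsing_inv_cancel_right W _ hW,
    Matrix.nonsing_inv_mul_cancel_left U _ hU] at this

theorem exists_primitive {P : Mat O} (hP : P.det ≠ 0) :
    ∃ (j : ℕ) (P₀ : Mat O), IsPrimMat P₀ ∧ P = D.unif ^ j • P₀ := by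
  suffices h : ∀ (m : ℕ) (P : Mat O), P.det ≠ 0 → ordO P.det ≤ m →
      ∃ (j : ℕ) (P₀ : Mat O), IsPrimMat P₀ ∧ P = D.unif ^ j • P₀ from h _ P hP le_rfl
  intro m
  induction m using Nat.strong_induction_on with
  | _ m ih =>
    intro P hP hm
    by_cases hprim : IsPrimMat P
    · exact ⟨0, P, hprim, by simp⟩
    rw [isPrimMat_iff D, not_not] at hprim
    choose c hc using hprim
    have hP' : P = D.unif • (Matrix.of c : Mat O) := by ext i j; simp [hc i j]
    have hd : (Matrix.of c : Mat O).det ≠ 0 := by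
      intro h; exact hP (by rw [hP', Matrix.det_smul, h, mul_zero])
    have hord : ordO P.det = 2 + ordO (Matrix.of c : Mat O).det := by
      rw [hP', Matrix.det_smul, Fintype.card_fin, ordO_mul (pow_ne_zero _ D.irreducible.ne_zero) hd,
        ordO_pow D.irreducible.ne_zero, ordO_irreducible D.irreducible]
    obtain ⟨j, P₀, h₀, hj⟩ := ih (m - 1) (by omega) _ hd (by omega)
    exact ⟨j + 1, P₀, h₀, by rw [hP', hj, pow_succ', mul_smul]⟩

open Classical in
/-- The exponent of the largest power of the uniformiser dividing all entries. -/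
def content (P : Mat O) : ℕ :=
  Nat.findGreatest (fun j => ∀ i k, D.unif ^ j ∣ P i k) (ordO P.det)

/-- The elementary divisor gap. -/
def gap (P : Mat O) : ℕ := ordO P.det - 2 * content D P

theorem gap_eq {P : Mat O} {j : ℕ} {P₀ : Mat O} (hd : P₀.det ≠ 0) (hprim : IsPrimMat P₀)
    (hP : P = D.unif ^ j • P₀) : gap D P = ordO P₀.det := by
  classical
  have hu0 := D.irreducible.ne_zero
  have hord : ordO P.det = 2 * j + ordO P₀.det := by
    rw [hP, Matrix.det_smul, Fintype.card_fin, ← pow_mul, ordO_mul (pow_ne_zero _ hu0) hd,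
      ordO_pow hu0, ordO_irreducible D.irreducible]
    ring
  have hcont : content D P = j := by
    refine Nat.findGreatest_eq_iff.mpr ⟨by omega, fun _ i k => ?_, fun l hjl _ hl => ?_⟩
    · rw [hP]; exact Dvd.intro _ rfl
    · obtain ⟨i, k, hik⟩ := hprim
      have := hl i k
      rw [hP, Matrix.smul_apply, smul_eq_mul, pow_dvd_iff_le_ordO D.irreducible
        (mul_ne_zero (pow_ne_zero _ hu0) hik.ne_zero), ordO_mul (pow_ne_zero _ hu0) hik.ne_zero,
        ordO_pow hu0, ordO_irreducible D.irreducible, ordO_unit hik] at this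
      omega
  rw [gap, hcont, hord]
  omega

theorem gap_of_prim {P : Mat O} (hd : P.det ≠ 0) (hprim : IsPrimMat P) :
    gap D P = ordO P.det := gap_eq D hd hprim (j := 0) (by simp)

theorem gap_smul {P : Mat O} (hd : P.det ≠ 0) {a : O} (ha : a ≠ 0) :
    gap D (a • P) = gap D P := by
  obtain ⟨j, P₀, h₀, rfl⟩ := exists_primitive D hd
  obtain ⟨u, hu⟩ := exists_unit_of_ne_zero D.irreducible ha
  have hd₀ : P₀.det ≠ 0 := fun h => hd (by rw [Matrix.det_smul, h, mul_zero])
  have hud : ((u : O) • P₀).det ≠ 0 := by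
    rw [Matrix.det_smul]; exact mul_ne_zero (pow_ne_zero _ u.ne_zero) hd₀
  rw [gap_eq D hd₀ h₀ rfl, gap_eq D (P₀ := (u : O) • P₀) (j := ordO a + j) hud]
  · rw [Matrix.det_smul, Fintype.card_fin, ordO_mul (pow_ne_zero _ u.ne_zero) hd₀,
      ordO_unit (u.isUnit.pow 2), zero_add]
  · obtain ⟨i, k, hik⟩ := h₀
    exact ⟨i, k, by simpa using u.isUnit.mul hik⟩
  · rw [smul_smul, smul_smul]
    congr 1
    rw [pow_add]
    conv_lhs => rw [hu]
    ring

theorem gap_units_mul {P : Mat O} (hd : P.det ≠ 0) {U W : Mat O} (hU : IsUnit U.det)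
    (hW : IsUnit W.det) : gap D (U * P * W) = gap D P := by
  obtain ⟨j, P₀, h₀, rfl⟩ := exists_primitive D hd
  have hd₀ : P₀.det ≠ 0 := fun h => hd (by rw [Matrix.det_smul, h, mul_zero])
  rw [gap_eq D hd₀ h₀ rfl, gap_eq D (P₀ := U * P₀ * W) (j := j)
    (by simp [hd₀, hU.ne_zero, hW.ne_zero]) (h₀.mul_units hU hW)
    (by rw [Matrix.mul_smul, Matrix.smul_mul])]
  rw [Matrix.det_mul, Matrix.det_mul, ordO_mul (mul_ne_zero hU.ne_zero hd₀) hW.ne_zero,
    ordO_mul hU.ne_zero hd₀, ordO_unit hU, ordO_unit hW]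
  ring

theorem gap_adjugate {P : Mat O} (hd : P.det ≠ 0) : gap D P.adjugate = gap D P := by
  obtain ⟨j, P₀, h₀, rfl⟩ := exists_primitive D hd
  have hd₀ : P₀.det ≠ 0 := fun h => hd (by rw [Matrix.det_smul, h, mul_zero])
  have hdet : P₀.adjugate.det = P₀.det := by simp [Matrix.det_adjugate]
  rw [gap_eq D hd₀ h₀ rfl, gap_eq D (P₀ := P₀.adjugate) (j := j) (hdet ▸ hd₀) ?_ ?_, hdet]
  · obtain ⟨i, k, hik⟩ := h₀
    rw [Matrix.adjugate_fin_two]
    fin_cases i <;> fin_cases k
    · exact ⟨1, 1, by simpa using hik⟩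
    · exact ⟨0, 1, by simpa using hik⟩
    · exact ⟨1, 0, by simpa using hik⟩
    · exact ⟨0, 0, by simpa using hik⟩
  · rw [Matrix.adjugate_smul]; simp

theorem gap_eq_zero_iff {P : Mat O} (hd : P.det ≠ 0) :
    gap D P = 0 ↔ ∃ (j : ℕ) (U : Mat O), IsUnit U.det ∧ P = D.unif ^ j • U := by
  obtain ⟨j, P₀, h₀, rfl⟩ := exists_primitive D hd
  have hd₀ : P₀.det ≠ 0 := fun h => hd (by rw [Matrix.det_smul, h, mul_zero])
  rw [gap_eq D hd₀ h₀ rfl]
  constructor
  · intro h
    refine ⟨j, P₀, ?_, rfl⟩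
    obtain ⟨u, hu⟩ := exists_unit_of_ne_zero D.irreducible hd₀
    rw [hu, h, pow_zero, mul_one]; exact u.isUnit
  · rintro ⟨j', U, hU, hjU⟩
    have h1 : IsPrimMat U := by
      rw [isPrimMat_iff D]
      intro hall
      refine (isUnit_iff_not_dvd D.irreducible).mp hU ?_
      rw [Matrix.det_fin_two]
      exact dvd_sub ((hall 0 0).mul_right _) ((hall 0 1).mul_right _)
    rw [← gap_eq D hd₀ h₀ rfl, gap_eq D hU.ne_zero h1 hjU, ordO_unit hU]

/-! ## Vertices -/

/-- Nonsingular matrices. -/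
def Rep (O : Type*) [CommRing O] := {k : Mat O // k.det ≠ 0}

theorem det_adjugate_mul_ne_zero {k l : Mat O} (hk : k.det ≠ 0) (hl : l.det ≠ 0) :
    (k.adjugate * l).det ≠ 0 := by
  simp [Matrix.det_adjugate, hk, hl]

/-- Two representatives give the same vertex. -/
def SameVertex (k l : Rep O) : Prop :=
  ∃ (U : Mat O) (a b : O), IsUnit U.det ∧ a ≠ 0 ∧ b ≠ 0 ∧ a • l.1 = b • (k.1 * U)

theorem SameVertex.refl (k : Rep O) : SameVertex k k :=
  ⟨1, 1, 1, by simp, one_ne_zero, one_ne_zero, by simp⟩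

theorem SameVertex.symm {k l : Rep O} (h : SameVertex k l) : SameVertex l k := by
  obtain ⟨U, a, b, hU, ha, hb, h⟩ := h
  refine ⟨U⁻¹, b, a, Matrix.isUnit_nonsing_inv_det U hU, hb, ha, ?_⟩
  rw [← Matrix.smul_mul, h, Matrix.smul_mul, Matrix.mul_nonsing_inv_cancel_right U _ hU]

theorem SameVertex.trans {k l m : Rep O} (h : SameVertex k l) (h' : SameVertex l m) :
    SameVertex k m := by
  obtain ⟨U, a, b, hU, ha, hb, h⟩ := h
  obtain ⟨W, a', b', hW, ha', hb', h'⟩ := h'
  refine ⟨U * W, a * a', b * b', by simpa using hU.mul hW, mul_ne_zero ha ha',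
    mul_ne_zero hb hb', ?_⟩
  calc (a * a') • m.1 = b' • (a • l.1 * W) := by
        rw [mul_smul, h', Matrix.smul_mul, smul_comm]
    _ = (b * b') • (k.1 * (U * W)) := by
        rw [h, Matrix.smul_mul, smul_smul, mul_comm b b', Matrix.mul_assoc]

instance vertexSetoid : Setoid (Rep O) :=
  ⟨SameVertex, ⟨SameVertex.refl, SameVertex.symm, SameVertex.trans⟩⟩

/-- Vertices of the tree. -/
def Vertex (O : Type*) [CommRing O] [IsDomain O] [IsDiscreteValuationRing O] :=
  Quotient (vertexSetoid (O := O))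

/-- The vertex of a representative. -/
def Vertex.mk (k : Mat O) (hk : k.det ≠ 0) : Vertex O := Quotient.mk _ ⟨k, hk⟩

theorem Vertex.exists_rep (x : Vertex O) : ∃ k hk, Vertex.mk k hk = x :=
  Quotient.inductionOn x fun k => ⟨k.1, k.2, rfl⟩

theorem gap_adjugate_mul_congr_right {k : Mat O} (hk : k.det ≠ 0) {l l' : Rep O}
    (h : SameVertex l l') : gap D (k.adjugate * l.1) = gap D (k.adjugate * l'.1) := by
  obtain ⟨U, a, b, hU, ha, hb, h⟩ := h
  have hd := det_adjugate_mul_ne_zero hk l'.2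
  have hd2 := det_adjugate_mul_ne_zero hk l.2
  have hd3 : (k.adjugate * l.1 * U).det ≠ 0 := by
    rw [Matrix.det_mul]; exact mul_ne_zero hd2 hU.ne_zero
  rw [← gap_smul D hd ha, ← Matrix.mul_smul, h, Matrix.mul_smul, ← Matrix.mul_assoc,
    gap_smul D hd3 hb]
  have := gap_units_mul D hd2 (U := 1) (by simp) hU
  simpa using this.symm

theorem gap_adjugate_mul_comm {k l : Mat O} (hk : k.det ≠ 0) (hl : l.det ≠ 0) :
    gap D (k.adjugate * l) = gap D (l.adjugate * k) := by
  rw [← gap_adjugate D (det_adjugate_mul_ne_zero hk hl), Matrix.adjugate_mul_distrib,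
    Matrix.adjugate_adjugate _ (by simp)]
  simp

/-- The distance of two vertices. -/
def dist : Vertex O → Vertex O → ℕ :=
  Quotient.lift₂ (fun k l : Rep O => gap D (k.1.adjugate * l.1)) fun k l k' l' hk hl => by
    show gap D (k.1.adjugate * l.1) = gap D (k'.1.adjugate * l'.1)
    rw [gap_adjugate_mul_congr_right D k.2 hl, gap_adjugate_mul_comm D k.2 l'.2,
      gap_adjugate_mul_congr_right D l'.2 hk, gap_adjugate_mul_comm D l'.2 k'.2]

theorem dist_mk {k l : Mat O} (hk : k.det ≠ 0) (hl : l.det ≠ 0) :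
    dist D (Vertex.mk k hk) (Vertex.mk l hl) = gap D (k.adjugate * l) := rfl

theorem dist_comm (x y : Vertex O) : dist D x y = dist D y x := by
  obtain ⟨k, hk, rfl⟩ := x.exists_rep
  obtain ⟨l, hl, rfl⟩ := y.exists_rep
  exact gap_adjugate_mul_comm D hk hl

theorem dist_eq_zero_iff (x y : Vertex O) : dist D x y = 0 ↔ x = y := by
  obtain ⟨k, hk, rfl⟩ := x.exists_rep
  obtain ⟨l, hl, rfl⟩ := y.exists_rep
  rw [dist_mk, gap_eq_zero_iff D (det_adjugate_mul_ne_zero hk hl)]
  constructor
  · rintro ⟨j, U, hU, h⟩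
    refine Quotient.sound ⟨U, k.det, D.unif ^ j, hU, hk,
      pow_ne_zero _ D.irreducible.ne_zero, ?_⟩
    show k.det • l = _
    rw [← Matrix.mul_smul, ← h, ← Matrix.mul_assoc, Matrix.mul_adjugate, Matrix.smul_mul,
      Matrix.one_mul]
  · intro h
    obtain ⟨U, a, b, hU, ha, hb, h⟩ := (Quotient.exact h : SameVertex ⟨k, hk⟩ ⟨l, hl⟩)
    have hzero : gap D (k.adjugate * l) = 0 := by
      have := gap_adjugate_mul_congr_right D hk (l := ⟨k, hk⟩) (l' := ⟨l, hl⟩)
        ⟨U, a, b, hU, ha, hb, h⟩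
      rw [← this]
      show gap D (k.adjugate * k) = 0
      rw [Matrix.adjugate_mul, gap_smul D (by simp) hk, gap_of_prim D (by simp)
        ⟨0, 0, by simp⟩]
      simp [ordO_unit]
    exact (gap_eq_zero_iff D (det_adjugate_mul_ne_zero hk hl)).mp hzero

/-- Left multiplication by a nonsingular matrix. -/
def leftMul (δ : Mat O) (hδ : δ.det ≠ 0) : Vertex O → Vertex O :=
  Quotient.map (fun k => ⟨δ * k.1, by simpa using mul_ne_zero hδ k.2⟩)
    fun k l ⟨U, a, b, hU, ha, hb, h⟩ => ⟨U, a, b, hU, ha, hb, by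
      show a • (δ * l.1) = b • (δ * k.1 * U)
      rw [← Matrix.mul_smul, h, Matrix.mul_smul, Matrix.mul_assoc]⟩

theorem dist_leftMul (δ : Mat O) (hδ : δ.det ≠ 0) (x y : Vertex O) :
    dist D (leftMul δ hδ x) (leftMul δ hδ y) = dist D x y := by
  obtain ⟨k, hk, rfl⟩ := x.exists_rep
  obtain ⟨l, hl, rfl⟩ := y.exists_rep
  show gap D ((δ * k).adjugate * (δ * l)) = gap D (k.adjugate * l)
  rw [Matrix.adjugate_mul_distrib, Matrix.mul_assoc, ← Matrix.mul_assoc δ.adjugate,
    Matrix.adjugate_mul, Matrix.smul_mul, Matrix.one_mul, Matrix.mul_smul,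
    gap_smul D (det_adjugate_mul_ne_zero hk hl) hδ]

/-- The automorphism applied entrywise. -/
def galMap : Vertex O → Vertex O :=
  Quotient.map
    (fun k => ⟨k.1.map D.σ, by
      rw [← RingEquiv.coe_toRingHom, ← RingHom.mapMatrix_apply, ← RingHom.map_det]
      simpa using k.2⟩)
    fun k l ⟨U, a, b, hU, ha, hb, h⟩ => ⟨U.map D.σ, D.σ a, D.σ b, by
      rw [← RingEquiv.coe_toRingHom, ← RingHom.mapMatrix_apply, ← RingHom.map_det]
      exact hU.map _, by simpa using ha, by simpa using hb, by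
      show D.σ a • l.1.map D.σ = D.σ b • (k.1.map D.σ * U.map D.σ)
      rw [← Matrix.map_mul]
      have h' := congrArg (fun M : Mat O => M.map D.σ) h
      simpa [Matrix.map_smul'] using h'⟩

/-- The semilinear map `k ↦ δ * σ k`. -/
def act (δ : Mat O) (hδ : δ.det ≠ 0) (x : Vertex O) : Vertex O := leftMul δ hδ (galMap D x)

/-- Its displacement. -/
def disp (δ : Mat O) (hδ : δ.det ≠ 0) (x : Vertex O) : ℕ := dist D x (act D δ hδ x)

theorem disp_mk (δ : Mat O) (hδ : δ.det ≠ 0) {k : Mat O} (hk : k.det ≠ 0) :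
    disp D δ hδ (Vertex.mk k hk) = gap D (k.adjugate * (δ * k.map D.σ)) := rfl

theorem det_map_sigma (k : Mat O) : (k.map D.σ).det = D.σ k.det :=
  (RingEquiv.map_det D.σ k).symm

/-- A primitive matrix of the semilinear map in the basis of a representative. -/
theorem exists_localMatrix (δ : Mat O) (hδ : δ.det ≠ 0) {k : Mat O} (hk : k.det ≠ 0) :
    ∃ (h : Mat O) (j : ℕ), IsPrimMat h ∧ h.det ≠ 0 ∧
      k.adjugate * (δ * k.map D.σ) = D.unif ^ j • h ∧
      disp D δ hδ (Vertex.mk k hk) = ordO h.det := by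
  have hd : (k.adjugate * (δ * k.map D.σ)).det ≠ 0 := by
    apply det_adjugate_mul_ne_zero hk
    rw [Matrix.det_mul, det_map_sigma]
    exact mul_ne_zero hδ (by simpa using hk)
  obtain ⟨j, h, hprim, heq⟩ := exists_primitive D hd
  have hd' : h.det ≠ 0 := fun h0 => hd (by rw [heq, Matrix.det_smul, h0, mul_zero])
  exact ⟨h, j, hprim, hd', heq, by rw [disp_mk, gap_eq D hd' hprim heq]⟩

/-! ## Neighbours -/

/-- Lifts from the residue field. -/
def lift (r : ResidueField O) : O := (IsLocalRing.residue_surjective r).choose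

@[simp]
theorem residue_lift (r : ResidueField O) : IsLocalRing.residue O (lift r) = r :=
  (IsLocalRing.residue_surjective r).choose_spec

/-- Lines of the residue plane. -/
abbrev Line (O : Type*) [CommRing O] [IsLocalRing O] := Option (ResidueField O)

/-- A unimodular matrix whose second column spans the line. -/
def lineBasis : Line O → Mat O
  | none => !![0, 1; 1, 0]
  | some r => !![1, lift r; 0, 1]

theorem isUnit_det_lineBasis (L : Line O) : IsUnit (lineBasis L).det := by
  cases L <;> simp [lineBasis, Matrix.det_fin_two]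

/-- `diag (ϖ, 1)`. -/
def stepMat : Mat O := !![D.unif, 0; 0, 1]

theorem det_stepMat : (stepMat D).det = D.unif := by simp [stepMat, Matrix.det_fin_two]

theorem det_mul_step_ne_zero {k : Mat O} (hk : k.det ≠ 0) {U : Mat O} (hU : IsUnit U.det) :
    (k * (U * stepMat D)).det ≠ 0 := by
  simp [det_stepMat, hk, hU.ne_zero, D.irreducible.ne_zero]

/-- The neighbour of `k` along a line. -/
def nbr {k : Mat O} (hk : k.det ≠ 0) (L : Line O) : Vertex O :=
  Vertex.mk (k * (lineBasis L * stepMat D)) (det_mul_step_ne_zero D hk (isUnit_det_lineBasis L))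

theorem dist_nbr {k : Mat O} (hk : k.det ≠ 0) (L : Line O) :
    dist D (Vertex.mk k hk) (nbr D hk L) = 1 := by
  have hU := isUnit_det_lineBasis L
  have hd : (stepMat D).det ≠ 0 := by rw [det_stepMat]; exact D.irreducible.ne_zero
  rw [nbr, dist_mk, ← Matrix.mul_assoc, Matrix.adjugate_mul, Matrix.smul_mul, Matrix.one_mul,
    gap_smul D (by simp [det_stepMat, hU.ne_zero, D.irreducible.ne_zero]) hk]
  have := gap_units_mul D hd hU (W := 1) (by simp)
  rw [Matrix.mul_one] at this
  rw [this, gap_of_prim D hd ⟨1, 1, by simp [stepMat]⟩, det_stepMat,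
    ordO_irreducible D.irreducible]

theorem nbr_injective {k : Mat O} (hk : k.det ≠ 0) : Function.Injective (nbr D hk) := by
  intro L L' h
  by_contra hne
  have h0 := (dist_eq_zero_iff D _ _).mpr h
  rw [nbr, nbr, dist_mk, Matrix.adjugate_mul_distrib, Matrix.mul_assoc,
    ← Matrix.mul_assoc k.adjugate, Matrix.adjugate_mul, Matrix.smul_mul, Matrix.one_mul,
    Matrix.mul_smul,
    gap_smul D (by simp [det_stepMat, (isUnit_det_lineBasis L).ne_zero,
      (isUnit_det_lineBasis L').ne_zero, D.irreducible.ne_zero, Matrix.det_adjugate]) hk] at h0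
  set M := (lineBasis L * stepMat D).adjugate * (lineBasis L' * stepMat D) with hM
  have hd : M.det ≠ 0 := by
    simp [hM, det_stepMat, (isUnit_det_lineBasis L).ne_zero,
      (isUnit_det_lineBasis L').ne_zero, D.irreducible.ne_zero, Matrix.det_adjugate]
  have hprim : IsPrimMat M := by
    cases L with
    | none => cases L' with
      | none => exact absurd rfl hne
      | some r =>
        refine ⟨0, 1, ?_⟩
        simp [hM, lineBasis, stepMat, Matrix.adjugate_fin_two]
    | some r => cases L' with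
      | none =>
        refine ⟨0, 1, ?_⟩
        simp [hM, lineBasis, stepMat, Matrix.adjugate_fin_two]
      | some r' =>
        refine ⟨0, 1, ?_⟩
        have : IsUnit (lift r' - lift r) := by
          rw [← IsLocalRing.residue_ne_zero_iff_isUnit, map_sub, residue_lift, residue_lift,
            sub_ne_zero]
          exact fun h => hne (by rw [h])
        simpa [hM, lineBasis, stepMat, Matrix.adjugate_fin_two, ← sub_eq_add_neg] using this
  rw [gap_of_prim D hd hprim] at h0
  have hord : ordO M.det = 2 := by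
    have hL := isUnit_det_lineBasis L
    have hL' := isUnit_det_lineBasis L'
    rw [hM, Matrix.det_mul, Matrix.det_adjugate, Fintype.card_fin, Nat.add_one_sub_one, pow_one,
      Matrix.det_mul, Matrix.det_mul, det_stepMat,
      ordO_mul (mul_ne_zero hL.ne_zero D.irreducible.ne_zero)
        (mul_ne_zero hL'.ne_zero D.irreducible.ne_zero),
      ordO_mul hL.ne_zero D.irreducible.ne_zero, ordO_mul hL'.ne_zero D.irreducible.ne_zero,
      ordO_irreducible D.irreducible, ordO_unit hL, ordO_unit hL']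
  omega

theorem exists_nbr_eq {k : Mat O} (hk : k.det ≠ 0) {y : Vertex O}
    (hy : dist D (Vertex.mk k hk) y = 1) : ∃ L, nbr D hk L = y := by
  obtain ⟨l, hl, rfl⟩ := y.exists_rep
  rw [dist_mk] at hy
  obtain ⟨j, m, hm, hkl⟩ := exists_primitive D (det_adjugate_mul_ne_zero hk hl)
  have hmd : m.det ≠ 0 := fun h => det_adjugate_mul_ne_zero hk hl
    (by rw [hkl, Matrix.det_smul, h, mul_zero])
  rw [gap_eq D hmd hm hkl] at hy
  have hdvd : D.unif ∣ m.det := by
    have := (pow_dvd_iff_le_ordO D.irreducible hmd (n := 1)).mpr (by omega)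
    simpa using this
  suffices h : ∃ L : Line O, ∀ c : Fin 2, D.unif ∣ ((lineBasis L).adjugate * m) 0 c by
    obtain ⟨L, hL⟩ := h
    choose c hc using hL
    refine ⟨L, ((dist_eq_zero_iff D _ _).mp ?_).symm.symm⟩
    rw [nbr, dist_mk, gap_eq_zero_iff D (det_adjugate_mul_ne_zero
      (det_mul_step_ne_zero D hk (isUnit_det_lineBasis L)) hl)]
    set m' := (lineBasis L).adjugate * m with hm'
    refine ⟨j + 1, !![c 0, c 1; m' 1 0, m' 1 1], ?_, ?_⟩
    · obtain ⟨u, hu⟩ := exists_unit_of_ne_zero D.irreducible hmd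
      rw [hy, pow_one] at hu
      have h1 : m'.det = (lineBasis L).det * m.det := by
        simp [hm', Matrix.det_adjugate]
      rw [Matrix.det_fin_two m', hc 0, hc 1, hu] at h1
      have h2 : (!![c 0, c 1; m' 1 0, m' 1 1] : Mat O).det = (lineBasis L).det * u := by
        apply mul_left_cancel₀ D.irreducible.ne_zero
        rw [Matrix.det_fin_two_of]
        linear_combination h1
      rw [h2]
      exact (isUnit_det_lineBasis L).mul u.isUnit
    · rw [Matrix.adjugate_mul_distrib, Matrix.adjugate_mul_distrib, Matrix.mul_assoc, hkl,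
        Matrix.mul_smul, Matrix.mul_assoc, ← hm']
      rw [pow_succ, mul_smul]
      congr 1
      ext a b
      fin_cases a <;> fin_cases b <;>
        simp [stepMat, Matrix.adjugate_fin_two, Matrix.mul_apply, Fin.sum_univ_two, hc]
  by_cases hrow : D.unif ∣ m 1 0 ∧ D.unif ∣ m 1 1
  · refine ⟨none, fun c => ?_⟩
    fin_cases c <;> simp [lineBasis, Matrix.adjugate_fin_two, Matrix.mul_apply, Fin.sum_univ_two,
      hrow.1, hrow.2]
  · rw [Matrix.det_fin_two] at hdvd
    have key : ∃ r : O, D.unif ∣ m 0 0 - r * m 1 0 ∧ D.unif ∣ m 0 1 - r * m 1 1 := by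
      rcases not_and_or.mp hrow with h | h
      · obtain ⟨w, hw⟩ := ((isUnit_iff_not_dvd D.irreducible).mpr h).exists_right_inv
        refine ⟨m 0 0 * w, ⟨0, ?_⟩, ?_⟩
        · linear_combination -(m 0 0) * hw
        · rw [show m 0 1 - m 0 0 * w * m 1 1 = -(w * (m 0 0 * m 1 1 - m 0 1 * m 1 0)) by
            linear_combination -(m 0 1) * hw]
          exact (hdvd.mul_left w).neg_right
      · obtain ⟨w, hw⟩ := ((isUnit_iff_not_dvd D.irreducible).mpr h).exists_right_inv
        refine ⟨m 0 1 * w, ?_, ⟨0, ?_⟩⟩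
        · rw [show m 0 0 - m 0 1 * w * m 1 0 = w * (m 0 0 * m 1 1 - m 0 1 * m 1 0) by
            linear_combination -(m 0 0) * hw]
          exact hdvd.mul_left w
        · linear_combination -(m 0 1) * hw
    obtain ⟨r, hr0, hr1⟩ := key
    refine ⟨some (IsLocalRing.residue O r), fun c => ?_⟩
    have hlr : D.unif ∣ r - lift (IsLocalRing.residue O r) := by
      rw [← Ideal.mem_span_singleton, ← D.irreducible.maximalIdeal_eq,
        ← IsLocalRing.residue_eq_zero_iff, map_sub, residue_lift, sub_self]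
    fin_cases c
    · have := hr0.add (hlr.mul_right (m 1 0))
      simpa [lineBasis, Matrix.adjugate_fin_two, Matrix.mul_apply, Fin.sum_univ_two,
        show m 0 0 - r * m 1 0 + (r - lift (IsLocalRing.residue O r)) * m 1 0
          = m 0 0 + -(lift (IsLocalRing.residue O r) * m 1 0) by ring] using this
    · have := hr1.add (hlr.mul_right (m 1 1))
      simpa [lineBasis, Matrix.adjugate_fin_two, Matrix.mul_apply, Fin.sum_univ_two,
        show m 0 1 - r * m 1 1 + (r - lift (IsLocalRing.residue O r)) * m 1 1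
          = m 0 1 + -(lift (IsLocalRing.residue O r) * m 1 1) by ring] using this

/-- The local matrix at the neighbour along the second basis vector. -/
theorem step_local (h : Mat O) :
    (stepMat D).adjugate * h * (stepMat D).map D.σ
      = !![D.unif * h 0 0, h 0 1; D.unif ^ 2 * h 1 0, D.unif * h 1 1] := by
  ext a b
  fin_cases a <;> fin_cases b <;>
    simp [stepMat, Matrix.adjugate_fin_two, Matrix.mul_apply, Matrix.vecMul, dotProduct,
      Fin.sum_univ_two, D.σ_unif] <;> ring

/-- Displacement at the neighbour in terms of the local matrix. -/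
theorem disp_step {δ : Mat O} (hδ : δ.det ≠ 0) {k : Mat O} (hk : k.det ≠ 0) {h : Mat O} {j : ℕ}
    (hh : h.det ≠ 0) (heq : k.adjugate * (δ * k.map D.σ) = D.unif ^ j • h) {U : Mat O}
    (hU : IsUnit U.det) :
    disp D δ hδ (Vertex.mk (k * (U * stepMat D)) (det_mul_step_ne_zero D hk hU))
      = gap D !![D.unif * (U.adjugate * h * U.map D.σ) 0 0, (U.adjugate * h * U.map D.σ) 0 1;
          D.unif ^ 2 * (U.adjugate * h * U.map D.σ) 1 0,
          D.unif * (U.adjugate * h * U.map D.σ) 1 1] := by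
  set h' := U.adjugate * h * U.map D.σ with hh'
  have hh'0 : h'.det ≠ 0 := by
    simp [hh', Matrix.det_adjugate, det_map_sigma, hU.ne_zero, hh]
  rw [disp_mk, ← step_local]
  have : (k * (U * stepMat D)).adjugate * (δ * (k * (U * stepMat D)).map D.σ)
      = D.unif ^ j • ((stepMat D).adjugate * h' * (stepMat D).map D.σ) := by
    rw [Matrix.map_mul, Matrix.map_mul, Matrix.adjugate_mul_distrib, Matrix.adjugate_mul_distrib]
    simp only [← Matrix.mul_assoc]
    rw [Matrix.mul_assoc ((stepMat D).adjugate * U.adjugate) k.adjugate,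
      Matrix.mul_assoc ((stepMat D).adjugate * U.adjugate) (k.adjugate * δ),
      Matrix.mul_assoc k.adjugate, heq]
    simp only [hh', Matrix.mul_smul, Matrix.smul_mul, Matrix.mul_assoc]
  rw [this, gap_smul D ?_ (pow_ne_zero _ D.irreducible.ne_zero)]
  simp [Matrix.det_adjugate, det_map_sigma, det_stepMat, hh'0, D.irreducible.ne_zero, D.σ_unif]

/-- The gap after one step. -/
theorem gap_step {h : Mat O} (hh : h.det ≠ 0) (hp : IsPrimMat h) :
    let M : Mat O := !![D.unif * h 0 0, h 0 1; D.unif ^ 2 * h 1 0, D.unif * h 1 1]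
    (¬ D.unif ∣ h 0 1 → gap D M = ordO h.det + 2) ∧
    (D.unif ∣ h 0 1 → ¬ (D.unif ∣ h 0 0 ∧ D.unif ∣ h 1 1 ∧ D.unif ^ 2 ∣ h 0 1) →
      gap D M = ordO h.det) ∧
    (D.unif ∣ h 0 0 → D.unif ∣ h 1 1 → D.unif ^ 2 ∣ h 0 1 → gap D M + 2 = ordO h.det) := by
  intro M
  have hu0 := D.irreducible.ne_zero
  have hMd : M.det = D.unif ^ 2 * h.det := by
    simp only [M, Matrix.det_fin_two_of, Matrix.det_fin_two h]; ring
  have hM0 : M.det ≠ 0 := hMd ▸ mul_ne_zero (pow_ne_zero _ hu0) hh
  have hord : ordO M.det = ordO h.det + 2 := by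
    rw [hMd, ordO_mul (pow_ne_zero _ hu0) hh, ordO_pow hu0, ordO_irreducible D.irreducible]
    ring
  refine ⟨fun hb => ?_, fun hb hnot => ?_, fun ha hd hb => ?_⟩
  · rw [gap_of_prim D hM0 ⟨0, 1, by simpa [M] using (isUnit_iff_not_dvd D.irreducible).mpr hb⟩,
      hord]
  · obtain ⟨b, hb'⟩ := hb
    have hM : M = D.unif ^ 1 • (!![h 0 0, b; D.unif * h 1 0, h 1 1] : Mat O) := by
      ext a c; fin_cases a <;> fin_cases c <;> simp [M, hb'] <;> ring
    have h0 : (!![h 0 0, b; D.unif * h 1 0, h 1 1] : Mat O).det = h.det := by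
      rw [Matrix.det_fin_two_of, Matrix.det_fin_two h, hb']; ring
    rw [gap_eq D (h0 ▸ hh) ?_ hM, h0]
    rw [isPrimMat_iff D]
    intro hall
    have h00 := hall 0 0
    have h01 := hall 0 1
    have h11 := hall 1 1
    simp only [Matrix.cons_val', Matrix.cons_val_zero, Matrix.cons_val_one, Matrix.empty_val',
      Matrix.cons_val_fin_one, Matrix.of_apply] at h00 h01 h11
    exact hnot ⟨h00, h11, by rw [hb', pow_two]; exact mul_dvd_mul_left _ h01⟩
  · obtain ⟨a, ha'⟩ := ha
    obtain ⟨d, hd'⟩ := hd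
    obtain ⟨b, hb'⟩ := hb
    have hc : IsUnit (h 1 0) := by
      by_contra hc
      rw [isUnit_iff_not_dvd D.irreducible, not_not] at hc
      refine (isPrimMat_iff D).mp hp fun i j => ?_
      fin_cases i <;> fin_cases j
      · exact ⟨a, ha'⟩
      · exact ⟨D.unif * b, by rw [← mul_assoc, ← pow_two]; exact hb'⟩
      · exact hc
      · exact ⟨d, hd'⟩
    have hM : M = D.unif ^ 2 • (!![a, b; h 1 0, d] : Mat O) := by
      ext x c; fin_cases x <;> fin_cases c <;> simp [M, ha', hb', hd'] <;> ring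
    have h0 : h.det = D.unif ^ 2 * (!![a, b; h 1 0, d] : Mat O).det := by
      rw [Matrix.det_fin_two_of, Matrix.det_fin_two h, ha', hb', hd']; ring
    have h00 : (!![a, b; h 1 0, d] : Mat O).det ≠ 0 := fun h' => hh (by rw [h0, h', mul_zero])
    rw [gap_eq D h00 ⟨1, 0, by simpa using hc⟩ hM, h0,
      ordO_mul (pow_ne_zero _ hu0) h00, ordO_pow hu0, ordO_irreducible D.irreducible]
    ring

/-- The trichotomy at a neighbour. -/
theorem disp_nbr_trichotomy {δ : Mat O} (hδ : δ.det ≠ 0) {x y : Vertex O} (hxy : dist D x y = 1) :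
    disp D δ hδ y = disp D δ hδ x + 2 ∨ disp D δ hδ y = disp D δ hδ x ∨
      disp D δ hδ y + 2 = disp D δ hδ x := by
  obtain ⟨k, hk, rfl⟩ := x.exists_rep
  obtain ⟨L, rfl⟩ := exists_nbr_eq D hk hxy
  obtain ⟨h, j, hp, hh, heq, hn⟩ := exists_localMatrix D δ hδ hk
  have hU := isUnit_det_lineBasis L
  rw [hn, nbr, disp_step D hδ hk hh heq hU]
  set h' := (lineBasis L).adjugate * h * (lineBasis L).map D.σ with hh'
  have hUa : IsUnit (lineBasis L).adjugate.det := by simpa [Matrix.det_adjugate] using hU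
  have hUs : IsUnit ((lineBasis L).map D.σ).det := by rw [det_map_sigma]; exact hU.map _
  have hp' : IsPrimMat h' := hp.mul_units hUa hUs
  have hh'0 : h'.det ≠ 0 := by simp [hh', hUa.ne_zero, hUs.ne_zero, hh]
  have hord : ordO h'.det = ordO h.det := by
    rw [hh', Matrix.det_mul, Matrix.det_mul, ordO_mul (mul_ne_zero hUa.ne_zero hh) hUs.ne_zero,
      ordO_mul hUa.ne_zero hh, ordO_unit hUa, ordO_unit hUs]
    ring
  obtain ⟨h1, h2, h3⟩ := gap_step D hh'0 hp'
  by_cases hb : D.unif ∣ h' 0 1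
  · by_cases hdesc : D.unif ∣ h' 0 0 ∧ D.unif ∣ h' 1 1 ∧ D.unif ^ 2 ∣ h' 0 1
    · exact Or.inr (Or.inr (by rw [← hord]; exact h3 hdesc.1 hdesc.2.1 hdesc.2.2))
    · exact Or.inr (Or.inl (by rw [← hord]; exact h2 hb hdesc))
  · exact Or.inl (by rw [← hord]; exact h1 hb)

/-- A descending neighbour is unique and all the others ascend. -/
theorem disp_of_ne_descending {δ : Mat O} (hδ : δ.det ≠ 0) {x y z : Vertex O}
    (hxy : dist D x y = 1) (hy : disp D δ hδ y + 2 = disp D δ hδ x) (hxz : dist D x z = 1)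
    (hne : z ≠ y) : disp D δ hδ z = disp D δ hδ x + 2 := by
  obtain ⟨k₀, hk₀, rfl⟩ := x.exists_rep
  obtain ⟨L₀, rfl⟩ := exists_nbr_eq D hk₀ hxy
  -- move the basis so that the descending line is the second axis
  have hU₀ := isUnit_det_lineBasis L₀
  set k := k₀ * lineBasis L₀ with hkdef
  have hk : k.det ≠ 0 := by simp [hkdef, hk₀, hU₀.ne_zero]
  have hx : Vertex.mk k₀ hk₀ = Vertex.mk k hk :=
    Quotient.sound ⟨lineBasis L₀, 1, 1, hU₀, one_ne_zero, one_ne_zero, rfl⟩
  have hy' : nbr D hk₀ L₀ = Vertex.mk (k * (1 * stepMat D))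
      (det_mul_step_ne_zero D hk (by simp)) :=
    Quotient.sound ⟨1, 1, 1, by simp, one_ne_zero, one_ne_zero, by simp [hkdef, Matrix.mul_assoc]⟩
  rw [hx] at hxz hy ⊢
  obtain ⟨h, j, hp, hh, heq, hn⟩ := exists_localMatrix D δ hδ hk
  rw [hy', disp_step D hδ hk hh heq (by simp), hn] at hy
  simp only [Matrix.adjugate_one, Matrix.one_mul, Matrix.map_one _ (map_zero _) (map_one _),
    Matrix.mul_one] at hy
  obtain ⟨h1, h2, h3⟩ := gap_step D hh hp
  have hb : D.unif ∣ h 0 1 := by
    by_contra hb; have := h1 hb; omega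
  have hdesc : D.unif ∣ h 0 0 ∧ D.unif ∣ h 1 1 ∧ D.unif ^ 2 ∣ h 0 1 := by
    by_contra hd; have := h2 hb hd; omega
  have hc : IsUnit (h 1 0) := by
    by_contra hc
    rw [isUnit_iff_not_dvd D.irreducible, not_not] at hc
    refine (isPrimMat_iff D).mp hp fun i j => ?_
    fin_cases i <;> fin_cases j
    · exact hdesc.1
    · exact hb
    · exact hc
    · exact hdesc.2.1
  obtain ⟨L, rfl⟩ := exists_nbr_eq D hk hxz
  have hU := isUnit_det_lineBasis L
  rw [hn, nbr, disp_step D hδ hk hh heq hU]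
  set h' := (lineBasis L).adjugate * h * (lineBasis L).map D.σ with hh'
  have hUa : IsUnit (lineBasis L).adjugate.det := by simpa [Matrix.det_adjugate] using hU
  have hUs : IsUnit ((lineBasis L).map D.σ).det := by rw [det_map_sigma]; exact hU.map _
  have hp' : IsPrimMat h' := hp.mul_units hUa hUs
  have hh'0 : h'.det ≠ 0 := by simp [hh', hUa.ne_zero, hUs.ne_zero, hh]
  have hord : ordO h'.det = ordO h.det := by
    rw [hh', Matrix.det_mul, Matrix.det_mul, ordO_mul (mul_ne_zero hUa.ne_zero hh) hUs.ne_zero,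
      ordO_mul hUa.ne_zero hh, ordO_unit hUa, ordO_unit hUs]
    ring
  rw [← hord]
  refine (gap_step D hh'0 hp').1 ?_
  cases L with
  | none =>
    intro hdiv
    have : h' 0 1 = -(h 1 0) := by
      simp [hh', lineBasis, Matrix.adjugate_fin_two, Matrix.mul_apply, Matrix.vecMul, dotProduct,
        Fin.sum_univ_two]
    rw [this, dvd_neg] at hdiv
    exact (isUnit_iff_not_dvd D.irreducible).mp hc hdiv
  | some r =>
    intro hdiv
    have hr : r ≠ 0 := by
      intro hr
      subst hr
      obtain ⟨t, ht⟩ : D.unif ∣ lift (0 : ResidueField O) := by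
        rw [← Ideal.mem_span_singleton, ← D.irreducible.maximalIdeal_eq,
          ← IsLocalRing.residue_eq_zero_iff, residue_lift]
      apply hne
      rw [hy']
      refine Quotient.sound (SameVertex.symm ⟨!![1, t; 0, 1], 1, 1, by simp [Matrix.det_fin_two],
        one_ne_zero, one_ne_zero, ?_⟩)
      show (1 : O) • (k * (lineBasis (some 0) * stepMat D))
        = (1 : O) • (k * (1 * stepMat D) * !![1, t; 0, 1])
      rw [one_smul, one_smul, Matrix.one_mul, Matrix.mul_assoc k (stepMat D)]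
      refine congrArg (k * ·) ?_
      simp [lineBasis, stepMat, ht]
    have hu : IsUnit (lift r) := by
      rwa [← IsLocalRing.residue_ne_zero_iff_isUnit, residue_lift]
    have : h' 0 1 = (h 0 0 * D.σ (lift r) + h 0 1)
        - lift r * (h 1 0 * D.σ (lift r) + h 1 1) := by
      simp [hh', lineBasis, Matrix.adjugate_fin_two, Matrix.mul_apply, Matrix.vecMul, dotProduct,
        Fin.sum_univ_two]; ring
    rw [this, dvd_sub_right ((hdesc.1.mul_right _).add hb), mul_add,
      dvd_add_left (hdesc.2.1.mul_left _)] at hdiv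
    exact (isUnit_iff_not_dvd D.irreducible).mp (hu.mul (hc.mul (hu.map D.σ))) hdiv

end Fermat.Agent.LT.Inert

end
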