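import Mathlib.Algebra.BigOperators.Group.Finset.Basic
import Mathlib.Algebra.BigOperators.Ring.Finset
import Mathlib.Data.Finsupp.Basic
import Mathlib.Tactic.Ring
import Mathlib.Tactic.LinearCombination

/-!
# Spherical functions of `PGL₂` as functions of the displacement, and cubic base change

A spherical function is a finitely supported `φ : ℕ →₀ R` of the elementary-divisor gap.
`coef Q φ n` is the Satake coefficient of `z ^ n` scaled by `Q ^ (-n/2)`; it is integral.
`fibreSum Q r φ n` is the sum of `φ` over the fibre above a minimal vertex of level `n` with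
`r` minimal neighbours in a regular tree of valency `Q + 1`.
-/

set_option autoImplicit false

noncomputable section

namespace Fermat.Agent.LT.Inert

variable {R : Type*} [CommRing R]

/-- Eventually zero functions are determined by a backward recursion of step two. -/
theorem eq_of_recursion {A B : ℕ → R} (step : ℕ) (hstep : 0 < step) (N : ℕ)
    (hA : ∀ n, N ≤ n → A n = 0) (hB : ∀ n, N ≤ n → B n = 0)
    (h : ∀ n, A (n + step) = B (n + step) → A n = B n) : ∀ n, A n = B n := by
  suffices ∀ k n, N ≤ n + k → A n = B n from fun n => this N n (Nat.le_add_left _ _)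
  intro k
  induction k with
  | zero => intro n hn; rw [hA n (by omega), hB n (by omega)]
  | succ k ih => intro n hn; exact h n (ih _ (by omega))

/-- A bound for the support. -/
def bound (φ : ℕ →₀ R) : ℕ := φ.support.sup id + 1

theorem apply_eq_zero_of_bound_le (φ : ℕ →₀ R) {n : ℕ} (h : bound φ ≤ n) : φ n = 0 := by
  by_contra hn
  have h' := Finset.le_sup (f := id) (Finsupp.mem_support_iff.mpr hn)
  simp only [bound, id_eq] at h h'
  omega

/-- `∑_{d ≥ 0} c ^ d * φ (n + 2 + 2 d)`. -/
def geomTail (c : R) (φ : ℕ →₀ R) (n : ℕ) : R :=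
  ∑ d ∈ Finset.range (bound φ), c ^ d * φ (n + 2 + 2 * d)

theorem geomTail_eq_sum (c : R) (φ : ℕ →₀ R) (n : ℕ) {N : ℕ} (hN : bound φ ≤ n + N) :
    geomTail c φ n = ∑ d ∈ Finset.range N, c ^ d * φ (n + 2 + 2 * d) := by
  have key : ∀ M M' : ℕ, bound φ ≤ n + M → M ≤ M' →
      ∑ d ∈ Finset.range M, c ^ d * φ (n + 2 + 2 * d)
        = ∑ d ∈ Finset.range M', c ^ d * φ (n + 2 + 2 * d) := fun M M' hM hMM' =>
    Finset.sum_subset (Finset.range_subset_range.mpr hMM') fun d _ hd => by
      rw [Finset.mem_range] at hd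
      rw [apply_eq_zero_of_bound_le φ (by omega), mul_zero]
  rw [geomTail, key (bound φ) (max (bound φ) N) (by omega) (le_max_left _ _),
    key N (max (bound φ) N) hN (le_max_right _ _)]

theorem geomTail_eq_zero (c : R) (φ : ℕ →₀ R) {n : ℕ} (hn : bound φ ≤ n) :
    geomTail c φ n = 0 :=
  Finset.sum_eq_zero fun d _ => by rw [apply_eq_zero_of_bound_le φ (by omega), mul_zero]

theorem geomTail_succ (c : R) (φ : ℕ →₀ R) (n : ℕ) :
    geomTail c φ n = φ (n + 2) + c * geomTail c φ (n + 2) := by
  rw [geomTail_eq_sum c φ n (N := bound φ + 1) (by omega), Finset.sum_range_succ',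
    geomTail, Finset.mul_sum, add_comm]
  congr 1
  · simp
  · refine Finset.sum_congr rfl fun d _ => ?_
    rw [show n + 2 + 2 * (d + 1) = n + 2 + 2 + 2 * d by omega, pow_succ]
    ring

/-- The integral Satake coefficient of `z ^ n`. -/
def coef (Q : ℕ) (φ : ℕ →₀ R) (n : ℕ) : R :=
  φ n + ((Q : R) - 1) * geomTail (Q : R) φ n

theorem coef_eq_zero (Q : ℕ) (φ : ℕ →₀ R) {n : ℕ} (hn : bound φ ≤ n) : coef Q φ n = 0 := by
  rw [coef, apply_eq_zero_of_bound_le φ hn, geomTail_eq_zero _ φ hn, mul_zero, add_zero]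

/-- The coefficient sequence as a finitely supported function. -/
def coefSeq (Q : ℕ) (φ : ℕ →₀ R) : ℕ →₀ R :=
  Finsupp.ofSupportFinite (coef Q φ)
    ((Finset.range (bound φ)).finite_toSet.subset fun n hn => by
      rw [Finset.coe_range, Set.mem_Iio]
      by_contra h
      exact hn (coef_eq_zero Q φ (by omega)))

@[simp]
theorem coefSeq_apply (Q : ℕ) (φ : ℕ →₀ R) (n : ℕ) : coefSeq Q φ n = coef Q φ n := rfl

/-- The weighted tail is the plain tail of the coefficients. -/
theorem geomTail_coefSeq (Q : ℕ) (φ : ℕ →₀ R) :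
    ∀ n, geomTail (Q : R) φ n = geomTail 1 (coefSeq Q φ) n := by
  refine eq_of_recursion 2 two_pos (max (bound φ) (bound (coefSeq Q φ)))
    (fun n hn => geomTail_eq_zero _ _ (by omega)) (fun n hn => geomTail_eq_zero _ _ (by omega))
    fun n h => ?_
  rw [geomTail_succ, geomTail_succ 1, coefSeq_apply, coef, one_mul, ← h]
  ring

/-- Sum over the fibre of a minimal vertex of level `n` with `r` minimal neighbours. -/
def fibreSum (Q : ℕ) (r : R) (φ : ℕ →₀ R) (n : ℕ) : R :=
  φ n + ((Q : R) + 1 - r) * geomTail (Q : R) φ n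

theorem fibreSum_eq (Q : ℕ) (r : R) (φ : ℕ →₀ R) (n : ℕ) :
    fibreSum Q r φ n = coef Q φ n + (2 - r) * geomTail 1 (coefSeq Q φ) n := by
  rw [← geomTail_coefSeq, fibreSum, coef]
  ring

/-- The spherical function with given coefficients. -/
def ofCoef (q : ℕ) (c : ℕ →₀ R) : ℕ →₀ R :=
  Finsupp.ofSupportFinite (fun n => c n - ((q : R) - 1) * geomTail 1 c n)
    ((Finset.range (bound c)).finite_toSet.subset fun n hn => by
      rw [Finset.coe_range, Set.mem_Iio]
      by_contra h
      refine hn ?_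
      show c n - _ = 0
      rw [apply_eq_zero_of_bound_le c (by omega), geomTail_eq_zero _ c (by omega), mul_zero,
        sub_zero])

theorem ofCoef_apply (q : ℕ) (c : ℕ →₀ R) (n : ℕ) :
    ofCoef q c n = c n - ((q : R) - 1) * geomTail 1 c n := rfl

theorem geomTail_ofCoef (q : ℕ) (c : ℕ →₀ R) :
    ∀ n, geomTail (q : R) (ofCoef q c) n = geomTail 1 c n := by
  refine eq_of_recursion 2 two_pos (max (bound c) (bound (ofCoef q c)))
    (fun n hn => geomTail_eq_zero _ _ (by omega)) (fun n hn => geomTail_eq_zero _ _ (by omega))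
    fun n h => ?_
  rw [geomTail_succ, h, geomTail_succ 1 c n, ofCoef_apply]
  ring

theorem coef_ofCoef (q : ℕ) (c : ℕ →₀ R) (n : ℕ) : coef q (ofCoef q c) n = c n := by
  rw [coef, geomTail_ofCoef, ofCoef_apply]
  ring

/-- `f` is the cubic base change image of `φ` (residue sizes `Q = q ^ 3` upstairs, `q` below). -/
structure IsBaseChange (q Q : ℕ) (φ f : ℕ →₀ R) : Prop where
  coef_three_mul : ∀ i, coef q f (3 * i) = coef Q φ i
  coef_eq_zero : ∀ n, ¬ 3 ∣ n → coef q f n = 0

/-- The cubic base change map. -/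
def bcMap (q Q : ℕ) (φ : ℕ →₀ R) : ℕ →₀ R :=
  ofCoef q ((coefSeq Q φ).mapDomain (3 * ·))

theorem isBaseChange_bcMap (q Q : ℕ) (φ : ℕ →₀ R) : IsBaseChange q Q φ (bcMap q Q φ) where
  coef_three_mul i := by
    rw [bcMap, coef_ofCoef]
    exact Finsupp.mapDomain_apply (fun a b h => by simpa using h) _ _
  coef_eq_zero n hn := by
    rw [bcMap, coef_ofCoef]
    exact Finsupp.mapDomain_of_notMem_range _ _ (by rintro ⟨i, rfl⟩; exact hn (dvd_mul_right 3 i))

namespace IsBaseChange

variable {q Q : ℕ} {φ f : ℕ →₀ R}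

theorem coef_add_tail_three_mul (h : IsBaseChange q Q φ f) :
    ∀ n, coef q f (3 * n) + geomTail 1 (coefSeq q f) (3 * n)
      = coef Q φ n + geomTail 1 (coefSeq Q φ) n := by
  refine eq_of_recursion 2 two_pos (max (max (bound φ) (bound f))
      (max (bound (coefSeq q f)) (bound (coefSeq Q φ)))) (fun n hn => ?_) (fun n hn => ?_) fun n ih => ?_
  · rw [Inert.coef_eq_zero _ _ (by omega), geomTail_eq_zero _ _ (by omega), add_zero]
  · rw [Inert.coef_eq_zero _ _ (by omega), geomTail_eq_zero _ _ (by omega), add_zero]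
  · rw [geomTail_succ 1 (coefSeq q f) (3 * n), geomTail_succ 1 (coefSeq q f) (3 * n + 2),
      geomTail_succ 1 (coefSeq q f) (3 * n + 2 + 2), geomTail_succ 1 (coefSeq Q φ) n,
      coefSeq_apply, coefSeq_apply, coefSeq_apply, coefSeq_apply,
      h.coef_eq_zero (3 * n + 2) (by omega), h.coef_eq_zero (3 * n + 2 + 2) (by omega),
      show 3 * n + 2 + 2 + 2 = 3 * (n + 2) by ring, h.coef_three_mul n]
    linear_combination ih

/-- Elliptic case: level zero on both sides, any valency inside the minimal set. -/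
theorem fibreSum_zero (h : IsBaseChange q Q φ f) (r : R) :
    fibreSum Q r φ 0 = fibreSum q r f 0 := by
  have h1 := h.coef_three_mul 0
  have h2 := h.coef_add_tail_three_mul 0
  simp only [mul_zero] at h1 h2
  rw [fibreSum_eq, fibreSum_eq, h1]
  linear_combination -(2 - r) * (h2 - h1)

/-- Inversion case: level one on both sides, one minimal neighbour. -/
theorem fibreSum_one (h : IsBaseChange q Q φ f) :
    fibreSum Q 1 φ 1 = fibreSum q 1 f 1 := by
  have h2 := h.coef_add_tail_three_mul 1
  simp only [mul_one] at h2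
  rw [fibreSum_eq, fibreSum_eq, h.coef_eq_zero 1 (by omega),
    geomTail_succ 1 (coefSeq q f) 1, coefSeq_apply, show (1 : ℕ) + 2 = 3 from rfl]
  linear_combination -h2

/-- Translation case: levels `n` and `3 n`, two minimal neighbours. -/
theorem fibreSum_translation (h : IsBaseChange q Q φ f) (n : ℕ) :
    fibreSum Q 2 φ n = fibreSum q 2 f (3 * n) := by
  rw [fibreSum_eq, fibreSum_eq, h.coef_three_mul]
  ring

end IsBaseChange

end Fermat.Agent.LT.Inert

end
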