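import Fermat.Agent.LT.Inert.Disp
import Fermat.Agent.LT.Inert.Spherical
import Mathlib.Algebra.BigOperators.Option
import Mathlib.SetTheory.Cardinal.Finite

/-!
# Fibres over minimal vertices

Every vertex lies over a unique minimal vertex (no descending neighbour); the sum of a spherical
function of the displacement over the fibre above a minimal vertex is `fibreSum`.
-/

set_option autoImplicit false
set_option linter.unusedSectionVars false

noncomputable section

namespace Fermat.Agent.LT.Inert

open IsLocalRing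

variable {O : Type*} [CommRing O] [IsDomain O] [IsDiscreteValuationRing O]
  [Finite (ResidueField O)] (D : TreeData O) (δ : Mat O) (hδ : δ.det ≠ 0)

/-- The residue cardinality. -/
def resCard (O : Type*) [CommRing O] [IsLocalRing O] : ℕ := Nat.card (ResidueField O)

theorem finite_nbrs (x : Vertex O) : {y : Vertex O | dist D x y = 1}.Finite := by
  obtain ⟨k, hk, rfl⟩ := x.exists_rep
  exact (Set.finite_range (nbr D hk)).subset fun y hy => exists_nbr_eq D hk hy

/-- The neighbours of a vertex. -/
def nbrs (x : Vertex O) : Finset (Vertex O) := (finite_nbrs D x).toFinset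

@[simp]
theorem mem_nbrs {x y : Vertex O} : y ∈ nbrs D x ↔ dist D x y = 1 := by simp [nbrs]

theorem card_nbrs (x : Vertex O) : (nbrs D x).card = resCard O + 1 := by
  classical
  obtain ⟨k, hk, rfl⟩ := x.exists_rep
  haveI := Fintype.ofFinite (ResidueField O)
  have : nbrs D (Vertex.mk k hk) = (Finset.univ : Finset (Line O)).image (nbr D hk) := by
    ext y
    simp only [mem_nbrs, Finset.mem_image, Finset.mem_univ, true_and]
    exact ⟨exists_nbr_eq D hk, by rintro ⟨L, rfl⟩; exact dist_nbr D hk L⟩
  rw [this, Finset.card_image_of_injective _ (nbr_injective D hk), Finset.card_univ,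
    Fintype.card_option, resCard, Nat.card_eq_fintype_card]

/-- No descending neighbour. -/
def IsMinimal (x : Vertex O) : Prop :=
  ∀ y, dist D x y = 1 → disp D δ hδ x ≤ disp D δ hδ y

/-- Ascending neighbours. -/
def children (x : Vertex O) : Finset (Vertex O) :=
  (nbrs D x).filter fun y => disp D δ hδ y = disp D δ hδ x + 2

/-- Neighbours of equal displacement. -/
def levelNbrs (x : Vertex O) : Finset (Vertex O) :=
  (nbrs D x).filter fun y => disp D δ hδ y = disp D δ hδ x

@[simp]
theorem mem_children {x y : Vertex O} :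
    y ∈ children D δ hδ x ↔ dist D x y = 1 ∧ disp D δ hδ y = disp D δ hδ x + 2 := by
  simp [children]

@[simp]
theorem mem_levelNbrs {x y : Vertex O} :
    y ∈ levelNbrs D δ hδ x ↔ dist D x y = 1 ∧ disp D δ hδ y = disp D δ hδ x := by
  simp [levelNbrs]

theorem isMinimal_of_mem_levelNbrs {y z : Vertex O}
    (hz : z ∈ levelNbrs D δ hδ y) : IsMinimal D δ hδ z := by
  rw [mem_levelNbrs] at hz
  intro w hw
  by_contra hlt
  rcases disp_nbr_trichotomy D hδ hw with h | h | h
  · omega
  · omega
  · have hyw : y ≠ w := by rintro rfl; omega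
    have := disp_of_ne_descending D hδ hw h ((dist_comm D z y).trans hz.1) hyw
    omega

theorem disp_eq_of_isMinimal {y z : Vertex O} (hy : IsMinimal D δ hδ y)
    (hz : IsMinimal D δ hδ z) (h : dist D y z = 1) : disp D δ hδ y = disp D δ hδ z :=
  le_antisymm (hy z h) (hz y ((dist_comm D z y).trans h))

theorem mem_levelNbrs_iff_isMinimal {y z : Vertex O} (hy : IsMinimal D δ hδ y) :
    z ∈ levelNbrs D δ hδ y ↔ dist D y z = 1 ∧ IsMinimal D δ hδ z :=
  ⟨fun h => ⟨((mem_levelNbrs D δ hδ).mp h).1, isMinimal_of_mem_levelNbrs D δ hδ h⟩,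
    fun h => (mem_levelNbrs D δ hδ).mpr ⟨h.1, (disp_eq_of_isMinimal D δ hδ hy h.2 h.1).symm⟩⟩

theorem card_children_minimal {y : Vertex O} (hy : IsMinimal D δ hδ y) :
    (children D δ hδ y).card + (levelNbrs D δ hδ y).card = resCard O + 1 := by
  classical
  rw [← card_nbrs D y, ← Finset.card_union_of_disjoint]
  · congr 1
    ext z
    simp only [Finset.mem_union, mem_children, mem_levelNbrs, mem_nbrs]
    constructor
    · rintro (h | h) <;> exact h.1
    · intro h
      rcases disp_nbr_trichotomy D hδ h with h' | h' | h'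
      · exact Or.inl ⟨h, h'⟩
      · exact Or.inr ⟨h, h'⟩
      · exact absurd (hy z h) (by omega)
  · rw [Finset.disjoint_left]
    intro z h1 h2
    rw [mem_children] at h1
    rw [mem_levelNbrs] at h2
    omega

theorem card_children_of_descending {x y : Vertex O} (hxy : dist D x y = 1)
    (h : disp D δ hδ y + 2 = disp D δ hδ x) : (children D δ hδ x).card = resCard O := by
  classical
  have : children D δ hδ x = (nbrs D x).erase y := by
    ext z
    simp only [mem_children, Finset.mem_erase, mem_nbrs]
    exact ⟨fun ⟨hz, hz'⟩ => ⟨by rintro rfl; omega, hz⟩,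
      fun ⟨hne, hz⟩ => ⟨hz, disp_of_ne_descending D hδ hxy h hz hne⟩⟩
  rw [this, Finset.card_erase_of_mem (by simpa using hxy), card_nbrs]
  rfl

open Classical in
/-- The `d`-th generation above `y`. -/
def fibre (y : Vertex O) : ℕ → Finset (Vertex O)
  | 0 => {y}
  | d + 1 => (fibre y d).biUnion (children D δ hδ)

theorem fibre_zero (y : Vertex O) : fibre D δ hδ y 0 = {y} := rfl

theorem mem_fibre_succ {y z : Vertex O} {d : ℕ} :
    z ∈ fibre D δ hδ y (d + 1) ↔ ∃ x ∈ fibre D δ hδ y d, z ∈ children D δ hδ x := by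
  classical
  simp [fibre]

theorem disp_of_mem_fibre {y : Vertex O} :
    ∀ {d : ℕ} {z : Vertex O}, z ∈ fibre D δ hδ y d → disp D δ hδ z = disp D δ hδ y + 2 * d := by
  intro d
  induction d with
  | zero => intro z hz; rw [fibre_zero, Finset.mem_singleton] at hz; simp [hz]
  | succ d ih =>
    intro z hz
    obtain ⟨x, hx, hzx⟩ := (mem_fibre_succ D δ hδ).mp hz
    rw [mem_children] at hzx
    rw [hzx.2, ih hx]
    ring

theorem parent_unique {x x' z : Vertex O} (h : z ∈ children D δ hδ x)
    (h' : z ∈ children D δ hδ x') : x = x' := by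
  rw [mem_children] at h h'
  by_contra hne
  have := disp_of_ne_descending D hδ ((dist_comm D z x).trans h.1) h.2.symm
    ((dist_comm D z x').trans h'.1) (Ne.symm hne)
  omega

theorem not_isMinimal_of_mem_children {x z : Vertex O} (h : z ∈ children D δ hδ x) :
    ¬ IsMinimal D δ hδ z := by
  rw [mem_children] at h
  intro hm
  have := hm x ((dist_comm D z x).trans h.1)
  omega

theorem fibre_unique {y y' z : Vertex O} (hy : IsMinimal D δ hδ y) (hy' : IsMinimal D δ hδ y') :
    ∀ {d d' : ℕ}, z ∈ fibre D δ hδ y d → z ∈ fibre D δ hδ y' d' → y = y' ∧ d = d' := by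
  intro d
  induction d generalizing z with
  | zero =>
    intro d' h h'
    rw [fibre_zero, Finset.mem_singleton] at h
    cases d' with
    | zero => rw [fibre_zero, Finset.mem_singleton] at h'; exact ⟨h.symm.trans h', rfl⟩
    | succ d' =>
      obtain ⟨x, -, hx⟩ := (mem_fibre_succ D δ hδ).mp h'
      exact absurd (h ▸ hy) (not_isMinimal_of_mem_children D δ hδ hx)
  | succ d ih =>
    intro d' h h'
    obtain ⟨x, hx, hzx⟩ := (mem_fibre_succ D δ hδ).mp h
    cases d' with
    | zero =>
      rw [fibre_zero, Finset.mem_singleton] at h'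
      exact absurd (h' ▸ hy') (not_isMinimal_of_mem_children D δ hδ hzx)
    | succ d' =>
      obtain ⟨x', hx', hzx'⟩ := (mem_fibre_succ D δ hδ).mp h'
      obtain ⟨h1, h2⟩ := ih hx (parent_unique D δ hδ hzx hzx' ▸ hx')
      exact ⟨h1, by rw [h2]⟩

theorem exists_mem_fibre (z : Vertex O) :
    ∃ y d, IsMinimal D δ hδ y ∧ z ∈ fibre D δ hδ y d := by
  induction hn : disp D δ hδ z using Nat.strong_induction_on generalizing z with
  | _ n ih =>
    by_cases hm : IsMinimal D δ hδ z
    · exact ⟨z, 0, hm, by simp [fibre_zero]⟩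
    simp only [IsMinimal, not_forall, not_le] at hm
    obtain ⟨x, hzx, hlt⟩ := hm
    have h2 : disp D δ hδ x + 2 = disp D δ hδ z := by
      rcases disp_nbr_trichotomy D hδ hzx with h | h | h <;> omega
    obtain ⟨y, d, hy, hx⟩ := ih _ (by omega) x rfl
    refine ⟨y, d + 1, hy, (mem_fibre_succ D δ hδ).mpr ⟨x, hx, ?_⟩⟩
    rw [mem_children]
    exact ⟨(dist_comm D x z).trans hzx, h2.symm⟩

theorem card_fibre_succ {y : Vertex O} (d : ℕ) :
    (fibre D δ hδ y (d + 1)).card = (children D δ hδ y).card * resCard O ^ d := by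
  classical
  induction d with
  | zero => simp [fibre]
  | succ d ih =>
    rw [show fibre D δ hδ y (d + 1 + 1)
        = (fibre D δ hδ y (d + 1)).biUnion (children D δ hδ) from rfl,
      Finset.card_biUnion, Finset.sum_const_nat (m := resCard O), ih, pow_succ, mul_assoc]
    · intro x hx
      obtain ⟨w, -, hw⟩ := (mem_fibre_succ D δ hδ).mp hx
      rw [mem_children] at hw
      exact card_children_of_descending D δ hδ ((dist_comm D x w).trans hw.1) hw.2.symm
    · intro x _ x' _ hne
      simp only [Function.onFun, Finset.disjoint_left]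
      exact fun z hz hz' => hne (parent_unique D δ hδ hz hz')

/-- The sum of a spherical function over the fibre above a minimal vertex. -/
theorem sum_fibre {R : Type*} [CommRing R] (φ : ℕ →₀ R) {y : Vertex O}
    (hy : IsMinimal D δ hδ y) {N : ℕ} (hN : bound φ < N) :
    ∑ d ∈ Finset.range N, ∑ z ∈ fibre D δ hδ y d, φ (disp D δ hδ z)
      = fibreSum (resCard O) ((levelNbrs D δ hδ y).card : R) φ (disp D δ hδ y) := by
  obtain ⟨M, rfl⟩ : ∃ M, N = M + 1 := ⟨N - 1, by omega⟩
  rw [Finset.sum_range_succ', fibre_zero, Finset.sum_singleton, fibreSum, add_comm,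
    geomTail_eq_sum _ φ _ (N := M) (by omega), Finset.mul_sum]
  congr 1
  refine Finset.sum_congr rfl fun d _ => ?_
  rw [Finset.sum_congr rfl fun z hz => by rw [disp_of_mem_fibre D δ hδ hz], Finset.sum_const,
    card_fibre_succ, nsmul_eq_mul, Nat.cast_mul, Nat.cast_pow,
    show disp D δ hδ y + 2 * (d + 1) = disp D δ hδ y + 2 + 2 * d by ring]
  have h := congrArg (Nat.cast (R := R)) (card_children_minimal D δ hδ hy)
  push_cast at h
  rw [eq_sub_of_add_eq h]
  ring

/-- Isometries commuting with the semilinear map preserve displacement. -/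
theorem disp_equivariant (e : Vertex O → Vertex O) (he : ∀ x y, dist D (e x) (e y) = dist D x y)
    (hc : ∀ x, e (act D δ hδ x) = act D δ hδ (e x)) (x : Vertex O) :
    disp D δ hδ (e x) = disp D δ hδ x := by
  rw [disp, ← hc, he, disp]

theorem isMinimal_equivariant (e : Vertex O ≃ Vertex O)
    (he : ∀ x y, dist D (e x) (e y) = dist D x y)
    (hc : ∀ x, e (act D δ hδ x) = act D δ hδ (e x)) (x : Vertex O) :
    IsMinimal D δ hδ (e x) ↔ IsMinimal D δ hδ x := by
  have hd := disp_equivariant D δ hδ e he hc
  constructor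
  · intro h y hy; have := h (e y) ((he x y).trans hy); rwa [hd, hd] at this
  · intro h y hy
    obtain ⟨y, rfl⟩ := e.surjective y
    rw [hd, hd]; exact h y ((he x y).symm.trans hy)

theorem fibre_equivariant (e : Vertex O ≃ Vertex O)
    (he : ∀ x y, dist D (e x) (e y) = dist D x y)
    (hc : ∀ x, e (act D δ hδ x) = act D δ hδ (e x)) (y z : Vertex O) (d : ℕ) :
    e z ∈ fibre D δ hδ (e y) d ↔ z ∈ fibre D δ hδ y d := by
  have hd := disp_equivariant D δ hδ e he hc
  induction d generalizing z with
  | zero => simp [fibre_zero]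
  | succ d ih =>
    rw [mem_fibre_succ, mem_fibre_succ]
    constructor
    · rintro ⟨x, hx, hzx⟩
      obtain ⟨x, rfl⟩ := e.surjective x
      rw [mem_children, he, hd, hd] at hzx
      exact ⟨x, (ih x).mp hx, (mem_children D δ hδ).mpr hzx⟩
    · rintro ⟨x, hx, hzx⟩
      rw [mem_children] at hzx
      exact ⟨e x, (ih x).mpr hx, (mem_children D δ hδ).mpr (by rwa [he, hd, hd])⟩

end Fermat.Agent.LT.Inert

end
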