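import Fermat.Agent.LT.Inert.Fibre
import Mathlib.Algebra.Polynomial.AlgebraMap
import Mathlib.Algebra.Polynomial.Eval.SMul
import Mathlib.LinearAlgebra.Finsupp.Defs
import Mathlib.Algebra.BigOperators.Finprod
import Mathlib.Tactic.LinearCombination

/-!
# The Hecke operator on radial functions, and its base change

`mulT Q` is composition with the adjacency operator of the `(Q + 1)`-regular tree.  The base
change of `P (T)` is `P (T ^ 3 - 3 q T)`, the unnormalised form of `a ↦ a ^ 3 - 3 a`.
-/

set_option autoImplicit false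
set_option linter.unusedSectionVars false

noncomputable section

namespace Fermat.Agent.LT.Inert

section Algebra

variable {R : Type*} [CommRing R]

/-- Composition with the adjacency operator. -/
def mulT (Q : ℕ) (φ : ℕ →₀ R) : ℕ →₀ R :=
  Finsupp.ofSupportFinite
    (fun n => match n with
      | 0 => ((Q : R) + 1) * φ 1
      | m + 1 => φ m + (Q : R) * φ (m + 2))
    ((Finset.range (bound φ + 2)).finite_toSet.subset fun n hn => by
      rw [Finset.coe_range, Set.mem_Iio]
      by_contra h
      obtain ⟨m, rfl⟩ : ∃ m, n = m + 1 := ⟨n - 1, by omega⟩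
      refine hn ?_
      show φ m + (Q : R) * φ (m + 2) = 0
      rw [apply_eq_zero_of_bound_le φ (by omega), apply_eq_zero_of_bound_le φ (by omega)]
      simp)

theorem mulT_zero_apply (Q : ℕ) (φ : ℕ →₀ R) : mulT Q φ 0 = ((Q : R) + 1) * φ 1 := rfl

theorem mulT_succ_apply (Q : ℕ) (φ : ℕ →₀ R) (m : ℕ) :
    mulT Q φ (m + 1) = φ m + (Q : R) * φ (m + 2) := rfl

theorem geomTail_mulT (Q : ℕ) (φ : ℕ →₀ R) :
    ∀ n, geomTail (Q : R) (mulT Q φ) n = φ (n + 1) + 2 * (Q : R) * geomTail (Q : R) φ (n + 1) := by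
  refine eq_of_recursion 2 two_pos (max (bound φ) (bound (mulT Q φ)))
    (fun n hn => geomTail_eq_zero _ _ (by omega))
    (fun n hn => by
      rw [apply_eq_zero_of_bound_le φ (by omega), geomTail_eq_zero _ _ (by omega)]; simp)
    fun n h => ?_
  rw [geomTail_succ, h, show n + 2 = (n + 1) + 1 from rfl, mulT_succ_apply,
    geomTail_succ (Q : R) φ (n + 1)]
  ring

theorem coef_mulT_zero (Q : ℕ) (φ : ℕ →₀ R) :
    coef Q (mulT Q φ) 0 = 2 * (Q : R) * coef Q φ 1 := by
  rw [coef, geomTail_mulT, mulT_zero_apply, coef, zero_add]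
  ring

theorem coef_mulT_succ (Q : ℕ) (φ : ℕ →₀ R) (m : ℕ) :
    coef Q (mulT Q φ) (m + 1) = coef Q φ m + (Q : R) * coef Q φ (m + 2) := by
  rw [coef, geomTail_mulT, mulT_succ_apply, coef, coef, geomTail_succ (Q : R) φ m]
  ring

theorem coef_add (Q : ℕ) (φ ψ : ℕ →₀ R) (n : ℕ) :
    coef Q (φ + ψ) n = coef Q φ n + coef Q ψ n := by
  rw [coef, coef, coef, geomTail_eq_sum _ (φ + ψ) n
      (N := max (bound (φ + ψ)) (max (bound φ) (bound ψ))) (by omega),
    geomTail_eq_sum _ φ n (N := max (bound (φ + ψ)) (max (bound φ) (bound ψ))) (by omega),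
    geomTail_eq_sum _ ψ n (N := max (bound (φ + ψ)) (max (bound φ) (bound ψ))) (by omega)]
  simp only [Finsupp.add_apply, mul_add, Finset.sum_add_distrib]
  ring

theorem coef_smul (Q : ℕ) (r : R) (φ : ℕ →₀ R) (n : ℕ) :
    coef Q (r • φ) n = r * coef Q φ n := by
  rw [coef, coef, geomTail_eq_sum _ (r • φ) n (N := max (bound (r • φ)) (bound φ)) (by omega),
    geomTail_eq_sum _ φ n (N := max (bound (r • φ)) (bound φ)) (by omega)]
  simp only [Finsupp.smul_apply, smul_eq_mul, mul_add, Finset.mul_sum]
  exact congrArg _ (Finset.sum_congr rfl fun d _ => by ring)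

theorem coef_sub (Q : ℕ) (φ ψ : ℕ →₀ R) (n : ℕ) :
    coef Q (φ - ψ) n = coef Q φ n - coef Q ψ n := by
  have h := coef_add Q (φ - ψ) ψ n
  rw [sub_add_cancel] at h
  linear_combination -h

namespace IsBaseChange

variable {q Q : ℕ} {φ f φ' f' : ℕ →₀ R}

theorem single_zero : IsBaseChange q Q (Finsupp.single 0 (1 : R)) (Finsupp.single 0 1) := by
  have hG : ∀ (c : R) n, geomTail c (Finsupp.single 0 (1 : R)) n = 0 := fun c n =>
    Finset.sum_eq_zero fun d _ => by
      rw [Finsupp.single_eq_of_ne (by omega), mul_zero]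
  constructor
  · intro i
    rw [coef, coef, hG, hG, Finsupp.single_apply, Finsupp.single_apply]
    rcases i with _ | i <;> simp
  · intro n hn
    rw [coef, hG, Finsupp.single_eq_of_ne (by rintro rfl; exact hn (dvd_zero 3))]
    simp

theorem add (h : IsBaseChange q Q φ f) (h' : IsBaseChange q Q φ' f') :
    IsBaseChange q Q (φ + φ') (f + f') where
  coef_three_mul i := by rw [coef_add, coef_add, h.coef_three_mul, h'.coef_three_mul]
  coef_eq_zero n hn := by rw [coef_add, h.coef_eq_zero n hn, h'.coef_eq_zero n hn, add_zero]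

theorem smul (h : IsBaseChange q Q φ f) (r : R) : IsBaseChange q Q (r • φ) (r • f) where
  coef_three_mul i := by rw [coef_smul, coef_smul, h.coef_three_mul]
  coef_eq_zero n hn := by rw [coef_smul, h.coef_eq_zero n hn, mul_zero]

/-- The base change of `T` is `T ^ 3 - 3 q T`. -/
theorem mulT (hQ : Q = q ^ 3) (h : IsBaseChange q Q φ f) :
    IsBaseChange q Q (Inert.mulT Q φ)
      (Inert.mulT q (Inert.mulT q (Inert.mulT q f)) - (3 * q : R) • Inert.mulT q f) := by
  have h0 := fun n (hn : ¬ 3 ∣ n) => h.coef_eq_zero n hn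
  have e1 : ∀ g : ℕ →₀ R, coef q (Inert.mulT q g) 1 = coef q g 0 + (q : R) * coef q g 2 :=
    fun g => coef_mulT_succ q g 0
  have e2 : ∀ g : ℕ →₀ R, coef q (Inert.mulT q g) 2 = coef q g 1 + (q : R) * coef q g 3 :=
    fun g => coef_mulT_succ q g 1
  have e3 : ∀ g : ℕ →₀ R, coef q (Inert.mulT q g) 3 = coef q g 2 + (q : R) * coef q g 4 :=
    fun g => coef_mulT_succ q g 2
  have e4 : ∀ g : ℕ →₀ R, coef q (Inert.mulT q g) 4 = coef q g 3 + (q : R) * coef q g 5 :=
    fun g => coef_mulT_succ q g 3
  constructor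
  · rintro (_ | i)
    · simp only [mul_zero, coef_sub, coef_smul, coef_mulT_zero, e1, e2, h0 1 (by omega)]
      rw [← h.coef_three_mul 1, hQ]
      push_cast
      ring
    · rw [coef_sub, coef_smul, show 3 * (i + 1) = (3 * i + 2) + 1 by ring,
        coef_mulT_succ, coef_mulT_succ q _ (3 * i + 1), coef_mulT_succ q _ (3 * i + 3),
        coef_mulT_succ q f (3 * i), coef_mulT_succ q f (3 * i + 2),
        coef_mulT_succ q f (3 * i + 4), h0 (3 * i + 2) (by omega), h0 (3 * i + 4) (by omega),
        coef_mulT_succ Q φ i, ← h.coef_three_mul i, ← h.coef_three_mul (i + 2), hQ,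
        show 3 * (i + 2) = 3 * i + 6 by ring]
      push_cast
      ring
  · intro n hn
    match n with
    | 0 => exact absurd (dvd_zero 3) hn
    | 1 =>
      simp only [coef_sub, coef_smul, coef_mulT_zero, e1, e2, e3, h0 2 (by omega), h0 4 (by omega)]
      ring
    | 2 =>
      simp only [coef_sub, coef_smul, coef_mulT_zero, e1, e2, e3, e4, h0 1 (by omega),
        h0 5 (by omega)]
      ring
    | m + 3 =>
      rw [coef_sub, coef_smul, coef_mulT_succ q _ (m + 2), coef_mulT_succ q _ (m + 1),
        coef_mulT_succ q _ (m + 3), coef_mulT_succ q f m, coef_mulT_succ q f (m + 2),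
        coef_mulT_succ q f (m + 4)]
      have hm : coef q f m = 0 := h0 m (by omega)
      have hm6 : coef q f (m + 4 + 2) = 0 := h0 _ (by omega)
      rw [hm, hm6]
      ring

end IsBaseChange

/-- `mulT` as a linear map. -/
def heckeEnd (Q : ℕ) : Module.End R (ℕ →₀ R) where
  toFun := mulT Q
  map_add' φ ψ := by
    ext n
    rcases n with _ | n <;> simp [mulT_zero_apply, mulT_succ_apply] <;> ring
  map_smul' r φ := by
    ext n
    rcases n with _ | n <;> simp [mulT_zero_apply, mulT_succ_apply] <;> ring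

@[simp]
theorem heckeEnd_apply (Q : ℕ) (φ : ℕ →₀ R) : heckeEnd Q φ = mulT Q φ := rfl

open Polynomial

/-- The radial function of a polynomial in the Hecke operator. -/
def heckePoly (Q : ℕ) (P : R[X]) : ℕ →₀ R := aeval (heckeEnd Q) P (Finsupp.single 0 1)

theorem heckePoly_one (Q : ℕ) : heckePoly Q (1 : R[X]) = Finsupp.single 0 1 := by simp [heckePoly]

theorem heckePoly_X_mul (Q : ℕ) (P : R[X]) : heckePoly Q (X * P) = mulT Q (heckePoly Q P) := by
  simp [heckePoly]

/-- The base change of polynomials in the Hecke operator. -/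
theorem isBaseChange_heckePoly {q Q : ℕ} (hQ : Q = q ^ 3) (P : R[X]) :
    IsBaseChange q Q (heckePoly Q P) (heckePoly q (P.comp (X ^ 3 - C (3 * q : R) * X))) := by
  induction P using Polynomial.induction_on with
  | C r =>
    have : ∀ N, heckePoly N (C r) = r • Finsupp.single 0 1 := fun N => by
      simp [heckePoly, Algebra.algebraMap_eq_smul_one]
    rw [C_comp, this, this]
    exact IsBaseChange.single_zero.smul r
  | add P P' h h' =>
    simpa [heckePoly, add_comp] using h.add h'
  | monomial n r h =>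
    have e1 : C r * X ^ (n + 1) = X * (C r * X ^ n) := by ring
    rw [e1, heckePoly_X_mul, mul_comp, X_comp]
    set P' := (C r * X ^ n).comp (X ^ 3 - C (3 * q : R) * X)
    have e2 : heckePoly q ((X ^ 3 - C (3 * q : R) * X) * P')
        = mulT q (mulT q (mulT q (heckePoly q P'))) - (3 * q : R) • mulT q (heckePoly q P') := by
      simp [heckePoly, pow_succ, Module.End.mul_apply, Algebra.algebraMap_eq_smul_one]
      module
    rw [e2]
    exact h.mulT hQ

end Algebra

section Tree

open IsLocalRing Matrix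

variable {O : Type*} [CommRing O] [IsDomain O] [IsDiscreteValuationRing O]
  [Finite (ResidueField O)] (D : TreeData O)

theorem dvd_col_lineBasis {M : Mat O} {L L' : Line O} (hne : L ≠ L')
    (h : ∀ i, D.unif ∣ (M * lineBasis L) i 1) (h' : ∀ i, D.unif ∣ (M * lineBasis L') i 1) :
    ∀ i j, D.unif ∣ M i j := by
  have hsum : ∀ (N : Mat O) i, (M * N) i 1 = M i 0 * N 0 1 + M i 1 * N 1 1 := fun N i => by
    rw [Matrix.mul_apply, Fin.sum_univ_two]
  simp only [hsum] at h h'
  cases L with
  | none =>
    cases L' with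
    | none => exact absurd rfl hne
    | some r =>
      intro i j
      have e := h i
      have e' := h' i
      simp [lineBasis] at e e'
      fin_cases j
      · exact e
      · exact (dvd_add_right (e.mul_right _)).mp e'
  | some r =>
    cases L' with
    | none =>
      intro i j
      have e := h i
      have e' := h' i
      simp [lineBasis] at e e'
      fin_cases j
      · exact e'
      · exact (dvd_add_right (e'.mul_right _)).mp e
    | some r' =>
      intro i j
      have e := h i
      have e' := h' i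
      simp [lineBasis] at e e'
      have hr : ¬ D.unif ∣ lift r - lift r' := by
        rw [← Ideal.mem_span_singleton, ← D.irreducible.maximalIdeal_eq,
          ← IsLocalRing.residue_eq_zero_iff, map_sub, residue_lift, residue_lift, sub_eq_zero]
        exact fun e => hne (congrArg some e)
      have h0 : D.unif ∣ M i 0 := by
        have := dvd_sub e e'
        rw [show M i 0 * lift r + M i 1 - (M i 0 * lift r' + M i 1)
          = M i 0 * (lift r - lift r') by ring] at this
        exact (D.irreducible.prime.dvd_or_dvd this).resolve_right hr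
      fin_cases j
      · exact h0
      · exact (dvd_add_right (h0.mul_right _)).mp e

/-- A line killed by a singular matrix. -/
theorem exists_col_dvd {h : Mat O} (hd : D.unif ∣ h.det) :
    ∃ L : Line O, ∀ i, D.unif ∣ (h * lineBasis L : Mat O) i 1 := by
  rw [Matrix.det_fin_two] at hd
  by_cases hcol : D.unif ∣ h 0 0 ∧ D.unif ∣ h 1 0
  · refine ⟨none, fun i => ?_⟩
    fin_cases i <;> simp [lineBasis, Matrix.mul_apply, Fin.sum_univ_two, hcol.1, hcol.2]
  obtain ⟨r, hr⟩ : ∃ r : O, ∀ i, D.unif ∣ h i 0 * r + h i 1 := by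
    rcases not_and_or.mp hcol with hu | hu
    · obtain ⟨w, hw⟩ := ((isUnit_iff_not_dvd D.irreducible).mpr hu).exists_right_inv
      refine ⟨-(h 0 1 * w), fun i => ?_⟩
      fin_cases i <;> simp
      · exact ⟨0, by linear_combination -(h 0 1) * hw⟩
      · rw [show -(h 1 0 * (h 0 1 * w)) + h 1 1 = w * (h 0 0 * h 1 1 - h 0 1 * h 1 0) by
          linear_combination -(h 1 1) * hw]
        exact hd.mul_left w
    · obtain ⟨w, hw⟩ := ((isUnit_iff_not_dvd D.irreducible).mpr hu).exists_right_inv
      refine ⟨-(h 1 1 * w), fun i => ?_⟩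
      fin_cases i <;> simp
      · rw [show -(h 0 0 * (h 1 1 * w)) + h 0 1 = -(w * (h 0 0 * h 1 1 - h 0 1 * h 1 0)) by
          linear_combination -(h 0 1) * hw]
        exact (hd.mul_left w).neg_right
      · exact ⟨0, by linear_combination -(h 1 1) * hw⟩
  have hlr : D.unif ∣ lift (IsLocalRing.residue O r) - r := by
    rw [← Ideal.mem_span_singleton, ← D.irreducible.maximalIdeal_eq,
      ← IsLocalRing.residue_eq_zero_iff, map_sub, residue_lift, sub_self]
  refine ⟨some (IsLocalRing.residue O r), fun i => ?_⟩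
  have e := dvd_add (hr i) (hlr.mul_left (h i 0))
  rw [show h i 0 * r + h i 1 + h i 0 * (lift (IsLocalRing.residue O r) - r)
    = h i 0 * lift (IsLocalRing.residue O r) + h i 1 by ring] at e
  simpa [lineBasis, Matrix.mul_apply, Fin.sum_univ_two] using e

/-- Distances from `x` to the neighbours of a vertex at distance `n`. -/
theorem dist_nbrs (x z : Vertex O) :
    (dist D x z = 0 → ∀ w ∈ nbrs D z, dist D x w = 1) ∧
    (∀ n, dist D x z = n + 1 → ∃ w₀ ∈ nbrs D z, dist D x w₀ = n ∧
      ∀ w ∈ nbrs D z, w ≠ w₀ → dist D x w = n + 2) := by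
  classical
  constructor
  · intro h w hw
    rw [(dist_eq_zero_iff D x z).mp h]
    exact (mem_nbrs D).mp hw
  intro n hn
  obtain ⟨k, hk, rfl⟩ := x.exists_rep
  obtain ⟨l, hl, rfl⟩ := z.exists_rep
  obtain ⟨j, h, hp, hkl⟩ := exists_primitive D (det_adjugate_mul_ne_zero hk hl)
  have hh : h.det ≠ 0 := fun e => det_adjugate_mul_ne_zero hk hl (by
    rw [hkl, Matrix.det_smul, e, mul_zero])
  have hord : ordO h.det = n + 1 := by
    rw [← hn, dist_mk, gap_eq D hh hp hkl]
  -- the distance to a neighbour is the gap of `h U diag (ϖ, 1)`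
  have hgap : ∀ L, dist D (Vertex.mk k hk) (nbr D hl L)
      = gap D (h * lineBasis L * stepMat D) := fun L => by
    have hU := isUnit_det_lineBasis L
    rw [nbr, dist_mk, ← Matrix.mul_assoc, hkl, Matrix.smul_mul, ← Matrix.mul_assoc,
      gap_smul D (by simp [hh, hU.ne_zero, det_stepMat, D.irreducible.ne_zero])
        (pow_ne_zero _ D.irreducible.ne_zero)]
  have hentry : ∀ L i, (h * lineBasis L * stepMat D : Mat O) i 0 = D.unif * (h * lineBasis L : Mat O) i 0 ∧
      (h * lineBasis L * stepMat D : Mat O) i 1 = (h * lineBasis L : Mat O) i 1 := fun L i => by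
    constructor <;> simp [Matrix.mul_apply, Fin.sum_univ_two, stepMat] <;> ring
  have hup : ∀ L, (¬ ∀ i, D.unif ∣ (h * lineBasis L : Mat O) i 1) →
      dist D (Vertex.mk k hk) (nbr D hl L) = n + 2 := by
    intro L hL
    simp only [not_forall] at hL
    obtain ⟨i, hi⟩ := hL
    have hU := isUnit_det_lineBasis L
    rw [hgap, gap_of_prim D (by simp [hh, hU.ne_zero, det_stepMat, D.irreducible.ne_zero])
      ⟨i, 1, by rw [(hentry L i).2]; exact (isUnit_iff_not_dvd D.irreducible).mpr hi⟩,
      Matrix.det_mul, Matrix.det_mul, ordO_mul (mul_ne_zero hh hU.ne_zero)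
        (by rw [det_stepMat]; exact D.irreducible.ne_zero), ordO_mul hh hU.ne_zero,
      ordO_unit hU, det_stepMat, ordO_irreducible D.irreducible, hord]
  have hd : D.unif ∣ h.det := by
    simpa using (pow_dvd_iff_le_ordO D.irreducible hh (n := 1)).mpr (by omega)
  obtain ⟨L₀, hL₀⟩ : ∃ L, ∀ i, D.unif ∣ (h * lineBasis L : Mat O) i 1 := by
    exact exists_col_dvd D hd
  refine ⟨nbr D hl L₀, (mem_nbrs D).mpr (dist_nbr D hl L₀), ?_, ?_⟩
  · choose u hu using hL₀
    have hU := isUnit_det_lineBasis L₀
    set M : Mat O := !![(h * lineBasis L₀) 0 0, u 0; (h * lineBasis L₀) 1 0, u 1]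
    have hM : h * lineBasis L₀ * stepMat D = D.unif • M := by
      ext i l
      fin_cases i <;> fin_cases l <;> simp [M, (hentry L₀ 0).1, (hentry L₀ 0).2,
        (hentry L₀ 1).1, (hentry L₀ 1).2, hu 0, hu 1]
    have hdet : (D.unif) ^ 2 * M.det = h.det * (lineBasis L₀).det * D.unif := by
      have e := congrArg Matrix.det hM
      rw [Matrix.det_mul, Matrix.det_mul, det_stepMat, Matrix.det_smul, Fintype.card_fin] at e
      exact e.symm
    have hM0 : M.det ≠ 0 := fun e => by
      rw [e, mul_zero] at hdet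
      exact mul_ne_zero (mul_ne_zero hh hU.ne_zero) D.irreducible.ne_zero hdet.symm
    have hprim : IsPrimMat M := by
      obtain ⟨i, hi⟩ : ∃ i, IsUnit ((h * lineBasis L₀ : Mat O) i 0) := by
        obtain ⟨i, l, hil⟩ := (by simpa using hp.mul_units (U := 1) (by simp) hU :
          IsPrimMat (h * lineBasis L₀))
        fin_cases l
        · exact ⟨i, hil⟩
        · exact absurd ⟨u i, hu i⟩ ((isUnit_iff_not_dvd D.irreducible).mp hil)
      fin_cases i
      · exact ⟨0, 0, hi⟩
      · exact ⟨1, 0, hi⟩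
    rw [hgap, hM, gap_smul D hM0 D.irreducible.ne_zero, gap_of_prim D hM0 hprim]
    have e := congrArg ordO hdet
    rw [ordO_mul (pow_ne_zero _ D.irreducible.ne_zero) hM0,
      ordO_mul (mul_ne_zero hh hU.ne_zero) D.irreducible.ne_zero, ordO_mul hh hU.ne_zero,
      ordO_unit hU, ordO_pow D.irreducible.ne_zero, ordO_irreducible D.irreducible] at e
    omega
  · intro w hw hne
    obtain ⟨L, rfl⟩ := exists_nbr_eq D hl ((mem_nbrs D).mp hw)
    refine hup L fun hall => ?_
    exact (isPrimMat_iff D).mp hp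
      (dvd_col_lineBasis D (fun e => hne (by rw [e])) hall hL₀)

/-- Summing a radial function over neighbours. -/
theorem sum_nbrs_radial {R : Type*} [CommRing R] (φ : ℕ →₀ R) (x z : Vertex O) :
    ∑ w ∈ nbrs D z, φ (dist D x w) = mulT (resCard O) φ (dist D x z) := by
  classical
  obtain ⟨h0, h1⟩ := dist_nbrs D x z
  rcases hd : dist D x z with _ | n
  · rw [Finset.sum_congr rfl fun w hw => by rw [h0 hd w hw], Finset.sum_const, card_nbrs,
      nsmul_eq_mul, mulT_zero_apply]
    push_cast
    rfl
  · obtain ⟨w₀, hw₀, hd₀, hrest⟩ := h1 n hd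
    rw [← Finset.add_sum_erase _ _ hw₀, hd₀,
      Finset.sum_congr rfl fun w hw => by
        rw [hrest w (Finset.mem_of_mem_erase hw) (Finset.ne_of_mem_erase hw)],
      Finset.sum_const, Finset.card_erase_of_mem hw₀, card_nbrs, nsmul_eq_mul, mulT_succ_apply]
    simp

end Tree

end Fermat.Agent.LT.Inert

end
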