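import Fermat.Agent.LT.Inert.Hecke
import Fermat.Agent.LT.Inert.Coset
import Fermat.Agent.LT.Descent.Tensor

/-!
# Radial kernels as invariant matrices

Finitely supported functions of the distance give invariant matrices on the vertices; composing
with the matrix of distance one is multiplication by the Hecke operator.
-/

set_option autoImplicit false
set_option linter.unusedSectionVars false

noncomputable section

namespace Fermat.Agent.LT.Inert

open IsLocalRing Matrix Function
open scoped MatrixGroups
open Fermat.Agent.LT.Descent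

variable {O : Type*} [CommRing O] [IsDomain O] [IsDiscreteValuationRing O]
  [Finite (ResidueField O)] (D : TreeData O)

/-- Spheres are finite. -/
theorem finite_sphere (x : Vertex O) (n : ℕ) : {y | dist D x y = n}.Finite := by
  induction n with
  | zero =>
    refine (Set.finite_singleton x).subset fun y hy => ?_
    exact ((dist_eq_zero_iff D x y).1 hy).symm
  | succ n ih =>
    refine (ih.biUnion fun z _ => (nbrs D z).finite_toSet).subset fun y hy => ?_
    obtain ⟨z, hz, hd, -⟩ := (dist_nbrs D x y).2 n hy
    refine Set.mem_biUnion (x := z) hd ?_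
    rw [Finset.mem_coe, mem_nbrs, dist_comm]
    exact (mem_nbrs D).1 hz

variable {L : Type*} [Field L] [Algebra O L] [IsFractionRing O L]
  {H : Subgroup PGL(2, L)} (hH : IsUnimodularLevel O H)

theorem finite_radial_row {R : Type*} [Zero R] (φ : ℕ →₀ R) (a : PGL(2, L) ⧸ H) :
    (support (radial hH D φ a)).Finite := by
  refine ((φ.support.finite_toSet.biUnion fun n _ =>
    finite_sphere D ((cosetEquiv hH).symm a) n).image (cosetEquiv hH)).subset fun c hc => ?_
  refine ⟨(cosetEquiv hH).symm c, Set.mem_biUnion (Finsupp.mem_support_iff.2 hc) rfl, ?_⟩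
  exact Equiv.apply_symm_apply _ _

theorem radial_comm {R : Type*} (φ : ℕ → R) (y y' : PGL(2, L) ⧸ H) :
    radial hH D φ y y' = radial hH D φ y' y := congrArg φ (dist_comm D _ _)

/-- A radial function as an invariant matrix. -/
def radKer (φ : ℕ →₀ ℂ) : LKer PGL(2, L) (PGL(2, L) ⧸ H) where
  toFun := radial hH D φ
  smul' := radial_smul hH D φ
  finite_row := finite_radial_row D hH φ
  finite_col c := (finite_radial_row D hH φ c).subset fun a ha => by
    rwa [mem_support, radial_comm]

theorem radKer_apply (φ : ℕ →₀ ℂ) (y y' : PGL(2, L) ⧸ H) :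
    radKer D hH φ y y' = φ (dist D ((cosetEquiv hH).symm y) ((cosetEquiv hH).symm y')) := rfl

theorem radKer_transpose (φ : ℕ →₀ ℂ) : (radKer D hH φ).transpose = radKer D hH φ :=
  LKer.ext' fun a c => radial_comm D hH φ c a

theorem radKer_single_zero : radKer D hH (Finsupp.single 0 1) = LKer.one _ _ :=
  LKer.ext' fun a c => by
    rw [radKer_apply]
    by_cases h : a = c
    · subst h
      rw [LKer.one_apply_self, (dist_eq_zero_iff D _ _).2 rfl, Finsupp.single_eq_same]
    · rw [LKer.one_apply_ne h, Finsupp.single_eq_of_ne fun h0 =>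
        h ((cosetEquiv hH).symm.injective ((dist_eq_zero_iff D _ _).1 h0))]

/-- **Distance one composes as the Hecke operator.** -/
theorem radKer_comp_step (φ : ℕ →₀ ℂ) :
    (radKer D hH φ).comp (radKer D hH (Finsupp.single 1 1)) = radKer D hH (mulT (resCard O) φ) :=
  LKer.ext' fun a c => by
    classical
    show ∑ᶠ b, radKer D hH φ a b * radKer D hH (Finsupp.single 1 1) b c = _
    rw [radKer_apply, ← sum_nbrs_radial D φ, ← finsum_comp_equiv (cosetEquiv hH)]
    refine (finsum_congr fun b => ?_).trans (finsum_eq_sum_of_support_subset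
      ((↑(nbrs D ((cosetEquiv hH).symm c)) : Set (Vertex O)).indicator
        fun b => φ (dist D ((cosetEquiv hH).symm a) b)) Set.support_indicator_subset) |>.trans ?_
    · rw [radKer_apply, radKer_apply, Equiv.symm_apply_apply, Set.indicator_apply]
      simp only [Finsupp.single_apply, mul_ite, mul_one, mul_zero, Finset.mem_coe, mem_nbrs,
        dist_comm D ((cosetEquiv hH).symm c)]
      exact if_congr eq_comm rfl rfl
    · exact Finset.sum_congr rfl fun b hb => Set.indicator_of_mem (Finset.mem_coe.2 hb) _

/-- The double coset of `diag (ϖ, 1)` is distance one. -/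
theorem radKer_single_one_eq_ofNbrs (d : PGL(2, L))
    (hd : d = toL L (stepMat D) (by rw [det_stepMat]; exact D.irreducible.ne_zero))
    (h : ∀ a : PGL(2, L) ⧸ H, (cosetNbrs d a).Finite)
    (h' : ∀ a : PGL(2, L) ⧸ H, (cosetNbrs d⁻¹ a).Finite) :
    LKer.ofNbrs d h h' = radKer D hH (Finsupp.single 1 1) :=
  LKer.ext' fun a c => by
    classical
    rw [LKer.ofNbrs_apply, radKer_apply, Set.indicator_apply, Finsupp.single_apply, Pi.one_apply]
    refine if_congr ?_ rfl rfl
    rw [eq_comm (a := 1), dist_eq_one_iff hH, Equiv.apply_symm_apply, Equiv.apply_symm_apply]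
    constructor
    · rintro ⟨x, rfl, u, hu, rfl⟩
      refine ⟨x * u, QuotientGroup.eq.2 ?_, by rw [hd]⟩
      rw [inv_mul_cancel_left]
      exact hu
    · rintro ⟨g, rfl, rfl⟩
      exact ⟨g, rfl, 1, one_mem H, by rw [mul_one, hd]⟩

end Fermat.Agent.LT.Inert

end
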