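import Fermat.Agent.LT.Inert.Kernel
import Fermat.Agent.LT.Inert.HeckeMul
import Mathlib.Data.Complex.Basic

/-!
# The algebra of radial kernels

Radial kernels do not depend on the uniformiser, the polynomials in the Hecke operator compose as
polynomials, real polynomials give real kernels, and a bijection respecting distance one carries
one algebra to the other.
-/

set_option autoImplicit false
set_option linter.unusedSectionVars false

noncomputable section

namespace Fermat.Agent.LT.Inert

open IsLocalRing Matrix Function Polynomial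
open scoped MatrixGroups
open Fermat.Agent.LT.Descent

variable {O : Type*} [CommRing O] [IsDomain O] [IsDiscreteValuationRing O]

/-- The gap does not depend on the uniformiser. -/
theorem gap_congr_data (D D' : TreeData O) {P : Mat O} (hP : P.det ≠ 0) : gap D P = gap D' P := by
  obtain ⟨j, P₀, h₀, rfl⟩ := exists_primitive D hP
  have hd₀ : P₀.det ≠ 0 := fun h => hP (by rw [Matrix.det_smul, h, mul_zero])
  rw [gap_eq D hd₀ h₀ rfl, gap_smul D' hd₀ (pow_ne_zero _ D.irreducible.ne_zero),
    gap_of_prim D' hd₀ h₀]

/-- The distance does not depend on the uniformiser. -/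
theorem dist_congr_data (D D' : TreeData O) (x y : Vertex O) : dist D x y = dist D' x y := by
  obtain ⟨k, hk, rfl⟩ := x.exists_rep
  obtain ⟨l, hl, rfl⟩ := y.exists_rep
  exact gap_congr_data D D' (det_adjugate_mul_ne_zero hk hl)

variable [Finite (ResidueField O)] (D : TreeData O)
  {L : Type*} [Field L] [Algebra O L] [IsFractionRing O L]
  {H : Subgroup PGL(2, L)} (hH : IsUnimodularLevel O H)

theorem radKer_congr_data (D' : TreeData O) (φ : ℕ →₀ ℂ) : radKer D hH φ = radKer D' hH φ :=
  LKer.ext' fun _ _ => congrArg φ (dist_congr_data D D' _ _)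

/-- **Polynomials in the Hecke operator act by composition.** -/
theorem radKer_comp_heckePoly (P : ℂ[X]) (φ : ℕ →₀ ℂ) :
    (radKer D hH φ).comp (radKer D hH (heckePoly (resCard O) P)) =
      radKer D hH (aeval (heckeEnd (resCard O)) P φ) := by
  induction P using Polynomial.induction_on generalizing φ with
  | C r =>
    have e : heckePoly (resCard O) (C r) = r • Finsupp.single 0 (1 : ℂ) := by
      simp [heckePoly, Algebra.algebraMap_eq_smul_one]
    refine LKer.ext' fun a d => ?_
    show ∑ᶠ c, radKer D hH φ a c * radKer D hH _ c d = _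
    rw [finsum_eq_single _ d fun c hc => ?_]
    · simp only [radKer_apply, e, Finsupp.smul_apply, (dist_eq_zero_iff D _ _).2 rfl,
        Finsupp.single_eq_same, Polynomial.aeval_C, Algebra.algebraMap_eq_smul_one,
        LinearMap.smul_apply, Module.End.one_apply, smul_eq_mul]
      ring
    · rw [radKer_apply D hH (heckePoly _ _), e, Finsupp.smul_apply, Finsupp.single_eq_of_ne
        fun h => hc ((cosetEquiv hH).symm.injective ((dist_eq_zero_iff D _ _).1 h)), smul_zero,
        mul_zero]
  | add P P' h h' =>
    refine LKer.ext' fun a d => ?_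
    have hfin : ∀ R : ℂ[X], (support fun c => radKer D hH φ a c *
        radKer D hH (heckePoly (resCard O) R) c d).Finite := fun R =>
      ((radKer D hH φ).finite_row a).subset fun c hc => left_ne_zero_of_mul hc
    have e1 := congrArg (fun l : LKer _ _ => l a d) (h φ)
    have e2 := congrArg (fun l : LKer _ _ => l a d) (h' φ)
    simp only [radKer_apply] at e1 e2
    show ∑ᶠ c, radKer D hH φ a c * radKer D hH _ c d = _
    rw [radKer_apply, map_add, LinearMap.add_apply, Finsupp.add_apply, ← e1,
      ← e2]
    refine Eq.trans (finsum_congr fun c => ?_) (finsum_add_distrib (hfin P) (hfin P'))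
    simp [radKer_apply, heckePoly, mul_add]
  | monomial n r h =>
    rw [show C r * X ^ (n + 1) = X * (C r * X ^ n) by ring, heckePoly_X_mul,
      ← radKer_comp_step, ← LKer.comp_assoc, h, radKer_comp_step]
    rw [map_mul (aeval (heckeEnd (resCard O))) X, Polynomial.aeval_X, Module.End.mul_apply,
      heckeEnd_apply, map_mul]

/-- Real polynomials give real functions. -/
theorem im_heckePoly_map (q : ℕ) (P : ℝ[X]) (n : ℕ) :
    (heckePoly q (P.map Complex.ofRealHom) n).im = 0 := by
  induction P using Polynomial.induction_on generalizing n with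
  | C r =>
    rw [map_C, show heckePoly q (C (Complex.ofRealHom r)) =
      Complex.ofRealHom r • Finsupp.single 0 (1 : ℂ) by
        simp [heckePoly, Algebra.algebraMap_eq_smul_one]]
    rcases n with _ | n <;> simp
  | add P P' h h' => simp [heckePoly, Polynomial.map_add] at h h' ⊢; simp [h, h']
  | monomial k r h =>
    rw [show C r * X ^ (k + 1) = X * (C r * X ^ k) by ring, Polynomial.map_mul, map_X,
      heckePoly_X_mul]
    simp only [Polynomial.map_mul, Polynomial.map_pow, map_X, map_C] at h ⊢
    rcases n with _ | n <;>
      simp only [mulT_zero_apply, mulT_succ_apply, Complex.add_im, Complex.mul_im, h,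
        Complex.natCast_im, Complex.one_im, mul_zero, zero_mul, add_zero]

variable {O' : Type*} [CommRing O'] [IsDomain O'] [IsDiscreteValuationRing O']
  [Finite (ResidueField O')] (D' : TreeData O')
  {L' : Type*} [Field L'] [Algebra O' L'] [IsFractionRing O' L']
  {H' : Subgroup PGL(2, L')} (hH' : IsUnimodularLevel O' H')

/-- A bijection respecting distance one carries the Hecke algebras to each other. -/
theorem radKer_heckePoly_transport (Ψ : PGL(2, L) ⧸ H ≃ PGL(2, L') ⧸ H')
    (h1 : ∀ a c, radKer D' hH' (Finsupp.single 1 1) (Ψ a) (Ψ c) =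
      radKer D hH (Finsupp.single 1 1) a c)
    (P : ℂ[X]) (a c : PGL(2, L) ⧸ H) :
    radKer D' hH' (heckePoly (resCard O') P) (Ψ a) (Ψ c) =
      radKer D hH (heckePoly (resCard O) P) a c := by
  induction P using Polynomial.induction_on generalizing a c with
  | C r =>
    have e : ∀ q, heckePoly q (C r) = r • Finsupp.single 0 (1 : ℂ) := fun q => by
      simp [heckePoly, Algebra.algebraMap_eq_smul_one]
    rw [radKer_apply, radKer_apply, e, e, Finsupp.smul_apply, Finsupp.smul_apply]
    by_cases h : a = c
    · subst h
      rw [(dist_eq_zero_iff _ _ _).2 rfl, (dist_eq_zero_iff _ _ _).2 rfl]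
    · rw [Finsupp.single_eq_of_ne fun h0 =>
          h ((cosetEquiv hH).symm.injective ((dist_eq_zero_iff _ _ _).1 h0)),
        Finsupp.single_eq_of_ne fun h0 =>
          h (Ψ.injective ((cosetEquiv hH').symm.injective ((dist_eq_zero_iff _ _ _).1 h0)))]
  | add P P' h h' =>
    have e1 := h a c
    have e2 := h' a c
    simp only [radKer_apply, heckePoly, map_add, LinearMap.add_apply, Finsupp.add_apply] at e1 e2 ⊢
    rw [e1, e2]
  | monomial n r h =>
    rw [show C r * X ^ (n + 1) = X * (C r * X ^ n) by ring, heckePoly_X_mul, heckePoly_X_mul,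
      ← radKer_comp_step, ← radKer_comp_step]
    show ∑ᶠ b, _ = ∑ᶠ b, _
    rw [← finsum_comp_equiv Ψ]
    exact finsum_congr fun b => by rw [h, h1]

end Fermat.Agent.LT.Inert

end
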