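import Fermat.Agent.LT.Inert.Matching
import Mathlib.RingTheory.Localization.FractionRing
import Mathlib.RingTheory.Localization.Integer

/-!
# Arbitrary twisted representatives

A matrix `δ` commuting with `γ` with `δ σδ σ²δ` a multiple of `γ` has length divisible by three
for translations, and is twisted conjugate to a good one inside the torus.
-/

set_option autoImplicit false
set_option linter.unusedSectionVars false
set_option linter.unusedTactic false
set_option linter.unreachableTactic false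

noncomputable section

namespace Fermat.Agent.LT.Inert

open IsLocalRing Matrix QuadraticAlgebra

variable {O₀ O : Type*} [CommRing O₀] [IsDomain O₀] [IsDiscreteValuationRing O₀]
  [CommRing O] [IsDomain O] [IsDiscreteValuationRing O]
  {C : CubicData O₀ O} {γ : Mat O₀} (Nf : Normal C γ)

/-- Not a scalar matrix. -/
def IsNonscalar (γ : Mat O₀) : Prop := γ 0 1 ≠ 0 ∨ γ 1 0 ≠ 0 ∨ γ 0 0 ≠ γ 1 1

namespace Normal

theorem eq_zero_of_smul_add {r s : O} (hns : IsNonscalar γ)
    (h : r • (1 : Mat O) + s • C.up γ = 0) : r = 0 ∧ s = 0 := by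
  have e := fun i j => congrFun (congrFun h i) j
  have hs : s = 0 := by
    rcases hns with h1 | h1 | h1
    · have e01 := e 0 1
      simp [CubicData.up] at e01
      exact e01.resolve_right (C.ι_ne_zero h1)
    · have e10 := e 1 0
      simp [CubicData.up] at e10
      exact e10.resolve_right (C.ι_ne_zero h1)
    · have e00 := e 0 0
      have e11 := e 1 1
      simp [CubicData.up] at e00 e11
      have : s * (C.ι (γ 0 0) - C.ι (γ 1 1)) = 0 := by linear_combination e00 - e11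
      exact (mul_eq_zero.mp this).resolve_right
        (sub_ne_zero.mpr fun e' => h1 (C.ι_injective e'))
  refine ⟨?_, hs⟩
  have e00 := e 0 0
  simpa [hs] using e00

/-- The commutant of `γ` upstairs is spanned by `1` and `γ`. -/
theorem exists_evalM_of_commute (hns : IsNonscalar γ) {δ : Mat O}
    (hcomm : δ * C.up γ = C.up γ * δ) :
    ∃ (d : O) (z : QuadraticAlgebra O (C.ι Nf.a) (C.ι Nf.b)), d ≠ 0 ∧ d • δ = Nf.evalM z := by
  set g := C.up γ with hg
  have e := fun i j => congrFun (congrFun hcomm i) j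
  have e00 := e 0 0
  have e01 := e 0 1
  have e10 := e 1 0
  simp [Matrix.mul_apply, Fin.sum_univ_two] at e00 e01 e10
  obtain ⟨d, x, y, hd, hxy⟩ : ∃ d x y : O, d ≠ 0 ∧ d • δ = x • (1 : Mat O) + y • g := by
    rcases hns with h1 | h1 | h1
    · refine ⟨g 0 1, g 0 1 * δ 0 0 - δ 0 1 * g 0 0, δ 0 1, C.ι_ne_zero h1, ?_⟩
      ext i j
      fin_cases i <;> fin_cases j <;> simp
      all_goals first | ring1 | linear_combination e00 | linear_combination -e00 | linear_combination e01 |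
        linear_combination -e01 | linear_combination e10 | linear_combination -e10
    · refine ⟨g 1 0, g 1 0 * δ 0 0 - δ 1 0 * g 0 0, δ 1 0, C.ι_ne_zero h1, ?_⟩
      ext i j
      fin_cases i <;> fin_cases j <;> simp
      all_goals first | ring1 | linear_combination e00 | linear_combination -e00 | linear_combination e01 |
        linear_combination -e01 | linear_combination e10 | linear_combination -e10
    · have hd : g 0 0 - g 1 1 ≠ 0 := sub_ne_zero.mpr fun e' => h1 (C.ι_injective e')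
      refine ⟨g 0 0 - g 1 1, g 0 0 * δ 1 1 - g 1 1 * δ 0 0, δ 0 0 - δ 1 1, hd, ?_⟩
      ext i j
      fin_cases i <;> fin_cases j <;> simp
      all_goals first | ring1 | linear_combination e00 | linear_combination -e00 | linear_combination e01 |
        linear_combination -e01 | linear_combination e10 | linear_combination -e10
  refine ⟨Nf.p * d, ⟨x, Nf.p * y⟩, mul_ne_zero Nf.p_ne_zero hd, ?_⟩
  rw [evalM, mul_smul, hxy, smul_add, smul_smul, smul_smul, mul_comm Nf.p x]

/-- The cubic norm of the coordinates of `δ`. -/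
theorem exists_norm_eq_of_evalM (hns : IsNonscalar γ) {δ : Mat O} (hδ : δ.det ≠ 0)
    (hN : ∃ u v : O, u ≠ 0 ∧ v ≠ 0 ∧
      u • (δ * δ.map C.σ * (δ.map C.σ).map C.σ) = v • C.up γ)
    {d : O} {z : QuadraticAlgebra O (C.ι Nf.a) (C.ι Nf.b)} (hd : d ≠ 0)
    (hz : d • δ = Nf.evalM z) :
    ∃ c : O, c ≠ 0 ∧ Nf.aut.cubicNorm z = c • ω := by
  obtain ⟨u, v, hu, hv, huv⟩ := hN
  have hsm : ∀ (r : O) (M : Mat O), (r • M).map C.σ = C.σ r • M.map C.σ :=
    map_smul_sigma C.treeData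
  have hzn : z.norm ≠ 0 := fun h => by
    have e := congrArg Matrix.det hz
    rw [Matrix.det_smul, det_evalM, h, mul_zero] at e
    exact mul_ne_zero (pow_ne_zero _ hd) hδ e
  have hprod : Nf.evalM z * (Nf.evalM z).map C.σ * ((Nf.evalM z).map C.σ).map C.σ
      = Nf.p ^ 2 • Nf.evalM (Nf.aut.cubicNorm z) := by
    rw [map_evalM, map_evalM, evalM_mul, Matrix.smul_mul, evalM_mul, smul_smul,
      ← CubicAut.cubicNorm_def, ← pow_two]
  rw [← hz] at hprod
  simp only [hsm, Matrix.smul_mul, Matrix.mul_smul, smul_smul] at hprod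
  set w := Nf.aut.cubicNorm z with hw
  have key : (u * Nf.p ^ 2 * (w.re * Nf.p)) • (1 : Mat O) +
      (u * Nf.p ^ 2 * w.im - d * C.σ d * C.σ (C.σ d) * v) • C.up γ = 0 := by
    have e1 : (u * Nf.p ^ 2) • Nf.evalM w = (d * C.σ d * C.σ (C.σ d) * v) • C.up γ := by
      rw [mul_smul u, ← hprod, smul_comm u, huv, smul_smul]
      congr 1
      ring
    rw [evalM, smul_add, smul_smul, smul_smul] at e1
    rw [sub_smul, ← e1]
    abel
  have hre : w.re = 0 := by
    simpa [hu, Nf.p_ne_zero] using (eq_zero_of_smul_add hns key).1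
  have hwω : w = w.im • ω := by ext <;> simp [hre]
  refine ⟨w.im, fun h0 => ?_, hwω⟩
  have hwn : w.norm ≠ 0 := by
    rw [hw, CubicAut.cubicNorm_def, map_mul, map_mul]
    have hτ : ∀ x, x.norm ≠ 0 → (Nf.aut.τ x).norm ≠ 0 := fun x hx => by
      have : (Nf.aut.τ x).norm = C.σ x.norm := by
        simp [QuadraticAlgebra.norm_def, Normal.aut, C.σ_ι]
      rw [this]; simpa using hx
    exact mul_ne_zero (mul_ne_zero hzn (hτ _ hzn)) (hτ _ (hτ _ hzn))
  rw [hwω, h0] at hwn
  simp at hwn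

/-- Such a `δ` is a multiple of an element of cubic norm a multiple of `ω`. -/
theorem exists_norm_eq (hns : IsNonscalar γ) {δ : Mat O} (hδ : δ.det ≠ 0)
    (hcomm : δ * C.up γ = C.up γ * δ)
    (hN : ∃ u v : O, u ≠ 0 ∧ v ≠ 0 ∧
      u • (δ * δ.map C.σ * (δ.map C.σ).map C.σ) = v • C.up γ) :
    ∃ (d : O) (z : QuadraticAlgebra O (C.ι Nf.a) (C.ι Nf.b)) (c : O), d ≠ 0 ∧
      d • δ = Nf.evalM z ∧ z.norm ≠ 0 ∧ c ≠ 0 ∧ Nf.aut.cubicNorm z = c • ω := by
  obtain ⟨d, z, hd, hz⟩ := Nf.exists_evalM_of_commute hns hcomm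
  obtain ⟨c, hc, hzc⟩ := Nf.exists_norm_eq_of_evalM hns hδ hN hd hz
  refine ⟨d, z, c, hd, hz, fun h => ?_, hc, hzc⟩
  have e := congrArg Matrix.det hz
  rw [Matrix.det_smul, det_evalM, h, mul_zero] at e
  exact mul_ne_zero (pow_ne_zero _ hd) hδ e

/-- Translations: the length is divisible by three. -/
theorem three_dvd_of_norm_eq {z : QuadraticAlgebra O (C.ι Nf.a) (C.ι Nf.b)} {c : O}
    (hzn : z.norm ≠ 0) (hz : Nf.aut.cubicNorm z = c • ω) (hb : IsUnit Nf.b)
    (ha : C.unif ∣ Nf.a) : 3 ∣ ordO Nf.a := by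
  set π := C.ι C.unif with hπdef
  have hπ : Irreducible π := C.irreducible
  have hσπ : C.σ π = π := C.σ_ι _
  -- make `z` primitive
  obtain ⟨t, z₀, rfl, hprim⟩ : ∃ (t : ℕ) (z₀ : QuadraticAlgebra O (C.ι Nf.a) (C.ι Nf.b)),
      z = π ^ t • z₀ ∧ ¬ (π ∣ z₀.re ∧ π ∣ z₀.im) := by
    clear hz
    induction hn : ordO z.norm using Nat.strong_induction_on generalizing z with
    | _ n ih =>
      by_cases hd : π ∣ z.re ∧ π ∣ z.im
      · obtain ⟨⟨r, hr⟩, ⟨s, hs⟩⟩ := hd
        let z₁ : QuadraticAlgebra O (C.ι Nf.a) (C.ι Nf.b) := ⟨r, s⟩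
        have hz₁ : z = π • z₁ := QuadraticAlgebra.ext hr hs
        have hn₁ : z.norm = π ^ 2 * z₁.norm := by
          rw [hz₁]; simp [QuadraticAlgebra.norm_def]; ring
        have h₁ : z₁.norm ≠ 0 := fun e => hzn (by rw [hn₁, e, mul_zero])
        obtain ⟨t, z₀, e, hp⟩ := ih (ordO z₁.norm) (by
          rw [← hn, hn₁, ordO_mul (pow_ne_zero _ hπ.ne_zero) h₁, ordO_pow hπ.ne_zero,
            ordO_irreducible hπ]
          omega) h₁ rfl
        exact ⟨t + 1, z₀, by rw [hz₁, e, smul_smul, pow_succ'], hp⟩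
      · exact ⟨0, z, by simp, hd⟩
  set w := Nf.aut.cubicNorm z₀ with hw
  have hsmul : Nf.aut.cubicNorm (π ^ t • z₀) = (π ^ t * (π ^ t * π ^ t)) • w := by
    have hτ : ∀ x, Nf.aut.τ (π ^ t • x) = π ^ t • Nf.aut.τ x := fun x => by
      ext <;> simp [Normal.aut, hσπ]
    simp only [hw, CubicAut.cubicNorm_def, hτ, smul_mul_assoc, mul_smul_comm, smul_smul,
      mul_assoc]
  have hre : w.re = 0 := by
    have e := congrArg QuadraticAlgebra.re (hsmul ▸ hz)
    simpa [hπ.ne_zero] using e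
  have hdvdσ : ∀ {x : O}, π ∣ C.σ x → π ∣ x := fun {x} hx => by
    simpa [C.order_three, hσπ] using map_dvd C.σ (map_dvd C.σ hx)
  have haπ : π ∣ C.ι Nf.a := map_dvd C.ι ha
  have hσre : π ∣ z₀.re := by
    have e : π ∣ z₀.re * C.σ z₀.re * C.σ (C.σ z₀.re) := by
      obtain ⟨s, hs⟩ := haπ
      refine ⟨-(s * (z₀.im * C.σ z₀.im) * C.σ (C.σ z₀.re) +
        s * (z₀.re * C.σ z₀.im + z₀.im * C.σ z₀.re + C.ι Nf.b * (z₀.im * C.σ z₀.im)) *
          C.σ (C.σ z₀.im)), ?_⟩
      rw [hw, CubicAut.cubicNorm_def] at hre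
      simp [Normal.aut] at hre
      linear_combination hre - ((z₀.im * C.σ z₀.im) * C.σ (C.σ z₀.re) +
        (z₀.re * C.σ z₀.im + z₀.im * C.σ z₀.re + C.ι Nf.b * (z₀.im * C.σ z₀.im)) *
          C.σ (C.σ z₀.im)) * hs
    rcases hπ.prime.dvd_or_dvd e with e | e
    · rcases hπ.prime.dvd_or_dvd e with e | e
      · exact e
      · exact hdvdσ e
    · exact hdvdσ (hdvdσ e)
  have him : IsUnit z₀.im := (isUnit_iff_not_dvd hπ).mpr fun h => hprim ⟨hσre, h⟩
  have hwu : IsUnit w.im := by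
    rw [isUnit_iff_not_dvd hπ]
    intro h
    have hu := ((him.mul (him.map C.σ)).mul ((him.map C.σ).map C.σ)).mul ((hb.map C.ι).pow 2)
    apply (isUnit_iff_not_dvd hπ).mp hu
    have hσ₁ : π ∣ C.σ z₀.re := by simpa [hσπ] using map_dvd C.σ hσre
    have hσ₂ : π ∣ C.σ (C.σ z₀.re) := by simpa [hσπ] using map_dvd C.σ hσ₁
    obtain ⟨r₀, hr₀⟩ := hσre
    obtain ⟨r₁, hr₁⟩ := hσ₁
    obtain ⟨r₂, hr₂⟩ := hσ₂
    obtain ⟨s, hs⟩ := haπ
    obtain ⟨m, hm⟩ := h
    refine ⟨m - ((r₀ * (π * r₁) + s * (z₀.im * C.σ z₀.im)) * C.σ (C.σ z₀.im) +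
      (π * r₀ * C.σ z₀.im + z₀.im * (π * r₁) + C.ι Nf.b * (z₀.im * C.σ z₀.im)) * r₂ +
      C.ι Nf.b * (r₀ * C.σ z₀.im + z₀.im * r₁) * C.σ (C.σ z₀.im)), ?_⟩
    rw [hw, CubicAut.cubicNorm_def] at hm
    simp [Normal.aut] at hm
    rw [hr₂, hr₁, hr₀] at hm
    linear_combination hm - z₀.im * C.σ z₀.im * C.σ (C.σ z₀.im) * hs
  have hn0 : z₀.norm ≠ 0 := fun e => hzn (by
    have h := e
    rw [QuadraticAlgebra.norm_def] at h ⊢
    simp
    linear_combination (π ^ t) ^ 2 * h)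
  have hnorm : z₀.norm * C.σ z₀.norm * C.σ (C.σ z₀.norm) = w.im ^ 2 * -(C.ι Nf.a) := by
    have e1 : w.norm = z₀.norm * C.σ z₀.norm * C.σ (C.σ z₀.norm) := by
      rw [hw, CubicAut.cubicNorm_def, map_mul, map_mul]
      simp [QuadraticAlgebra.norm_def, Normal.aut, C.σ_ι]
    rw [← e1, QuadraticAlgebra.norm_def, hre]
    ring
  have hσn : C.σ z₀.norm ≠ 0 := by simpa using hn0
  have hσσn : C.σ (C.σ z₀.norm) ≠ 0 := by simpa using hn0
  have e := congrArg ordO hnorm
  rw [ordO_mul (mul_ne_zero hn0 hσn) hσσn, ordO_mul hn0 hσn,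
    ordO_mul (pow_ne_zero _ hwu.ne_zero) (neg_ne_zero.mpr Nf.ι_a_ne_zero),
    ordO_unit (hwu.pow 2), show -(C.ι Nf.a) = (-1) * C.ι Nf.a by ring,
    ordO_mul (by simp) Nf.ι_a_ne_zero, ordO_unit isUnit_one.neg, C.ordO_ι] at e
  have o1 : ∀ x, ordO (C.σ x) = ordO x := ordO_sigma C.treeData
  rw [o1, o1, o1] at e
  exact ⟨ordO z₀.norm, by omega⟩

namespace Good

variable {Nf} (g : Nf.Good)

/-- Twisted conjugacy inside the torus. -/
theorem exists_conjugator (hns : IsNonscalar γ) (hres : ∃ x, C.σ x ≠ x) {δ : Mat O}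
    (hδ : δ.det ≠ 0) (hcomm : δ * C.up γ = C.up γ * δ)
    (hN : ∃ u v : O, u ≠ 0 ∧ v ≠ 0 ∧
      u • (δ * δ.map C.σ * (δ.map C.σ).map C.σ) = v • C.up γ) :
    ∃ w : QuadraticAlgebra O (C.ι Nf.a) (C.ι Nf.b), (Nf.evalM w).det ≠ 0 ∧
      ∃ α β : O, α ≠ 0 ∧ β ≠ 0 ∧
        α • (δ * (Nf.evalM w).map C.σ) = β • (Nf.evalM w * g.delta) := by
  obtain ⟨d, z, c, hd, hz, hzn, hc, hzc⟩ := Nf.exists_norm_eq hns hδ hcomm hN
  let K := FractionRing O
  have hinj : Function.Injective (algebraMap O K) := IsFractionRing.injective O K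
  let σK : K ≃+* K := IsFractionRing.ringEquivOfRingEquiv C.σ
  have hσK : ∀ x, σK (algebraMap O K x) = algebraMap O K (C.σ x) := fun x => by simp [σK]
  have hσK3 : ∀ x, σK (σK (σK x)) = x := fun x => by
    obtain ⟨r, s, -, rfl⟩ := IsFractionRing.div_surjective (A := O) x
    simp only [map_div₀, hσK, C.order_three]
  let T : CubicAut K (algebraMap O K (C.ι Nf.a)) (algebraMap O K (C.ι Nf.b)) :=
    ⟨σK, hσK3, by rw [hσK, C.σ_ι], by rw [hσK, C.σ_ι]⟩
  let f := qMap (algebraMap O K) (a := C.ι Nf.a) (b := C.ι Nf.b) rfl rfl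
  have hfinj : Function.Injective f := fun x y e =>
    QuadraticAlgebra.ext (hinj (congrArg QuadraticAlgebra.re e))
      (hinj (congrArg QuadraticAlgebra.im e))
  have hfτ : ∀ x, f (Nf.aut.τ x) = T.τ (f x) := fun x => by
    ext <;> simp [f, T, Normal.aut, hσK]
  have hfs : ∀ (r : O) x, f (r • x) = algebraMap O K r • f x := fun r x => by
    ext <;> simp [f, Algebra.smul_def]
  -- `z * conj g.z` has scalar norm
  set u₀ := z * star g.z with hu₀
  set r := c * g.c * -(C.ι Nf.a) with hr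
  have hr0 : r ≠ 0 := mul_ne_zero (mul_ne_zero hc g.c_ne_zero) (neg_ne_zero.mpr Nf.ι_a_ne_zero)
  have hNu : Nf.aut.cubicNorm u₀ = r • 1 := by
    have hstar : ∀ x, Nf.aut.τ (star x) = star (Nf.aut.τ x) := fun x => by
      ext <;> simp [Normal.aut, C.σ_ι]
    have hs : Nf.aut.cubicNorm (star g.z) = star (Nf.aut.cubicNorm g.z) := by
      simp only [CubicAut.cubicNorm_def, hstar, star_mul']
    rw [hu₀, map_mul, hzc, hs, g.cubicNorm_eq]
    ext <;> simp [hr] <;> ring
  set n := u₀.norm with hn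
  have hnn : n * C.σ n * C.σ (C.σ n) = r ^ 2 := by
    have e := congrArg QuadraticAlgebra.norm hNu
    rw [CubicAut.cubicNorm_def, map_mul, map_mul] at e
    simp [QuadraticAlgebra.norm_def, Normal.aut, hn, C.σ_ι] at e ⊢
    linear_combination e
  have hn0 : n ≠ 0 := fun e => by
    rw [e] at hnn; simp at hnn; exact hr0 (pow_eq_zero_iff two_ne_zero |>.mp hnn.symm)
  have hσr : C.σ r = r := by
    have e := congrArg QuadraticAlgebra.re (Nf.aut.τ_cubicNorm u₀)
    rw [hNu] at e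
    simpa [Normal.aut] using e
  set u' := (algebraMap O K n / algebraMap O K r) • f u₀ with hu'
  have hu'N : T.cubicNorm u' = 1 := by
    have hτs : ∀ (s : K) y, T.τ (s • y) = σK s • T.τ y := fun s y => by
      ext <;> simp [T]
    have hrK : algebraMap O K r ≠ 0 := (map_ne_zero_iff _ hinj).mpr hr0
    rw [hu', CubicAut.cubicNorm_def]
    simp only [hτs, smul_mul_assoc, mul_smul_comm, smul_smul, map_div₀, hσK, hσr]
    rw [← hfτ, ← hfτ, ← map_mul, ← map_mul, ← CubicAut.cubicNorm_def, hNu, hfs, map_one,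
      smul_smul]
    have e : algebraMap O K n * algebraMap O K (C.σ n) * algebraMap O K (C.σ (C.σ n))
        = algebraMap O K r ^ 2 := by rw [← map_mul, ← map_mul, hnn, map_pow]
    convert! one_smul K (1 : QuadraticAlgebra K _ _) using 2
    have hρ : algebraMap O K r * (algebraMap O K r)⁻¹ = 1 := mul_inv_cancel₀ hrK
    simp only [div_eq_mul_inv]
    linear_combination ((algebraMap O K r)⁻¹ ^ 3 * algebraMap O K r) * e +
      ((algebraMap O K r * (algebraMap O K r)⁻¹) ^ 2 + algebraMap O K r * (algebraMap O K r)⁻¹ + 1) * hρ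
  obtain ⟨x, hx⟩ := hres
  obtain ⟨w, hw, hwe⟩ := T.exists_unit_mul_τ_eq
    ⟨algebraMap O K x, fun e => hx (hinj (by rw [← hσK]; exact e))⟩ hu'N
  -- clear denominators
  obtain ⟨⟨e, he⟩, hew⟩ := IsLocalization.exist_integer_multiples_of_finite (nonZeroDivisors O)
    (fun i : Fin 2 => if i = 0 then w.re else w.im)
  obtain ⟨w0, hw0⟩ := hew 0
  obtain ⟨w1, hw1⟩ := hew 1
  simp [Algebra.smul_def] at hw0 hw1
  let wO : QuadraticAlgebra O (C.ι Nf.a) (C.ι Nf.b) := ⟨w0, w1⟩
  have he0 : e ≠ 0 := nonZeroDivisors.ne_zero he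
  have heK : algebraMap O K e ≠ 0 := (map_ne_zero_iff _ hinj).mpr he0
  have hfw : f wO = algebraMap O K e • w := by ext <;> simp [f, wO, hw0, hw1, Algebra.smul_def]
  have hmain : (C.σ e * r) • wO = (e * n) • (u₀ * Nf.aut.τ wO) := by
    apply hfinj
    have hrK : algebraMap O K r ≠ 0 := (map_ne_zero_iff _ hinj).mpr hr0
    have hτs : T.τ (algebraMap O K e • w) = algebraMap O K (C.σ e) • T.τ w := by
      ext <;> simp [T, hσK, Algebra.smul_def]
    conv_lhs => rw [hfs, hfw, ← hwe, hu']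
    rw [hfs, map_mul f u₀, hfτ, hfw, hτs, smul_mul_assoc, mul_smul_comm, smul_smul, smul_smul,
      smul_smul, map_mul (algebraMap O K) (C.σ e), map_mul (algebraMap O K) e n]
    congr 1
    rw [div_eq_mul_inv]
    linear_combination (algebraMap O K (C.σ e) * algebraMap O K e * algebraMap O K n) *
      mul_inv_cancel₀ hrK
  have hwn : wO.norm ≠ 0 := fun h0 => by
    have e1 : algebraMap O K wO.norm = (f wO).norm := by simp [f, QuadraticAlgebra.norm_def]
    rw [h0, map_zero, hfw] at e1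
    have e2 := e1.symm
    simp only [QuadraticAlgebra.norm_def, QuadraticAlgebra.re_smul, QuadraticAlgebra.im_smul,
      smul_eq_mul] at e2
    apply (isUnit_iff_norm_isUnit.mp hw).ne_zero
    rw [QuadraticAlgebra.norm_def]
    have e3 : algebraMap O K e ^ 2 * (w.re * w.re + algebraMap O K (C.ι Nf.b) * w.re * w.im
        - algebraMap O K (C.ι Nf.a) * w.im * w.im) = 0 := by linear_combination e2
    exact (mul_eq_zero.mp e3).resolve_left (pow_ne_zero _ heK)
  refine ⟨wO, by rw [det_evalM]; exact mul_ne_zero (pow_ne_zero _ Nf.p_ne_zero) hwn,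
    e * n * g.z.norm * d, C.σ e * r, ?_, mul_ne_zero (by simpa using he0) hr0, ?_⟩
  · exact mul_ne_zero (mul_ne_zero (mul_ne_zero he0 hn0) g.norm_ne_zero) hd
  have hkey : (C.σ e * r) • (wO * g.z) = (e * n * g.z.norm) • (z * Nf.aut.τ wO) := by
    rw [← smul_mul_assoc, hmain, hu₀, smul_mul_assoc,
      show z * star g.z * Nf.aut.τ wO * g.z = (g.z * star g.z) * (z * Nf.aut.τ wO) by ring,
      ← QuadraticAlgebra.algebraMap_norm_eq_mul_star, Algebra.algebraMap_eq_smul_one,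
      smul_mul_assoc, one_mul, smul_smul]
  calc (e * n * g.z.norm * d) • (δ * (Nf.evalM wO).map C.σ)
      = (e * n * g.z.norm) • (Nf.evalM z * Nf.evalM (Nf.aut.τ wO)) := by
        rw [mul_smul, ← Matrix.smul_mul d δ, hz, map_evalM]
    _ = Nf.p • Nf.evalM ((e * n * g.z.norm) • (z * Nf.aut.τ wO)) := by
        rw [evalM_mul, smul_comm, evalM_smul]
    _ = (C.σ e * r) • (Nf.evalM wO * g.delta) := by
        rw [← hkey, evalM_smul, Good.delta, evalM_mul, smul_comm]

end Good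

end Normal

end Fermat.Agent.LT.Inert

end
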