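import Fermat.Agent.LT.Inert.Coset
import Fermat.Agent.LT.Inert.Twist
import Fermat.Agent.LT.Inert.Hecke
import Fermat.Agent.LT.Geom.TwistedClasses
import Fermat.Agent.LT.Descent.Setting
import Fermat.Agent.LT.Descent.TensorProd

/-!
# Local fibre matchings at inert places

For `γ` in `PGL₂` of the small field and `δ` with twisted norm `γ`, the diagonal functions of
radial kernels `f`, `φ`, with `f` the base change of `φ`, have equal fibre sums over the minimal
vertices of `γ`.  When `γ` and `δ` fix the base points the match carries the base points to each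
other.  If `γ` is not a norm the fibre sums of `f` vanish.
-/

set_option autoImplicit false
set_option linter.unusedSectionVars false
set_option linter.deprecated false

noncomputable section

namespace Fermat.Agent.LT.Inert

open IsLocalRing Matrix
open scoped MatrixGroups
open Fermat.Agent.LT.Descent Fermat.Agent.LT.Geom

section Generic

variable {O : Type*} [CommRing O] [IsDomain O] [IsDiscreteValuationRing O]

theorem galMap_baseData {O' : Type*} [CommRing O'] [IsDomain O'] [IsDiscreteValuationRing O']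
    (C : CubicData O O') (x : Vertex O) : galMap C.baseData x = x := by
  obtain ⟨k, hk, rfl⟩ := x.exists_rep
  exact congrArg _ (Subtype.ext (Matrix.map_id' k))

/-- Multiplication by the adjugate undoes multiplication. -/
theorem leftMul_adjugate (t : Mat O) (ht : t.det ≠ 0) (ht' : t.adjugate.det ≠ 0) (x : Vertex O) :
    leftMul t.adjugate ht' (leftMul t ht x) = x ∧
      leftMul t ht (leftMul t.adjugate ht' x) = x := by
  obtain ⟨k, hk, rfl⟩ := x.exists_rep
  constructor <;> refine Quotient.sound ⟨1, t.det, 1, by simp, ht, one_ne_zero, ?_⟩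
  · show t.det • k = (1 : O) • (t.adjugate * (t * k) * 1)
    rw [one_smul, Matrix.mul_one, ← Matrix.mul_assoc, Matrix.adjugate_mul, Matrix.smul_mul,
      Matrix.one_mul]
  · show t.det • k = (1 : O) • (t * (t.adjugate * k) * 1)
    rw [one_smul, Matrix.mul_one, ← Matrix.mul_assoc, Matrix.mul_adjugate, Matrix.smul_mul,
      Matrix.one_mul]

theorem det_adjugate_ne_zero {t : Mat O} (ht : t.det ≠ 0) : t.adjugate.det ≠ 0 := by
  simpa [Matrix.det_adjugate] using ht

/-- Multiplication as a bijection of the vertices. -/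
def leftMulEquiv (t : Mat O) (ht : t.det ≠ 0) : Vertex O ≃ Vertex O where
  toFun := leftMul t ht
  invFun := leftMul t.adjugate (det_adjugate_ne_zero ht)
  left_inv x := (leftMul_adjugate t ht _ x).1
  right_inv x := (leftMul_adjugate t ht _ x).2

theorem commute_adjugate {t x : Mat O} (hx : x.det ≠ 0) (h : x * t = t * x) :
    x.adjugate * t = t * x.adjugate := by
  apply smul_right_injective (Mat O) hx
  have e := congrArg (fun M => x.adjugate * M * x.adjugate) h
  simp only [← Matrix.mul_assoc, Matrix.adjugate_mul, Matrix.smul_mul, Matrix.one_mul] at e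
  simp only [Matrix.mul_assoc, Matrix.mul_adjugate, Matrix.mul_smul, Matrix.mul_one] at e
  exact e.symm

/-- Commuting in `PGL₂` with an element of nonzero trace is commuting. -/
theorem commute_of_smul_eq {t g : Mat O} (ht : t.det ≠ 0) (hg : g.det ≠ 0) (htr : g.trace ≠ 0)
    {a b : O} (ha : a ≠ 0) (h : a • (t * g) = b • (g * t)) : t * g = g * t := by
  have hdet := congrArg Matrix.det h
  rw [Matrix.det_smul, Matrix.det_smul, Fintype.card_fin, Matrix.det_mul, Matrix.det_mul,
    mul_comm g.det] at hdet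
  have hsq : a ^ 2 = b ^ 2 := mul_right_cancel₀ (mul_ne_zero ht hg) hdet
  suffices hab : a = b from smul_right_injective (Mat O) ha (by
    show a • _ = a • _
    rw [h, hab])
  rcases sq_eq_sq_iff_eq_or_eq_neg.mp hsq with e | e
  · exact e
  · have h2 := congrArg (fun M => (M * t.adjugate).trace) h
    simp only [Matrix.smul_mul, Matrix.trace_smul, smul_eq_mul] at h2
    rw [Matrix.trace_mul_comm (t * g), ← Matrix.mul_assoc, Matrix.adjugate_mul, Matrix.smul_mul,
      Matrix.one_mul, Matrix.mul_assoc g, Matrix.mul_adjugate, Matrix.mul_smul, Matrix.mul_one,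
      Matrix.trace_smul, smul_eq_mul] at h2
    exact mul_right_cancel₀ (mul_ne_zero ht htr) h2

variable [Finite (ResidueField O)] (D : TreeData O) (δ : Mat O) (hδ : δ.det ≠ 0)

theorem finite_root_support {R : Type*} [CommRing R] (φ : ℕ →₀ R) (y : Vertex O) :
    {z | φ (disp D δ hδ z) ≠ 0 ∧ root D δ hδ z = y}.Finite := by
  classical
  refine (Finset.finite_toSet ((Finset.range (bound φ + 1)).biUnion (fibre D δ hδ y))).subset ?_
  rintro z ⟨hz, rfl⟩
  obtain ⟨d, hd⟩ := exists_mem_fibre_root D δ hδ z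
  simp only [Finset.mem_coe, Finset.mem_biUnion, Finset.mem_range]
  refine ⟨d, ?_, hd⟩
  by_contra hlt
  exact hz (apply_eq_zero_of_bound_le φ (by rw [disp_of_mem_fibre D δ hδ hd]; omega))

/-- An isometry carrying one semilinear map to another. -/
theorem disp_leftMul_of_twist {δ' X : Mat O} (hδ' : δ'.det ≠ 0) (hX : X.det ≠ 0) {α β : O}
    (hα : α ≠ 0) (hβ : β ≠ 0) (h : α • (δ' * X.map D.σ) = β • (X * δ)) (x : Vertex O) :
    disp D δ' hδ' (leftMul X hX x) = disp D δ hδ x := by
  have hact : act D δ' hδ' (leftMul X hX x) = leftMul X hX (act D δ hδ x) := by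
    obtain ⟨k, hk, rfl⟩ := x.exists_rep
    refine Quotient.sound ⟨1, β, α, by simp, hβ, hα, ?_⟩
    show β • (X * (δ * k.map D.σ)) = α • (δ' * (X * k).map D.σ * 1)
    rw [Matrix.mul_one, Matrix.map_mul, ← Matrix.mul_assoc, ← Matrix.mul_assoc, ← Matrix.smul_mul,
      ← h, Matrix.smul_mul]
  rw [disp, hact, dist_leftMul, disp]

end Generic

variable {O₀ O : Type*} [CommRing O₀] [IsDomain O₀] [IsDiscreteValuationRing O₀]
  [CommRing O] [IsDomain O] [IsDiscreteValuationRing O]
  [Finite (ResidueField O₀)] [Finite (ResidueField O)]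
  [IsAdicComplete (maximalIdeal O) O] [IsAdicComplete (maximalIdeal O₀) O₀]
  (C : CubicData O₀ O)
  {L₀ L : Type*} [Field L₀] [Algebra O₀ L₀] [IsFractionRing O₀ L₀]
  [Field L] [Algebra O L] [IsFractionRing O L]
  (j : L₀ →+* L) (σL : L ≃+* L)
  (hj : ∀ a, j (algebraMap O₀ L₀ a) = algebraMap O L (C.ι a))
  (hσL : ∀ a, σL (algebraMap O L a) = algebraMap O L (C.σ a))

include hj in
theorem pglMap_toL {k : Mat O₀} (hk : k.det ≠ 0) :
    pglMap j (toL L₀ k hk) = toL L (C.up k) (C.det_up_ne_zero hk) := by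
  rw [toL, toL, pglMap_mk]
  congr 1
  ext i l
  simp [CubicData.up, hj]

include hσL in
theorem pglEquiv_toL {k : Mat O} (hk : k.det ≠ 0) :
    pglEquiv σL (toL L k hk) = toL L (k.map C.σ)
      (by rw [det_map_sigma C.treeData k |> fun e => (e : (k.map C.σ).det = C.σ k.det)]; simpa) := by
  rw [toL, toL, pglEquiv_apply, pglMap_mk]
  congr 1
  ext i l
  simp [hσL]

section Element

variable {γ : PGL(2, L₀)} {k : Mat O₀} {hk : k.det ≠ 0}

theorem trace_ne_zero_of_classInv (h : classInv (toL L₀ k hk) ≠ 0) : k.trace ≠ 0 := by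
  intro h0
  apply h
  rw [toL, classInv_mk, matInv, GeneralLinearGroup.val_mkOfDetNeZero, Matrix.trace_fin_two]
  simp only [Matrix.map_apply]
  rw [← map_add, ← Matrix.trace_fin_two, h0, map_zero]
  simp

theorem isNonscalar_of_ne_one (h : toL L₀ k hk ≠ 1) : IsNonscalar k := by
  by_contra hc
  simp only [IsNonscalar, not_or, not_not, ne_eq] at hc
  apply h
  rw [← toL_one L₀ (O := O₀) (by simp), toL_eq_iff]
  refine ⟨1, k 0 0, one_ne_zero, fun h0 => hk (by simp [Matrix.det_fin_two, h0, hc.1]), ?_⟩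
  ext i l
  fin_cases i <;> fin_cases l <;> simp [hc.1, hc.2.1, ← hc.2.2]

theorem commute_of_toL {O' : Type*} [CommRing O'] [IsDomain O'] [IsDiscreteValuationRing O']
    {L' : Type*} [Field L'] [Algebra O' L'] [IsFractionRing O' L'] {t g : Mat O'} (ht : t.det ≠ 0)
    (hg : g.det ≠ 0) (htr : g.trace ≠ 0) (h : Commute (toL L' t ht) (toL L' g hg)) :
    t * g = g * t := by
  have e := h.eq
  rw [toL_mul L' ht hg (by simp [ht, hg]), toL_mul L' hg ht (by simp [ht, hg]), toL_eq_iff] at e
  obtain ⟨a, b, ha, -, e⟩ := e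
  exact commute_of_smul_eq ht hg htr ha e

include hj hσL in
/-- `δ` with twisted norm `γ`, as integral matrices. -/
theorem twisted_data (htr : k.trace ≠ 0) {δ : Mat O} (hδ : δ.det ≠ 0)
    (hN : twNorm (pglEquiv σL) (toL L δ hδ) = pglMap j (toL L₀ k hk)) :
    δ * C.up k = C.up k * δ ∧ ∃ u v : O, u ≠ 0 ∧ v ≠ 0 ∧
      u • (δ * δ.map C.σ * (δ.map C.σ).map C.σ) = v • C.up k := by
  have hdσ : ∀ M : Mat O, M.det ≠ 0 → (M.map C.σ).det ≠ 0 := fun M hM => by
    rw [show (M.map C.σ).det = C.σ M.det from det_map_sigma C.treeData M]; simpa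
  have hkσ : ∀ M : Mat O, ((M.map C.σ).map C.σ).map C.σ = M := fun M => by
    ext i l; simp [C.order_three]
  rw [twNorm, pglMap_toL C j hj] at hN
  rw [pglEquiv_toL C σL hσL, pglEquiv_toL C σL hσL] at hN
  rw [toL_mul L hδ (hdσ _ hδ) (by simp [hδ, hdσ _ hδ]),
    toL_mul L _ (hdσ _ (hdσ _ hδ)) (by simp [-Matrix.map_map, hδ, hdσ _ hδ, hdσ _ (hdσ _ hδ)]), toL_eq_iff] at hN
  obtain ⟨u, v, hu, hv, huv⟩ := hN
  refine ⟨?_, u, v, hu, hv, huv⟩
  -- apply `σ` to the norm and compare
  have e := congrArg (fun M : Mat O => M.map C.σ) huv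
  simp only [Matrix.map_mul, hkσ, C.map_σ_up,
    show ∀ (r : O) (M : Mat O), (r • M).map C.σ = C.σ r • M.map C.σ from
      map_smul_sigma C.treeData] at e
  have h1 : (v * C.σ u) • (C.up k * δ) = (u * C.σ v) • (δ * C.up k) := by
    calc (v * C.σ u) • (C.up k * δ) = C.σ u • ((v • C.up k) * δ) := by
          rw [Matrix.smul_mul, smul_smul, mul_comm]
      _ = C.σ u • ((u • (δ * δ.map C.σ * (δ.map C.σ).map C.σ)) * δ) := by rw [huv]
      _ = u • (δ * (C.σ u • (δ.map C.σ * (δ.map C.σ).map C.σ * δ))) := by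
          simp only [Matrix.smul_mul, Matrix.mul_smul, smul_smul, Matrix.mul_assoc, mul_comm]
      _ = u • (δ * (C.σ v • C.up k)) := by rw [e]
      _ = _ := by rw [Matrix.mul_smul, smul_smul]
  refine commute_of_smul_eq hδ (C.det_up_ne_zero hk) ?_
    (mul_ne_zero hu (by simpa using hv)) h1.symm
  rw [Matrix.trace_fin_two, CubicData.up, Matrix.map_apply, Matrix.map_apply, ← map_add,
    ← Matrix.trace_fin_two]
  exact C.ι_ne_zero htr

end Element

variable {H₀ : Subgroup PGL(2, L₀)} (hH₀ : IsUnimodularLevel O₀ H₀)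
  {H : Subgroup PGL(2, L)} (hH : IsUnimodularLevel O H)
  {σH : PGL(2, L) ⧸ H → PGL(2, L) ⧸ H}
  (hσH : ∀ g : PGL(2, L), σH g = (pglEquiv σL g : PGL(2, L) ⧸ H))

include hσL hσH in
theorem symm_σH (z : PGL(2, L) ⧸ H) :
    (cosetEquiv hH).symm (σH z) = galMap C.treeData ((cosetEquiv hH).symm z) := by
  obtain ⟨x, rfl⟩ := (cosetEquiv hH).surjective z
  rw [Equiv.symm_apply_eq, Equiv.symm_apply_apply]
  obtain ⟨k, hk, rfl⟩ := x.exists_rep
  rw [cosetEquiv_mk, hσH, pglEquiv_toL C σL hσL]
  rfl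

/-- The minimal vertex under a vertex upstairs, downstairs. -/
def Normal.Good.descend {k : Mat O₀} {Nf : Normal C k} (g : Nf.Good) (x : Vertex O) : Vertex O₀ :=
  ((g.isMinimal_iff _).mp (isMinimal_root C.treeData g.delta g.det_delta_ne_zero x)).choose

omit [IsAdicComplete (maximalIdeal O) O] [IsAdicComplete (maximalIdeal O₀) O₀] in
theorem Normal.Good.incl_descend {k : Mat O₀} {Nf : Normal C k} (g : Nf.Good) (x : Vertex O) :
    C.incl (g.descend C x) = root C.treeData g.delta g.det_delta_ne_zero x :=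
  ((g.isMinimal_iff _).mp (isMinimal_root C.treeData g.delta g.det_delta_ne_zero x)).choose_spec.2

/-- The fibration downstairs. -/
def downFibre {k : Mat O₀} (Nf : Normal C k) (y : PGL(2, L₀) ⧸ H₀) : Option (PGL(2, L₀) ⧸ H₀) :=
  some (cosetEquiv hH₀ (root C.baseData k Nf.det_γ_ne_zero ((cosetEquiv hH₀).symm y)))

/-- The fibration upstairs, after moving by `X`. -/
def upFibre {k : Mat O₀} {Nf : Normal C k} (g : Nf.Good) (X : Mat O) (hX : X.det ≠ 0)
    (z : PGL(2, L) ⧸ H) : Option (PGL(2, L₀) ⧸ H₀) :=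
  some (cosetEquiv hH₀ (g.descend C ((leftMulEquiv X hX).symm ((cosetEquiv hH).symm z))))

include hj hσL hσH in
/-- The fibre sums agree once `δ` is moved to a good representative. -/
theorem isFibration_inert {k : Mat O₀} {hk : k.det ≠ 0} (htr : k.trace ≠ 0) {d : Mat O}
    {hd : d.det ≠ 0} {Nf : Normal C k} (g : Nf.Good)
    (w : QuadraticAlgebra O (C.ι Nf.a) (C.ι Nf.b)) (hX : (Nf.evalM w).det ≠ 0) {α β : O}
    (hα : α ≠ 0) (hβ : β ≠ 0)
    (hαβ : α • (d * (Nf.evalM w).map C.σ) = β • (Nf.evalM w * g.delta))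
    {φ f : ℕ →₀ ℂ} (hf : IsBaseChange (resCard O₀) (resCard O) φ f)
    {T : Type*} [Group T] [MulAction T (PGL(2, L₀) ⧸ H₀)] [MulAction T (PGL(2, L) ⧸ H)]
    (ψ : T →* PGL(2, L₀)) (hψ : ∀ t, Commute (ψ t) (toL L₀ k hk))
    (hT : ∀ t (y : PGL(2, L₀) ⧸ H₀), t • y = ψ t • y)
    (hT' : ∀ t (z : PGL(2, L) ⧸ H), t • z = pglMap j (ψ t) • z) :
    IsFibration T (downFibre C hH₀ Nf) (fun y => radial hH₀ C.baseData f y (toL L₀ k hk • y)) ∧
    IsFibration T (upFibre C hH₀ hH g (Nf.evalM w) hX)
      (fun z => radial hH C.treeData φ z (toL L d hd • σH z)) ∧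
    ∀ m, Descent.matchSum (downFibre C hH₀ Nf)
        (fun y => radial hH₀ C.baseData f y (toL L₀ k hk • y)) m
      = Descent.matchSum (upFibre C hH₀ hH g (Nf.evalM w) hX)
        (fun z => radial hH C.treeData φ z (toL L d hd • σH z)) m := by
  classical
  set X := Nf.evalM w with hXdef
  set e₀ := cosetEquiv hH₀
  set e := cosetEquiv hH
  set r₀ := root C.baseData k Nf.det_γ_ne_zero
  set r := root C.treeData g.delta g.det_delta_ne_zero
  let s : PGL(2, L) ⧸ H → Vertex O := fun z => (leftMulEquiv X hX).symm (e.symm z)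
  have hf0 : ∀ y, radial hH₀ C.baseData f y (toL L₀ k hk • y)
      = f (disp C.baseData k Nf.det_γ_ne_zero (e₀.symm y)) := fun y => by
    rw [radial, symm_smul, disp, act, galMap_baseData]
  have hφ0 : ∀ z, radial hH C.treeData φ z (toL L d hd • σH z)
      = φ (disp C.treeData g.delta g.det_delta_ne_zero (s z)) := fun z => by
    rw [radial, symm_smul, symm_σH C σL hσL hH hσH]
    have e1 := disp_leftMul_of_twist C.treeData g.delta g.det_delta_ne_zero hd hX hα hβ hαβ (s z)
    rw [show leftMul X hX (s z) = e.symm z from (leftMulEquiv X hX).apply_symm_apply _] at e1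
    rw [← e1]
    rfl
  let pre := g.descend C
  have hpre : ∀ x, C.incl (pre x) = r x := g.incl_descend C
  -- equivariance
  have hT₁ : ∀ (t : T), ∃ (m : Mat O₀) (hm : m.det ≠ 0), toL L₀ m hm = ψ t ∧ k * m = m * k :=
    fun t => by
      obtain ⟨m, hm, hmt⟩ := exists_toL_eq (O := O₀) L₀ (ψ t)
      exact ⟨m, hm, hmt, (commute_of_toL (L' := L₀) hm hk htr (hmt ▸ hψ t)).symm⟩
  have hiso₀ : ∀ (m : Mat O₀) (hm : m.det ≠ 0), k * m = m * k → ∀ x,
      r₀ (leftMul m hm x) = leftMul m hm (r₀ x) := fun m hm hc x =>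
    root_equivariant C.baseData k Nf.det_γ_ne_zero (leftMulEquiv m hm) (dist_leftMul C.baseData m hm)
      (act_leftMul_of_commute C.baseData k Nf.det_γ_ne_zero hm (Matrix.map_id' m) hc) x
  have hiso : ∀ (m : Mat O₀) (hm : m.det ≠ 0), k * m = m * k → ∀ x,
      r (leftMul (C.up m) (C.det_up_ne_zero hm) x)
        = leftMul (C.up m) (C.det_up_ne_zero hm) (r x) := fun m hm hc x =>
    root_equivariant C.treeData g.delta g.det_delta_ne_zero (leftMulEquiv (C.up m) (C.det_up_ne_zero hm))
      (dist_leftMul C.treeData _ (C.det_up_ne_zero hm)) (g.act_leftMul hm hc) x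
  have hs : ∀ (m : Mat O₀) (hm : m.det ≠ 0), k * m = m * k → ∀ z,
      s (toL L (C.up m) (C.det_up_ne_zero hm) • z)
        = leftMul (C.up m) (C.det_up_ne_zero hm) (s z) := fun m hm hc z => by
    show leftMul X.adjugate (det_adjugate_ne_zero hX) (e.symm _)
      = leftMul _ _ (leftMul X.adjugate (det_adjugate_ne_zero hX) (e.symm z))
    rw [symm_smul]
    obtain ⟨l, hl, hlz⟩ := (e.symm z).exists_rep
    rw [← hlz]
    refine congrArg (Quotient.mk _) (Subtype.ext ?_)
    show X.adjugate * (C.up m * l) = C.up m * (X.adjugate * l)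
    rw [← Matrix.mul_assoc, ← Matrix.mul_assoc,
      commute_adjugate hX (Nf.commute_evalM_up hc w)]
  refine ⟨⟨fun t y => ?_, fun y _ => rfl, fun m => ?_⟩,
    ⟨fun t z => ?_, fun z _ => rfl, fun m => ?_⟩, fun m => ?_⟩
  · obtain ⟨m, hm, hmt, hc⟩ := hT₁ t
    show some (e₀ (r₀ (e₀.symm (t • y)))) = Option.map (t • ·) (some (e₀ (r₀ (e₀.symm y))))
    simp only [Option.map_some]
    rw [hT t y, hT t, ← hmt, symm_smul, hiso₀ m hm hc, cosetEquiv_leftMul]
  · refine ((finite_root_support C.baseData k Nf.det_γ_ne_zero f (e₀.symm m)).image e₀).subset ?_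
    rintro y ⟨hy, hm⟩
    change some (e₀ (r₀ (e₀.symm y))) = some m at hm
    simp only [Function.mem_support, hf0] at hy
    simp only [Set.mem_ofPred_eq, Option.some.injEq] at hm
    exact ⟨e₀.symm y, ⟨hy, by rw [← hm, Equiv.symm_apply_apply]⟩, e₀.apply_symm_apply y⟩
  · obtain ⟨m, hm, hmt, hc⟩ := hT₁ t
    show some (e₀ (pre (s (t • z)))) = Option.map (t • ·) (some (e₀ (pre (s z))))
    simp only [Option.map_some]
    rw [hT' t z, hT t, ← hmt, pglMap_toL C j hj, hs m hm hc, ← cosetEquiv_leftMul]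
    refine congrArg (fun q => some (e₀ q)) (C.incl_injective ?_)
    rw [hpre, hiso m hm hc, C.incl_leftMul, hpre]
  · refine ((finite_root_support C.treeData g.delta g.det_delta_ne_zero φ
      (C.incl (e₀.symm m))).image fun x => e (leftMul X hX x)).subset ?_
    rintro z ⟨hz, hm⟩
    change some (e₀ (pre (s z))) = some m at hm
    simp only [Function.mem_support, hφ0] at hz
    simp only [Set.mem_ofPred_eq, Option.some.injEq] at hm
    refine ⟨s z, ⟨hz, by rw [← hm, Equiv.symm_apply_apply, hpre]⟩, ?_⟩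
    show e (leftMulEquiv X hX ((leftMulEquiv X hX).symm (e.symm z))) = z
    rw [Equiv.apply_symm_apply, Equiv.apply_symm_apply]
  · show ∑ᶠ y ∈ {y | some (e₀ (r₀ (e₀.symm y))) = some m},
        radial hH₀ C.baseData f y (toL L₀ k hk • y)
      = ∑ᶠ z ∈ {z | some (e₀ (pre (s z))) = some m}, radial hH C.treeData φ z (toL L d hd • σH z)
    set x := e₀.symm m with hx
    by_cases hmin : IsMinimal C.baseData k Nf.det_γ_ne_zero x
    · have key := g.finsum_matching hf (Finsupp.single x 1) fun y hy => by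
        rw [Finsupp.support_single_ne_zero _ one_ne_zero, Finset.mem_singleton] at hy
        exact hy ▸ hmin
      rw [Finsupp.mapDomain_single] at key
      rw [finsum_mem_def, finsum_mem_def, ← finsum_comp_equiv e₀,
        ← finsum_comp_equiv ((leftMulEquiv X hX).trans e)]
      refine Eq.trans (finsum_congr fun v => ?_) (key.symm.trans (finsum_congr fun v => ?_))
      · simp only [Set.indicator_apply, Set.mem_ofPred_eq, hf0, Equiv.symm_apply_apply,
          Option.some.injEq, Finsupp.single_apply, ite_mul, one_mul, zero_mul]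
        refine if_congr ?_ rfl rfl
        rw [hx, Equiv.symm_apply_eq]
        exact eq_comm
      · simp only [Set.indicator_apply, Set.mem_ofPred_eq, hφ0, Option.some.injEq,
          Finsupp.single_apply, ite_mul, one_mul, zero_mul]
        have hsv : s ((leftMulEquiv X hX).trans e v) = v := by
          show (leftMulEquiv X hX).symm (e.symm (e (leftMulEquiv X hX v))) = v
          rw [Equiv.symm_apply_apply, Equiv.symm_apply_apply]
        simp only [hsv]
        refine if_congr ?_ rfl rfl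
        rw [show root C.treeData g.delta g.det_delta_ne_zero v = C.incl (pre v) from (hpre v).symm,
          C.incl_injective.eq_iff, hx, Equiv.symm_apply_eq]
        exact eq_comm
    · have e1 : {y | some (e₀ (r₀ (e₀.symm y))) = some m} = ∅ := by
        ext y
        simp only [Set.mem_ofPred_eq, Option.some.injEq, Set.mem_empty_iff_false, iff_false]
        intro h
        apply hmin
        rw [hx, ← h, Equiv.symm_apply_apply]
        exact isMinimal_root _ _ _ _
      have e2 : {z | some (e₀ (pre (s z))) = some m} = ∅ := by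
        ext z
        simp only [Set.mem_ofPred_eq, Option.some.injEq, Set.mem_empty_iff_false, iff_false]
        intro h
        apply hmin
        obtain ⟨v, hv, hve⟩ :=
          (g.isMinimal_iff _).mp (isMinimal_root C.treeData g.delta g.det_delta_ne_zero (s z))
        rw [hx, ← h, Equiv.symm_apply_apply]
        exact C.incl_injective ((hpre _).trans hve.symm) ▸ hv
      rw [e1, e2, finsum_mem_empty, finsum_mem_empty]

include hj hσL hσH in
/-- **Inert matching.** -/
theorem hasFibreMatch_inert {γ : PGL(2, L₀)} (hγ1 : γ ≠ 1) (hγc : classInv γ ≠ 0)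
    {δ : PGL(2, L)} (hN : twNorm (pglEquiv σL) δ = pglMap j γ)
    {φ f : ℕ →₀ ℂ} (hf : IsBaseChange (resCard O₀) (resCard O) φ f)
    {T : Type*} [Group T] [MulAction T (PGL(2, L₀) ⧸ H₀)] [MulAction T (PGL(2, L) ⧸ H)]
    (ψ : T →* PGL(2, L₀)) (hψ : ∀ t, Commute (ψ t) γ)
    (hT : ∀ t (y : PGL(2, L₀) ⧸ H₀), t • y = ψ t • y)
    (hT' : ∀ t (z : PGL(2, L) ⧸ H), t • z = pglMap j (ψ t) • z) :
    HasFibreMatch T (fun y => radial hH₀ C.baseData f y (γ • y))
      (fun z => radial hH C.treeData φ z (δ • σH z)) := by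
  obtain ⟨k, hk, rfl⟩ := exists_toL_eq (O := O₀) L₀ γ
  obtain ⟨d, hd, rfl⟩ := exists_toL_eq (O := O) L δ
  have htr := trace_ne_zero_of_classInv hγc
  have hns := isNonscalar_of_ne_one hγ1
  obtain ⟨hcomm, hNorm⟩ := twisted_data C j σL hj hσL htr hd hN
  obtain ⟨Nf⟩ := exists_normal C hk
  obtain ⟨g⟩ := Nf.exists_good fun hb ha => by
    obtain ⟨-, z, c, -, -, hzn, -, hzc⟩ := Nf.exists_norm_eq hns hd hcomm hNorm
    exact Nf.three_dvd_of_norm_eq hzn hzc hb ha
  obtain ⟨w, hX, α, β, hα, hβ, hαβ⟩ := g.exists_conjugator hns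
    (C.residue_moved.imp fun x hx e => hx (by rw [e, sub_self]; exact dvd_zero _)) hd hcomm hNorm
  exact hasFibreMatch_iff.2 ⟨_, _,
    isFibration_inert C j σL hj hσL hH₀ hH hσH htr g w hX hα hβ hαβ hf ψ hψ hT hT'⟩

include hj hσL hσH in
/-- **The inert match at almost all places**: unit kernels, base points fixed. -/
theorem hasBaseMatch_inert {k : Mat O₀} (hku : IsUnit k.det) (hk10 : IsUnit (k 1 0))
    (htr : k.trace ≠ 0) {d : Mat O} (hdu : IsUnit d.det)
    (hN : twNorm (pglEquiv σL) (toL L d hdu.ne_zero) = pglMap j (toL L₀ k hku.ne_zero))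
    {T : Type*} [Group T] [MulAction T (PGL(2, L₀) ⧸ H₀)] [MulAction T (PGL(2, L) ⧸ H)]
    (ψ : T →* PGL(2, L₀)) (hψ : ∀ t, Commute (ψ t) (toL L₀ k hku.ne_zero))
    (hT : ∀ t (y : PGL(2, L₀) ⧸ H₀), t • y = ψ t • y)
    (hT' : ∀ t (z : PGL(2, L) ⧸ H), t • z = pglMap j (ψ t) • z) :
    HasBaseMatch T
      (fun y => radial hH₀ C.baseData (Finsupp.single 0 (1 : ℂ)) y (toL L₀ k hku.ne_zero • y))
      (fun z => radial hH C.treeData (Finsupp.single 0 (1 : ℂ)) z (toL L d hdu.ne_zero • σH z))
      ((1 : PGL(2, L₀)) : PGL(2, L₀) ⧸ H₀) ((1 : PGL(2, L)) : PGL(2, L) ⧸ H) := by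
  classical
  obtain ⟨hcomm, hNorm⟩ := twisted_data C j σL hj hσL htr hdu.ne_zero hN
  have hns : IsNonscalar k := Or.inr (Or.inl hk10.ne_zero)
  obtain ⟨Nf⟩ := exists_normal C hku.ne_zero
  have hea : Nf.e = 0 ∧ IsUnit Nf.a := by
    have h0 := ordO_unit hku
    rw [Nf.det_eq, show -(C.unif ^ (2 * Nf.e) * Nf.a) = (-1) * (C.unif ^ (2 * Nf.e) * Nf.a) by ring,
      ordO_mul (by simp) (mul_ne_zero (pow_ne_zero _ C.irreducible₀.ne_zero) Nf.ne_zero),
      ordO_unit isUnit_one.neg, ordO_mul (pow_ne_zero _ C.irreducible₀.ne_zero) Nf.ne_zero,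
      ordO_pow C.irreducible₀.ne_zero, ordO_irreducible C.irreducible₀] at h0
    obtain ⟨u, hu⟩ := exists_unit_of_ne_zero C.irreducible₀ Nf.ne_zero
    rw [show ordO Nf.a = 0 by omega, pow_zero, mul_one] at hu
    exact ⟨by omega, hu ▸ u.isUnit⟩
  have hp1 : Nf.p = 1 := by rw [Normal.p, hea.1, pow_zero]
  -- `d` itself is good
  obtain ⟨v, hv⟩ := (hk10.map C.ι).exists_right_inv
  let z : QuadraticAlgebra O (C.ι Nf.a) (C.ι Nf.b) :=
    ⟨d 0 0 - v * d 1 0 * C.ι (k 0 0), v * d 1 0⟩
  have hz : (1 : O) • d = Nf.evalM z := by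
    have e := fun i l => congrFun (congrFun hcomm i) l
    have e00 := e 0 0
    have e10 := e 1 0
    simp [Matrix.mul_apply, Fin.sum_univ_two, CubicData.up] at e00 e10
    rw [one_smul, Normal.evalM, hp1, mul_one]
    ext i l
    fin_cases i <;> fin_cases l <;> simp [z, CubicData.up]
    · linear_combination v * e00 - d 0 1 * hv
    · linear_combination -(d 1 0) * hv
    · linear_combination v * e10 - (d 1 1 - d 0 0) * hv
  have hzu : IsUnit z := by
    rw [QuadraticAlgebra.isUnit_iff_norm_isUnit]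
    have e := congrArg Matrix.det hz
    rw [one_smul, Nf.det_evalM, hp1, one_pow, one_mul] at e
    exact e ▸ hdu
  obtain ⟨c, hc, hzc⟩ := Nf.exists_norm_eq_of_evalM hns hdu.ne_zero hNorm one_ne_zero hz
  let g : Nf.Good := ⟨z, c, hc, hzc, (QuadraticAlgebra.isUnit_iff_norm_isUnit.mp hzu).ne_zero,
    Or.inl ⟨hea.2, hzu⟩⟩
  have hgd : g.delta = d := by rw [Normal.Good.delta, ← hz, one_smul]
  have hw1 : Nf.evalM 1 = 1 := by rw [Normal.evalM_one, hp1, one_smul]
  have hX : (Nf.evalM 1).det ≠ 0 := by rw [hw1]; simp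
  have hαβ : (1 : O) • (d * (Nf.evalM 1).map C.σ) = (1 : O) • (Nf.evalM 1 * g.delta) := by
    rw [hgd, hw1, Matrix.map_one _ (map_zero C.σ) (map_one C.σ), Matrix.mul_one, Matrix.one_mul]
  obtain ⟨hp, hp', hsum⟩ := isFibration_inert C j σL hj hσL hH₀ hH hσH htr g 1 hX one_ne_zero
    one_ne_zero hαβ (IsBaseChange.single_zero (R := ℂ)) ψ hψ hT hT'
  refine ⟨_, _, hp, hp', hsum, ?_, ?_⟩
  -- downstairs
  · have hb : cosetEquiv hH₀ (Vertex.mk (1 : Mat O₀) (by simp))
        = ((1 : PGL(2, L₀)) : PGL(2, L₀) ⧸ H₀) := by rw [cosetEquiv_mk, toL_one]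
    have hd0 : ∀ x, (Finsupp.single 0 (1 : ℂ)) (disp C.baseData k Nf.det_γ_ne_zero x) ≠ 0 →
        root C.baseData k Nf.det_γ_ne_zero x = x := fun x hx => by
      have h0 : disp C.baseData k Nf.det_γ_ne_zero x = 0 := by
        by_contra h
        exact hx (Finsupp.single_eq_of_ne h)
      exact root_eq_of_mem_fibre _ _ _ (d := 0) (fun y _ => by omega)
        (by rw [fibre_zero, Finset.mem_singleton])
    have h1 : disp C.baseData k Nf.det_γ_ne_zero (Vertex.mk (1 : Mat O₀) (by simp)) = 0 := by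
      rw [disp_mk, show (1 : Mat O₀).map C.baseData.σ = 1 from Matrix.map_id' 1,
        Matrix.adjugate_one, Matrix.one_mul, Matrix.mul_one,
        gap_of_prim _ hku.ne_zero (isPrimMat_of_det hku), ordO_unit hku]
    refine ⟨?_, ?_, fun y hy hfy => ?_⟩
    · rw [← hb, downFibre, Equiv.symm_apply_apply, hd0 _ (by rw [h1]; simp)]
    · show radial hH₀ C.baseData _ _ _ = _
      rw [radial, symm_smul, ← hb, Equiv.symm_apply_apply]
      rw [show dist C.baseData _ _ = disp C.baseData k Nf.det_γ_ne_zero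
        (Vertex.mk (1 : Mat O₀) (by simp)) by rw [disp, act, galMap_baseData], h1]
      simp
    · have hdy := hd0 ((cosetEquiv hH₀).symm y) (by
        have e : radial hH₀ C.baseData (Finsupp.single 0 (1 : ℂ)) y (toL L₀ k hku.ne_zero • y)
            = (Finsupp.single 0 (1 : ℂ)) (disp C.baseData k Nf.det_γ_ne_zero
              ((cosetEquiv hH₀).symm y)) := by
          rw [radial, symm_smul, disp, act, galMap_baseData]
        exact e ▸ hfy)
      rw [downFibre, Option.some.injEq, hdy, Equiv.apply_symm_apply] at hy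
      exact hy
  -- upstairs
  · have hb : cosetEquiv hH (Vertex.mk (1 : Mat O) (by simp))
        = ((1 : PGL(2, L)) : PGL(2, L) ⧸ H) := by rw [cosetEquiv_mk, toL_one]
    have hb0 : cosetEquiv hH₀ (Vertex.mk (1 : Mat O₀) (by simp))
        = ((1 : PGL(2, L₀)) : PGL(2, L₀) ⧸ H₀) := by rw [cosetEquiv_mk, toL_one]
    have hX1 : ∀ x, (leftMulEquiv (Nf.evalM 1) hX).symm x = x := fun x => by
      rw [Equiv.symm_apply_eq]
      obtain ⟨l, hl, rfl⟩ := x.exists_rep
      refine congrArg (Quotient.mk _) (Subtype.ext ?_)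
      show l = Nf.evalM 1 * l
      rw [hw1, Matrix.one_mul]
    have hd0 : ∀ x, (Finsupp.single 0 (1 : ℂ)) (disp C.treeData g.delta g.det_delta_ne_zero x) ≠ 0 →
        C.incl (g.descend C x) = x := fun x hx => by
      have h0 : disp C.treeData g.delta g.det_delta_ne_zero x = 0 := by
        by_contra h
        exact hx (Finsupp.single_eq_of_ne h)
      rw [g.incl_descend]
      exact root_eq_of_mem_fibre _ _ _ (d := 0) (fun y _ => by omega)
        (by rw [fibre_zero, Finset.mem_singleton])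
    have hval : ∀ y, radial hH C.treeData (Finsupp.single 0 (1 : ℂ)) y
        (toL L d hdu.ne_zero • σH y) = (Finsupp.single 0 (1 : ℂ))
          (disp C.treeData g.delta g.det_delta_ne_zero ((cosetEquiv hH).symm y)) := fun y => by
      rw [radial, symm_smul, symm_σH C σL hσL hH hσH]
      refine congrArg _ ?_
      unfold disp act
      congr 2
      exact hgd.symm
    have hincl : C.incl (Vertex.mk (1 : Mat O₀) (by simp)) = Vertex.mk (1 : Mat O) (by simp) := by
      rw [C.incl_mk (by simp)]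
      refine congrArg (Quotient.mk _) (Subtype.ext ?_)
      exact Matrix.map_one _ (map_zero C.ι) (map_one C.ι)
    have h1 : disp C.treeData g.delta g.det_delta_ne_zero (Vertex.mk (1 : Mat O) (by simp)) = 0 := by
      rw [disp_mk, show (1 : Mat O).map C.treeData.σ = 1 from
          Matrix.map_one _ (map_zero C.σ) (map_one C.σ), Matrix.adjugate_one, Matrix.one_mul,
        Matrix.mul_one, gap_of_prim _ g.det_delta_ne_zero (isPrimMat_of_det (hgd.symm ▸ hdu)),
        hgd, ordO_unit hdu]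
    refine ⟨?_, ?_, fun y hy hfy => ?_⟩
    · rw [← hb, upFibre, Equiv.symm_apply_apply, hX1, ← hb0]
      refine congrArg (fun q => some (cosetEquiv hH₀ q)) (C.incl_injective ?_)
      rw [hd0 _ (by rw [h1]; simp), hincl]
    · show radial hH C.treeData _ _ _ = _
      rw [hval, ← hb, Equiv.symm_apply_apply, h1]
      simp
    · have hdy := hd0 ((cosetEquiv hH).symm y) (hval y ▸ hfy)
      rw [upFibre, hX1, ← hb0, Option.some.injEq, EmbeddingLike.apply_eq_iff_eq] at hy
      rw [hy, hincl, Equiv.eq_symm_apply, hb] at hdy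
      exact hdy.symm

include hj hσL in
/-- **Inert places: classes that are not norms.** -/
theorem hasFibreMatch_inert_zero {γ : PGL(2, L₀)}
    (hN : ∀ δ : PGL(2, L), twNorm (pglEquiv σL) δ ≠ pglMap j γ) (hγc : classInv γ ≠ 0)
    {φ f : ℕ →₀ ℂ} (hf : IsBaseChange (resCard O₀) (resCard O) φ f)
    {T : Type*} [Group T] [MulAction T (PGL(2, L₀) ⧸ H₀)]
    (ψ : T →* PGL(2, L₀)) (hψ : ∀ t, Commute (ψ t) γ)
    (hT : ∀ t (y : PGL(2, L₀) ⧸ H₀), t • y = ψ t • y) :
    HasFibreMatch T (fun y => radial hH₀ C.baseData f y (γ • y))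
      (fun _ : PGL(2, L₀) ⧸ H₀ => (0 : ℂ)) := by
  classical
  obtain ⟨k, hk, rfl⟩ := exists_toL_eq (O := O₀) L₀ γ
  have htr := trace_ne_zero_of_classInv hγc
  obtain ⟨Nf⟩ := exists_normal C hk
  -- otherwise a good representative would give a norm
  obtain ⟨hb, ha, h3⟩ : IsUnit Nf.b ∧ C.unif ∣ Nf.a ∧ ¬ 3 ∣ ordO Nf.a := by
    by_contra hc
    obtain ⟨g⟩ := Nf.exists_good fun hb ha => by
      by_contra h3
      exact hc ⟨hb, ha, h3⟩
    have hdσ : ∀ M : Mat O, M.det ≠ 0 → (M.map C.σ).det ≠ 0 := fun M hM => by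
      rw [show (M.map C.σ).det = C.σ M.det from det_map_sigma C.treeData M]; simpa
    apply hN (toL L g.delta g.det_delta_ne_zero)
    rw [twNorm, pglEquiv_toL C σL hσL, pglEquiv_toL C σL hσL, pglMap_toL C j hj,
      toL_mul L g.det_delta_ne_zero (hdσ _ g.det_delta_ne_zero)
        (by simp [g.det_delta_ne_zero, hdσ _ g.det_delta_ne_zero]),
      toL_mul L _ (hdσ _ (hdσ _ g.det_delta_ne_zero))
        (by simp [-Matrix.map_map, g.det_delta_ne_zero, hdσ _ g.det_delta_ne_zero,
          hdσ _ (hdσ _ g.det_delta_ne_zero)]), toL_eq_iff]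
    exact ⟨1, Nf.p ^ 2 * g.c, one_ne_zero,
      mul_ne_zero (pow_ne_zero _ Nf.p_ne_zero) g.c_ne_zero, by rw [one_smul, g.norm_delta]⟩
  set e₀ := cosetEquiv hH₀
  set r₀ := root C.baseData k Nf.det_γ_ne_zero
  have hf0 : ∀ y, radial hH₀ C.baseData f y (toL L₀ k hk • y)
      = f (disp C.baseData k Nf.det_γ_ne_zero (e₀.symm y)) := fun y => by
    rw [radial, symm_smul, disp, act, galMap_baseData]
  have hequiv : ∀ (t : T) y, e₀ (r₀ (e₀.symm (t • y))) = t • e₀ (r₀ (e₀.symm y)) := fun t y => by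
    obtain ⟨m, hm, hmt⟩ := exists_toL_eq (O := O₀) L₀ (ψ t)
    have hc : k * m = m * k := (commute_of_toL (L' := L₀) hm hk htr (hmt ▸ hψ t)).symm
    rw [hT t y, hT t, ← hmt, symm_smul, ← cosetEquiv_leftMul]
    exact congrArg e₀ (root_equivariant C.baseData k Nf.det_γ_ne_zero (leftMulEquiv m hm)
      (dist_leftMul C.baseData m hm)
      (act_leftMul_of_commute C.baseData k Nf.det_γ_ne_zero hm (Matrix.map_id' m) hc) _)
  refine ⟨fun y => some (e₀ (r₀ (e₀.symm y))), fun y => some (e₀ (r₀ (e₀.symm y))),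
    fun t y => congrArg some (hequiv t y), fun t y => congrArg some (hequiv t y), fun y _ => rfl,
    fun y _ => rfl, fun m => ?_, fun m => by simp, fun m => ?_⟩
  · refine ((finite_root_support C.baseData k Nf.det_γ_ne_zero f (e₀.symm m)).image e₀).subset ?_
    rintro y ⟨hy, hm⟩
    simp only [Function.mem_support, hf0] at hy
    simp only [Set.mem_ofPred_eq, Option.some.injEq] at hm
    exact ⟨e₀.symm y, ⟨hy, by rw [← hm, Equiv.symm_apply_apply]⟩, e₀.apply_symm_apply y⟩
  · rw [finsum_mem_zero]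
    set x := e₀.symm m with hx
    by_cases hmin : IsMinimal C.baseData k Nf.det_γ_ne_zero x
    · have hψ' : ∀ y ∈ (Finsupp.single x (1 : ℂ)).support,
          IsMinimal C.baseData k Nf.det_γ_ne_zero y := fun y hy => by
        rw [Finsupp.support_single_ne_zero _ one_ne_zero, Finset.mem_singleton] at hy
        exact hy ▸ hmin
      have key := finsum_root_mul C.baseData k Nf.det_γ_ne_zero f (Finsupp.single x 1) hψ'
      rw [Finsupp.support_single_ne_zero _ one_ne_zero, Finset.sum_singleton,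
        Nf.fibreSum_eq_zero hf hb ha h3 hmin, mul_zero] at key
      rw [finsum_mem_def, ← finsum_comp_equiv e₀]
      refine Eq.trans (finsum_congr fun v => ?_) key
      simp only [Set.indicator_apply, Set.mem_ofPred_eq, hf0, Equiv.symm_apply_apply,
        Option.some.injEq, Finsupp.single_apply, ite_mul, one_mul, zero_mul]
      refine if_congr ?_ rfl rfl
      rw [hx, Equiv.symm_apply_eq]
      exact eq_comm
    · have e1 : {y | some (e₀ (r₀ (e₀.symm y))) = some m} = ∅ := by
        ext y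
        simp only [Set.mem_ofPred_eq, Option.some.injEq, Set.mem_empty_iff_false, iff_false]
        intro h
        apply hmin
        rw [hx, ← h, Equiv.symm_apply_apply]
        exact isMinimal_root _ _ _ _
      rw [e1, finsum_mem_empty]

end Fermat.Agent.LT.Inert

end
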