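import Fermat.Agent.LT.Inert.Minimal
import Mathlib.Algebra.BigOperators.Finprod

/-!
# Matching of orbital sums for inert cubic base change

Over each minimal vertex `x` of `γ` the sum of `f (disp γ)` equals the sum of `φ (disp (δ σ))`
over the image of `x`, when `f` is the base change of `φ`.
-/

set_option autoImplicit false
set_option linter.unusedSectionVars false

noncomputable section

namespace Fermat.Agent.LT.Inert

open IsLocalRing Matrix QuadraticAlgebra

section Root

variable {O : Type*} [CommRing O] [IsDomain O] [IsDiscreteValuationRing O]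
  [Finite (ResidueField O)] (D : TreeData O) (δ : Mat O) (hδ : δ.det ≠ 0)

/-- The minimal vertex below a vertex. -/
def root (z : Vertex O) : Vertex O := (exists_mem_fibre D δ hδ z).choose

theorem isMinimal_root (z : Vertex O) : IsMinimal D δ hδ (root D δ hδ z) :=
  (exists_mem_fibre D δ hδ z).choose_spec.choose_spec.1

theorem exists_mem_fibre_root (z : Vertex O) : ∃ d, z ∈ fibre D δ hδ (root D δ hδ z) d :=
  ⟨_, (exists_mem_fibre D δ hδ z).choose_spec.choose_spec.2⟩

theorem root_eq_of_mem_fibre {y z : Vertex O} (hy : IsMinimal D δ hδ y) {d : ℕ}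
    (h : z ∈ fibre D δ hδ y d) : root D δ hδ z = y := by
  obtain ⟨d', hd'⟩ := exists_mem_fibre_root D δ hδ z
  exact (fibre_unique D δ hδ (isMinimal_root D δ hδ z) hy hd' h).1

/-- A semilinear displacement is preserved by commuting automorphisms fixed by `σ`. -/
theorem act_leftMul_of_commute {g : Mat O} (hg : g.det ≠ 0) (hgσ : g.map D.σ = g)
    (hcomm : δ * g = g * δ) (x : Vertex O) :
    leftMul g hg (act D δ hδ x) = act D δ hδ (leftMul g hg x) := by
  obtain ⟨k, hk, rfl⟩ := x.exists_rep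
  refine Quotient.sound ⟨1, 1, 1, by simp, one_ne_zero, one_ne_zero, ?_⟩
  show (1 : O) • (δ * (g * k).map D.σ) = (1 : O) • (g * (δ * k.map D.σ) * 1)
  rw [Matrix.map_mul, hgσ, ← Matrix.mul_assoc, hcomm, Matrix.mul_assoc, Matrix.mul_one]

theorem root_equivariant (e : Vertex O ≃ Vertex O)
    (he : ∀ x y, dist D (e x) (e y) = dist D x y)
    (hc : ∀ x, e (act D δ hδ x) = act D δ hδ (e x)) (z : Vertex O) :
    root D δ hδ (e z) = e (root D δ hδ z) := by
  obtain ⟨d, hd⟩ := exists_mem_fibre_root D δ hδ z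
  exact root_eq_of_mem_fibre D δ hδ
    ((isMinimal_equivariant D δ hδ e he hc _).mpr (isMinimal_root D δ hδ z))
    ((fibre_equivariant D δ hδ e he hc _ _ d).mpr hd)

/-- Sums of a spherical function against a weight on minimal vertices. -/
theorem finsum_root_mul {R : Type*} [CommRing R] (φ : ℕ →₀ R) (ψ : Vertex O →₀ R)
    (hψ : ∀ y ∈ ψ.support, IsMinimal D δ hδ y) :
    ∑ᶠ z, ψ (root D δ hδ z) * φ (disp D δ hδ z)
      = ∑ y ∈ ψ.support, ψ y *
          fibreSum (resCard O) ((levelNbrs D δ hδ y).card : R) φ (disp D δ hδ y) := by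
  classical
  set N := bound φ + 1 with hN
  set s := (ψ.support ×ˢ Finset.range N).biUnion fun p => fibre D δ hδ p.1 p.2 with hs
  have hsub : (Function.support fun z => ψ (root D δ hδ z) * φ (disp D δ hδ z)) ⊆ ↑s := by
    intro z hz
    simp only [Function.mem_support] at hz
    obtain ⟨d, hd⟩ := exists_mem_fibre_root D δ hδ z
    simp only [hs, Finset.mem_coe, Finset.mem_biUnion, Finset.mem_product, Finset.mem_range,
      Finsupp.mem_support_iff, Prod.exists]
    refine ⟨root D δ hδ z, d, ⟨left_ne_zero_of_mul hz, ?_⟩, hd⟩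
    by_contra hlt
    apply right_ne_zero_of_mul hz
    exact apply_eq_zero_of_bound_le φ (by rw [disp_of_mem_fibre D δ hδ hd]; omega)
  rw [finsum_eq_sum_of_support_subset _ hsub, hs, Finset.sum_biUnion, Finset.sum_product]
  · refine Finset.sum_congr rfl fun y hy => ?_
    rw [← sum_fibre D δ hδ φ (hψ y hy) (N := N) (by omega), Finset.mul_sum]
    refine Finset.sum_congr rfl fun d _ => ?_
    rw [Finset.mul_sum]
    exact Finset.sum_congr rfl fun z hz => by rw [root_eq_of_mem_fibre D δ hδ (hψ y hy) hz]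
  · intro p hp p' hp' hne
    simp only [Finset.mem_coe, Finset.mem_product] at hp hp'
    simp only [Function.onFun, Finset.disjoint_left]
    intro z hz hz'
    obtain ⟨h1, h2⟩ := fibre_unique D δ hδ (hψ _ hp.1) (hψ _ hp'.1) hz hz'
    exact hne (Prod.ext h1 h2)

end Root

variable {O₀ O : Type*} [CommRing O₀] [IsDomain O₀] [IsDiscreteValuationRing O₀]
  [CommRing O] [IsDomain O] [IsDiscreteValuationRing O]
  {C : CubicData O₀ O} {γ : Mat O₀}

/-- The inclusion commutes with multiplication. -/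
theorem CubicData.incl_leftMul (g : Mat O₀) (hg : g.det ≠ 0) (x : Vertex O₀) :
    C.incl (leftMul g hg x) = leftMul (C.up g) (C.det_up_ne_zero hg) (C.incl x) := by
  obtain ⟨k, hk, rfl⟩ := x.exists_rep
  refine Quotient.sound ⟨1, 1, 1, by simp, one_ne_zero, one_ne_zero, ?_⟩
  show (1 : O) • (C.up g * C.up k) = (1 : O) • (C.up (g * k) * 1)
  rw [C.up_mul, Matrix.mul_one]

namespace Normal

variable (Nf : Normal C γ)

theorem commute_evalM_up {g : Mat O₀} (hg : γ * g = g * γ)
    (z : QuadraticAlgebra O (C.ι Nf.a) (C.ι Nf.b)) :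
    Nf.evalM z * C.up g = C.up g * Nf.evalM z := by
  rw [evalM, Matrix.add_mul, Matrix.mul_add, Matrix.smul_mul, Matrix.mul_smul, Matrix.smul_mul,
    Matrix.mul_smul, Matrix.one_mul, Matrix.mul_one, ← C.up_mul, ← C.up_mul, hg]

variable [Finite (ResidueField O₀)]

/-- Downstairs the stable neighbours are none, one or two according to the type. -/
theorem card_levelNbrs {x : Vertex O₀} (hx : IsMinimal C.baseData γ Nf.det_γ_ne_zero x) :
    (C.unif ∣ Nf.b → C.unif ∣ Nf.a →
      (levelNbrs C.baseData γ Nf.det_γ_ne_zero x).card = 1) ∧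
    (IsUnit Nf.b → C.unif ∣ Nf.a →
      (levelNbrs C.baseData γ Nf.det_γ_ne_zero x).card = 2) := by
  obtain ⟨k, h, hk, j, rfl, hp, hh, heq, hn, -, hsh⟩ := Nf.stable_of_isMinimal hx
  obtain ⟨h1, h2⟩ := card_levelNbrs_of_shape C.baseData Nf.det_γ_ne_zero hk hp hh heq hn hx
  refine ⟨fun hb ha => ?_, fun hb ha => ?_⟩ <;> rcases hsh with h' | ⟨h', hs⟩ | ⟨h', hs⟩
  · exact absurd ha (Nf.not_dvd_a h')
  · exact h1 hs
  · exact absurd hb (Nf.not_dvd_b h')
  · exact absurd ha (Nf.not_dvd_a h')
  · exact absurd h' (Nf.not_dvd_b hb)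
  · exact h2 hs

/-- Translations of length prime to three: the sum downstairs vanishes. -/
theorem fibreSum_eq_zero {R : Type*} [CommRing R] {φ f : ℕ →₀ R} {Q : ℕ}
    (hf : IsBaseChange (resCard O₀) Q φ f) (hb : IsUnit Nf.b) (ha : C.unif ∣ Nf.a)
    (h3 : ¬ 3 ∣ ordO Nf.a) {x : Vertex O₀}
    (hx : IsMinimal C.baseData γ Nf.det_γ_ne_zero x) :
    fibreSum (resCard O₀) ((levelNbrs C.baseData γ Nf.det_γ_ne_zero x).card : R) f
      (disp C.baseData γ Nf.det_γ_ne_zero x) = 0 := by
  rw [(Nf.card_levelNbrs hx).2 hb ha, Nf.disp_of_isMinimal hx, fibreSum_eq,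
    hf.coef_eq_zero _ h3]
  simp

namespace Good

variable {Nf} (g : Nf.Good) [Finite (ResidueField O)]

theorem levelNbrs_incl {x : Vertex O₀} (hx : IsMinimal C.baseData γ Nf.det_γ_ne_zero x) :
    (levelNbrs C.treeData g.delta g.det_delta_ne_zero (C.incl x)).card
      = (levelNbrs C.baseData γ Nf.det_γ_ne_zero x).card := by
  classical
  rw [← Finset.card_image_of_injective _ C.incl_injective]
  congr 1
  ext z
  have hy : IsMinimal C.treeData g.delta g.det_delta_ne_zero (C.incl x) :=
    (g.isMinimal_iff _).mpr ⟨x, hx, rfl⟩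
  rw [mem_levelNbrs_iff_isMinimal C.treeData g.delta g.det_delta_ne_zero hy, Finset.mem_image,
    g.isMinimal_iff]
  constructor
  · rintro ⟨hdist, y, hym, rfl⟩
    rw [C.dist_incl] at hdist
    exact ⟨y, (mem_levelNbrs_iff_isMinimal C.baseData γ Nf.det_γ_ne_zero hx).mpr ⟨hdist, hym⟩, rfl⟩
  · rintro ⟨y, hym, rfl⟩
    rw [mem_levelNbrs_iff_isMinimal C.baseData γ Nf.det_γ_ne_zero hx] at hym
    exact ⟨(C.dist_incl x y).trans hym.1, y, hym.2, rfl⟩

/-- The vertexwise matching. -/
theorem fibreSum_incl {R : Type*} [CommRing R] {φ f : ℕ →₀ R}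
    (hf : IsBaseChange (resCard O₀) (resCard O) φ f) {x : Vertex O₀}
    (hx : IsMinimal C.baseData γ Nf.det_γ_ne_zero x) :
    fibreSum (resCard O)
        ((levelNbrs C.treeData g.delta g.det_delta_ne_zero (C.incl x)).card : R) φ
        (disp C.treeData g.delta g.det_delta_ne_zero (C.incl x))
      = fibreSum (resCard O₀) ((levelNbrs C.baseData γ Nf.det_γ_ne_zero x).card : R) f
          (disp C.baseData γ Nf.det_γ_ne_zero x) := by
  rw [g.levelNbrs_incl hx, g.disp_incl hx, Nf.disp_of_isMinimal hx]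
  rcases g.ord_cases with ⟨-, h0, h0'⟩ | ⟨hb, ha, h1, h1'⟩ | ⟨hb, ha, h3⟩
  · rw [h0, h0']
    exact hf.fibreSum_zero _
  · rw [h1, h1', (Nf.card_levelNbrs hx).1 hb ha]
    simpa using hf.fibreSum_one
  · rw [h3, (Nf.card_levelNbrs hx).2 hb ha]
    exact_mod_cast hf.fibreSum_translation _

/-- The matching of weighted orbital sums. -/
theorem finsum_matching {R : Type*} [CommRing R] {φ f : ℕ →₀ R}
    (hf : IsBaseChange (resCard O₀) (resCard O) φ f) (ψ : Vertex O₀ →₀ R)
    (hψ : ∀ x ∈ ψ.support, IsMinimal C.baseData γ Nf.det_γ_ne_zero x) :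
    ∑ᶠ z, ψ.mapDomain C.incl (root C.treeData g.delta g.det_delta_ne_zero z)
        * φ (disp C.treeData g.delta g.det_delta_ne_zero z)
      = ∑ᶠ x, ψ (root C.baseData γ Nf.det_γ_ne_zero x)
          * f (disp C.baseData γ Nf.det_γ_ne_zero x) := by
  classical
  have hsupp : (ψ.mapDomain C.incl).support = ψ.support.image C.incl :=
    Finsupp.mapDomain_support_of_injective C.incl_injective ψ
  rw [finsum_root_mul C.baseData γ Nf.det_γ_ne_zero f ψ hψ,
    finsum_root_mul C.treeData g.delta g.det_delta_ne_zero φ, hsupp,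
    Finset.sum_image fun x _ y _ h => C.incl_injective h]
  · refine Finset.sum_congr rfl fun x hx => ?_
    rw [Finsupp.mapDomain_apply C.incl_injective, g.fibreSum_incl hf (hψ x hx)]
  · intro y hy
    rw [hsupp, Finset.mem_image] at hy
    obtain ⟨x, hx, rfl⟩ := hy
    exact (g.isMinimal_iff _).mpr ⟨x, hψ x hx, rfl⟩

/-- Elements of the centraliser downstairs act compatibly upstairs. -/
theorem act_leftMul {t : Mat O₀} (ht : t.det ≠ 0) (hcomm : γ * t = t * γ) (z : Vertex O) :
    leftMul (C.up t) (C.det_up_ne_zero ht) (act C.treeData g.delta g.det_delta_ne_zero z)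
      = act C.treeData g.delta g.det_delta_ne_zero
          (leftMul (C.up t) (C.det_up_ne_zero ht) z) :=
  act_leftMul_of_commute C.treeData g.delta g.det_delta_ne_zero _ (C.map_σ_up t)
    (Nf.commute_evalM_up hcomm g.z) z

end Good

end Normal

end Fermat.Agent.LT.Inert

end
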