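import Fermat.Agent.LT.Inert.Stable

/-!
# Minimal vertices of a good twisted representative

The minimal vertices upstairs are the images of the minimal vertices of `γ` downstairs.
-/

set_option autoImplicit false
set_option linter.unusedSectionVars false
set_option linter.unusedSimpArgs false

noncomputable section

namespace Fermat.Agent.LT.Inert

open IsLocalRing Matrix QuadraticAlgebra

variable {O₀ O : Type*} [CommRing O₀] [IsDomain O₀] [IsDiscreteValuationRing O₀]
  [CommRing O] [IsDomain O] [IsDiscreteValuationRing O]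
  {C : CubicData O₀ O} {γ : Mat O₀} (Nf : Normal C γ)

namespace Normal

theorem c_ne_zero₀ : C.unif ^ Nf.e ≠ 0 := pow_ne_zero _ C.irreducible₀.ne_zero

theorem det_eq_sq : γ.det = -((C.unif ^ Nf.e) ^ 2 * Nf.a) := by
  rw [← pow_mul, mul_comm Nf.e 2]; exact Nf.det_eq

theorem ι_a_ne_zero : C.ι Nf.a ≠ 0 := C.ι_ne_zero Nf.ne_zero

theorem type_up : NormalType (C.ι C.unif) (C.ι Nf.a) (C.ι Nf.b) := by
  rcases Nf.type with ha | ⟨hb, ha, ha2⟩ | ⟨hb, ha⟩
  · exact .elliptic (ha.map C.ι)
  · exact .inversion (map_dvd C.ι hb) (map_dvd C.ι ha) (by rwa [← map_pow, C.ι_dvd_iff])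
  · exact .translation (hb.map C.ι) (map_dvd C.ι ha)

theorem not_dvd_a (ha : IsUnit Nf.a) : ¬ C.unif ∣ Nf.a :=
  (isUnit_iff_not_dvd C.irreducible₀).mp ha

theorem not_dvd_b (hb : IsUnit Nf.b) : ¬ C.unif ∣ Nf.b :=
  (isUnit_iff_not_dvd C.irreducible₀).mp hb

/-- A stable vertex downstairs is minimal of displacement `ord a`. -/
theorem isMinimal_of_stable {k : Mat O₀} (hk : k.det ≠ 0)
    (hst : StableAt (C.unif ^ Nf.e) γ k) :
    IsMinimal C.baseData γ Nf.det_γ_ne_zero (Vertex.mk k hk) ∧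
      disp C.baseData γ Nf.det_γ_ne_zero (Vertex.mk k hk) = ordO Nf.a := by
  obtain ⟨G, hG⟩ := hst
  obtain ⟨ht, hd⟩ := stable_invariants Nf.c_ne_zero₀ hk Nf.trace_eq Nf.det_eq_sq hG
  have hord : ordO G.det = ordO Nf.a := by
    rw [hd, show -Nf.a = (-1 : O₀) * Nf.a by ring, ordO_mul (by simp) Nf.ne_zero,
      ordO_unit isUnit_one.neg, zero_add]
  have hprim : IsPrimMat G := by
    rcases Nf.type with ha | ⟨-, -, ha2⟩ | ⟨hb, -⟩
    · exact isPrimMat_of_det (hd ▸ ha.neg)
    · rw [isPrimMat_iff C.baseData]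
      intro hall
      apply ha2
      rw [← dvd_neg, ← hd, Matrix.det_fin_two, pow_two]
      exact dvd_sub (mul_dvd_mul (hall 0 0) (hall 1 1)) (mul_dvd_mul (hall 0 1) (hall 1 0))
    · exact isPrimMat_of_trace (ht ▸ hb)
  have heq : k.adjugate * (γ * k.map C.baseData.σ) = (C.unif ^ Nf.e * k.det) • G := by
    rw [← hG, Matrix.mul_assoc]
    congr 2
  obtain ⟨h1, h2⟩ := disp_of_scalar C.baseData Nf.det_γ_ne_zero hk
    (mul_ne_zero Nf.c_ne_zero₀ hk) hprim (hd ▸ neg_ne_zero.mpr Nf.ne_zero) heq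
  refine ⟨h2 ?_, h1.trans hord⟩
  rcases ord_facts C.irreducible₀ Nf.ne_zero Nf.type with ⟨-, h0⟩ | ⟨-, -, h0⟩ | ⟨hb, ha, -⟩
  · exact Or.inl (by omega)
  · exact Or.inl (by omega)
  refine Or.inr fun hall => ?_
  have htr : C.unif ∣ (G * G).trace := by
    rw [Matrix.trace_fin_two]
    exact dvd_add (hall 0 0) (hall 1 1)
  rw [sq_eq_of_invariants ht hd, Matrix.trace_add, Matrix.trace_smul, Matrix.trace_smul, ht,
    Matrix.trace_one, Fintype.card_fin, smul_eq_mul, smul_eq_mul,
    dvd_add_right (ha.mul_right _)] at htr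
  exact Nf.not_dvd_b (hb) (isUnit_iff_not_dvd C.irreducible₀ |>.mp (hb.mul hb) htr).elim

section Finite

variable [Finite (ResidueField O₀)]

/-- Minimal vertices downstairs are stable; their shape is that of the type. -/
theorem stable_of_isMinimal {x : Vertex O₀} (hx : IsMinimal C.baseData γ Nf.det_γ_ne_zero x) :
    ∃ (k h : Mat O₀) (hk : k.det ≠ 0) (j : ℕ), Vertex.mk k hk = x ∧ IsPrimMat h ∧ h.det ≠ 0 ∧
      k.adjugate * (γ * k.map C.baseData.σ) = C.baseData.unif ^ j • h ∧
      disp C.baseData γ Nf.det_γ_ne_zero x = ordO h.det ∧ StableAt (C.unif ^ Nf.e) γ k ∧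
      (IsUnit Nf.a ∨ (C.unif ∣ Nf.b ∧ IsNilShape C.baseData h) ∨
        (IsUnit Nf.b ∧ IsSplitShape C.baseData h)) := by
  obtain ⟨k, h, hk, j, hkx, hp, hh, heq, hn, hsh⟩ := exists_shape C.baseData Nf.det_γ_ne_zero hx
  refine ⟨k, h, hk, j, hkx, hp, hh, heq, hn, ?_⟩
  have heq' : (1 : O₀) • (k.adjugate * γ * k) = C.unif ^ j • h := by
    have : k.map C.baseData.σ = k := rfl
    rw [one_smul, Matrix.mul_assoc]
    rw [this] at heq
    exact heq
  rcases hsh with h0 | ⟨h1, hnil⟩ | ⟨h1, hsp⟩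
  · obtain ⟨ha, hst⟩ := stable_unimodular C.irreducible₀ Nf.c_ne_zero₀ hk Nf.ne_zero Nf.trace_eq
      Nf.det_eq_sq Nf.type one_ne_zero heq' h0
    exact ⟨hst, Or.inl ha⟩
  · obtain ⟨hb, -, hst⟩ := stable_nil C.irreducible₀ Nf.c_ne_zero₀ hk Nf.ne_zero Nf.trace_eq
      Nf.det_eq_sq Nf.type one_ne_zero heq'
      (by rw [Matrix.trace_fin_two]; exact dvd_add hnil.1 hnil.2.2) (Or.inl h1)
    exact ⟨hst, Or.inr (Or.inl ⟨hb, hnil⟩)⟩
  · obtain ⟨hb, -, -, hst⟩ := stable_split C.irreducible₀ Nf.c_ne_zero₀ hk Nf.ne_zero Nf.trace_eq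
      Nf.det_eq_sq Nf.type one_ne_zero heq' hsp.isUnit_trace h1
    exact ⟨hst, Or.inr (Or.inr ⟨hb, hsp⟩)⟩

theorem disp_of_isMinimal {x : Vertex O₀} (hx : IsMinimal C.baseData γ Nf.det_γ_ne_zero x) :
    disp C.baseData γ Nf.det_γ_ne_zero x = ordO Nf.a := by
  obtain ⟨k, h, hk, j, rfl, -, -, -, -, hst, -⟩ := Nf.stable_of_isMinimal hx
  exact (Nf.isMinimal_of_stable hk hst).2

end Finite

/-- The local matrix of a polynomial in `γ`. -/
theorem adjugate_evalM {k G : Mat O} (hG : k.adjugate * C.up γ * k = (Nf.p * k.det) • G)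
    (ht : G.trace = C.ι Nf.b) (hd : G.det = -(C.ι Nf.a))
    (z : QuadraticAlgebra O (C.ι Nf.a) (C.ι Nf.b)) :
    k.adjugate * Nf.evalM z * k = (Nf.p * k.det) • qEval G ht hd z := by
  rw [evalM, qEval_apply, Matrix.mul_add, Matrix.add_mul, Matrix.mul_smul, Matrix.smul_mul,
    Matrix.mul_smul, Matrix.smul_mul, hG, Matrix.mul_one, Matrix.adjugate_mul, smul_add,
    smul_smul, smul_smul, smul_smul, smul_smul, mul_comm z.im, mul_right_comm, mul_comm z.re]
  congr 2
  ring

namespace Good

variable {Nf} (g : Nf.Good)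

theorem ord_translation (hb : IsUnit Nf.b) (ha : C.unif ∣ Nf.a) :
    3 * ordO g.z.norm = ordO Nf.a ∧ IsUnit (QuadraticAlgebra.trace g.z) ∧
      IsUnit (QuadraticAlgebra.trace (g.z * Nf.aut.τ g.z)) := by
  rcases g.shape with ⟨ha', -⟩ | ⟨hb', -⟩ | ⟨-, -, h⟩
  · exact absurd ha (Nf.not_dvd_a ha')
  · exact absurd hb' (Nf.not_dvd_b hb)
  · exact h

theorem inversion_data (hb : C.unif ∣ Nf.b) (ha : C.unif ∣ Nf.a) :
    ordO g.z.norm = 1 ∧ ordO Nf.a = 1 ∧ ∃ w, g.z = ω * w ∧ IsUnit w := by
  rcases g.shape with ⟨ha', -⟩ | ⟨-, -, h1, w, hw⟩ | ⟨hb', -⟩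
  · exact absurd ha (Nf.not_dvd_a ha')
  · have h0 : ordO Nf.a = 1 := by
      rcases ord_facts C.irreducible₀ Nf.ne_zero Nf.type with ⟨h, -⟩ | ⟨-, -, h⟩ | ⟨h, -⟩
      · exact absurd ha (Nf.not_dvd_a h)
      · exact h
      · exact absurd hb (Nf.not_dvd_b h)
    refine ⟨h1, h0, w, hw, ?_⟩
    have hn := g.norm_ne_zero
    rw [hw, map_mul] at hn h1
    have hω : ordO (ω : QuadraticAlgebra O (C.ι Nf.a) (C.ι Nf.b)).norm = 1 := by
      have : (ω : QuadraticAlgebra O (C.ι Nf.a) (C.ι Nf.b)).norm = (-1) * C.ι Nf.a := by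
        simp [QuadraticAlgebra.norm_def]
      rw [this, ordO_mul (by simp) Nf.ι_a_ne_zero, ordO_unit isUnit_one.neg, C.ordO_ι, h0]
    obtain ⟨hωn, hwn⟩ := ne_zero_and_ne_zero_of_mul hn
    rw [ordO_mul hωn hwn, hω] at h1
    obtain ⟨u, hu⟩ := exists_unit_of_ne_zero C.irreducible hwn
    rw [show ordO w.norm = 0 by omega, pow_zero, mul_one] at hu
    exact isUnit_iff_norm_isUnit.mpr (hu ▸ u.isUnit)
  · exact absurd hb (Nf.not_dvd_b hb')

theorem elliptic_data (ha : IsUnit Nf.a) : IsUnit g.z := by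
  rcases g.shape with ⟨-, hz⟩ | ⟨-, ha', -⟩ | ⟨-, ha', -⟩
  · exact hz
  · exact absurd ha' (Nf.not_dvd_a ha)
  · exact absurd ha' (Nf.not_dvd_a ha)

/-- `ord a` and the upstairs displacement are equal, or three times it for translations. -/
theorem ord_cases :
    (IsUnit Nf.a ∧ ordO Nf.a = 0 ∧ ordO g.z.norm = 0) ∨
      (C.unif ∣ Nf.b ∧ C.unif ∣ Nf.a ∧ ordO Nf.a = 1 ∧ ordO g.z.norm = 1) ∨
      (IsUnit Nf.b ∧ C.unif ∣ Nf.a ∧ ordO Nf.a = 3 * ordO g.z.norm) := by
  rcases ord_facts C.irreducible₀ Nf.ne_zero Nf.type with ⟨ha, h0⟩ | ⟨hb, ha, h1⟩ | ⟨hb, ha, -⟩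
  · exact Or.inl ⟨ha, h0, ordO_unit (isUnit_iff_norm_isUnit.mp (g.elliptic_data ha))⟩
  · exact Or.inr (Or.inl ⟨hb, ha, h1, (g.inversion_data hb ha).1⟩)
  · exact Or.inr (Or.inr ⟨hb, ha, (g.ord_translation hb ha).1.symm⟩)

include g in
theorem three_dvd (hb : IsUnit (C.ι Nf.b)) (ha : C.ι C.unif ∣ C.ι Nf.a) :
    3 ∣ ordO (C.ι Nf.a) :=
  ⟨ordO g.z.norm, by
    rw [C.ordO_ι]
    exact (g.ord_translation (C.isUnit_ι.mp hb) (C.ι_dvd_iff.mp ha)).1.symm⟩

theorem map_qEval {G : Mat O} (hσG : G.map C.σ = G) (ht : G.trace = C.ι Nf.b)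
    (hd : G.det = -(C.ι Nf.a)) (z : QuadraticAlgebra O (C.ι Nf.a) (C.ι Nf.b)) :
    (qEval G ht hd z).map C.σ = qEval G ht hd (Nf.aut.τ z) := by
  rw [qEval_apply, qEval_apply]
  ext i l
  have h := congrFun (congrFun hσG i) l
  rw [Matrix.map_apply] at h
  simp [Normal.aut, Matrix.one_apply, apply_ite C.σ, h]

/-- The image of a stable vertex is minimal upstairs. -/
theorem isMinimal_incl {k : Mat O₀} (hk : k.det ≠ 0) (hst : StableAt (C.unif ^ Nf.e) γ k) :
    IsMinimal C.treeData g.delta g.det_delta_ne_zero (C.incl (Vertex.mk k hk)) ∧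
      disp C.treeData g.delta g.det_delta_ne_zero (C.incl (Vertex.mk k hk)) = ordO g.z.norm := by
  obtain ⟨G₀, hG₀⟩ := hst
  have hG : (C.up k).adjugate * C.up γ * C.up k = (Nf.p * (C.up k).det) • C.up G₀ := by
    rw [C.adjugate_up, ← C.up_mul, ← C.up_mul, hG₀, C.up_smul, map_mul, map_pow, C.det_up]
    rfl
  have hku := C.det_up_ne_zero hk
  obtain ⟨ht, hd⟩ := stable_invariants Nf.p_ne_zero hku Nf.trace_up Nf.det_up_γ hG
  have heq : (C.up k).adjugate * (g.delta * (C.up k).map C.treeData.σ)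
      = (Nf.p * (C.up k).det) • qEval (C.up G₀) ht hd g.z := by
    rw [show (C.up k).map C.treeData.σ = C.up k from C.map_σ_up k, ← Matrix.mul_assoc]
    exact Nf.adjugate_evalM hG ht hd g.z
  have hdet := det_qEval (C.up G₀) ht hd g.z
  have hprim : IsPrimMat (qEval (C.up G₀) ht hd g.z) := by
    rcases g.ord_cases with ⟨ha, -, -⟩ | ⟨hb, ha, -, -⟩ | ⟨hb, ha, -⟩
    · exact isPrimMat_of_det (hdet ▸ isUnit_iff_norm_isUnit.mp (g.elliptic_data ha))
    · obtain ⟨-, h1, w, hw, hwu⟩ := g.inversion_data hb ha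
      have hprimG : IsPrimMat (C.up G₀) := by
        rw [isPrimMat_iff C.treeData]
        intro hall
        have h2 : C.treeData.unif ^ 2 ∣ (C.up G₀).det := by
          rw [Matrix.det_fin_two, pow_two]
          exact dvd_sub (mul_dvd_mul (hall 0 0) (hall 1 1)) (mul_dvd_mul (hall 0 1) (hall 1 0))
        rw [hd, dvd_neg, pow_dvd_iff_le_ordO C.treeData.irreducible Nf.ι_a_ne_zero, C.ordO_ι]
          at h2
        omega
      have hW : IsUnit (qEval (C.up G₀) ht hd w).det :=
        (det_qEval (C.up G₀) ht hd w).symm ▸ isUnit_iff_norm_isUnit.mp hwu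
      rw [hw, map_mul, show qEval (C.up G₀) ht hd ω = C.up G₀ by simp [qEval_apply]]
      simpa using hprimG.mul_units (U := 1) (by simp) hW
    · exact isPrimMat_of_trace ((trace_qEval (C.up G₀) ht hd g.z).symm ▸
        (g.ord_translation hb ha).2.1)
  obtain ⟨h1, h2⟩ := disp_of_scalar C.treeData g.det_delta_ne_zero hku
    (mul_ne_zero Nf.p_ne_zero hku) hprim (hdet ▸ g.norm_ne_zero) heq
  rw [C.incl_mk hk]
  refine ⟨h2 ?_, h1.trans (by rw [hdet])⟩
  rw [hdet]
  rcases g.ord_cases with ⟨-, -, h⟩ | ⟨-, -, -, h⟩ | ⟨hb, ha, -⟩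
  · exact Or.inl (by omega)
  · exact Or.inl (by omega)
  refine Or.inr fun hall => ?_
  have htr : C.treeData.unif ∣ (qEval (C.up G₀) ht hd (g.z * Nf.aut.τ g.z)).trace := by
    rw [map_mul, ← map_qEval (C.map_σ_up G₀) ht hd, Matrix.trace_fin_two]
    exact dvd_add (hall 0 0) (hall 1 1)
  rw [trace_qEval] at htr
  exact (isUnit_iff_not_dvd C.treeData.irreducible).mp (g.ord_translation hb ha).2.2 htr

variable [Finite (ResidueField O)]

/-- Minimal vertices upstairs are stable. -/
theorem stable_of_isMinimal {y : Vertex O}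
    (hy : IsMinimal C.treeData g.delta g.det_delta_ne_zero y) :
    ∃ (k h G : Mat O) (hk : k.det ≠ 0) (j : ℕ), Vertex.mk k hk = y ∧ h.det ≠ 0 ∧
      k.adjugate * (g.delta * k.map C.σ) = C.ι C.unif ^ j • h ∧
      k.adjugate * C.up γ * k = (Nf.p * k.det) • G ∧
      ((IsUnit Nf.a ∧ IsUnit h.det) ∨
        (C.unif ∣ Nf.b ∧ C.unif ∣ Nf.a ∧ ordO h.det = 1 ∧ IsPrimMat h ∧
          IsNilShape C.treeData h) ∨
        (IsUnit Nf.b ∧ C.unif ∣ Nf.a)) := by
  obtain ⟨k, h, hk, j, hky, hp, hh, heq, -, hsh⟩ := exists_shape C.treeData g.det_delta_ne_zero hy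
  change k.adjugate * (g.delta * k.map C.σ) = C.ι C.unif ^ j • h at heq
  have hdetσ : ∀ M : Mat O, (M.map C.σ).det = C.σ M.det := det_map_sigma C.treeData
  have hadjσ : ∀ M : Mat O, M.adjugate.map C.σ = (M.map C.σ).adjugate :=
    adjugate_map_sigma C.treeData
  have hsmulσ : ∀ (r : O) (M : Mat O), (r • M).map C.σ = C.σ r • M.map C.σ :=
    map_smul_sigma C.treeData
  -- the product of the three conjugates of the local matrix
  have hkσ : ∀ M : Mat O, ((M.map C.σ).map C.σ).map C.σ = M := fun M => by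
    ext i l; simp [C.order_three]
  have key : ∀ (x y z k₁ k₂ : Mat O),
      k.adjugate * (x * k₁) * (k₁.adjugate * (y * k₂)) * (k₂.adjugate * (z * k))
        = (k₁.det * k₂.det) • (k.adjugate * (x * y * z) * k) := fun x y z k₁ k₂ => by
    calc k.adjugate * (x * k₁) * (k₁.adjugate * (y * k₂)) * (k₂.adjugate * (z * k))
        = k.adjugate * x * (k₁ * k₁.adjugate) * y * (k₂ * k₂.adjugate) * z * k := by
          simp only [Matrix.mul_assoc]
      _ = _ := by simp [Matrix.mul_adjugate, Matrix.mul_assoc, smul_smul, mul_comm]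
  have hprod : (C.σ k.det * C.σ (C.σ k.det) * (Nf.p ^ 2 * g.c)) • (k.adjugate * C.up γ * k)
      = C.ι C.unif ^ (3 * j) • (h * h.map C.σ * (h.map C.σ).map C.σ) := by
    have h2 : (k.map C.σ).adjugate * (g.delta.map C.σ * (k.map C.σ).map C.σ)
        = C.ι C.unif ^ j • h.map C.σ := by
      have e := congrArg (fun M : Mat O => M.map C.σ) heq
      simp only [Matrix.map_mul, hadjσ, hsmulσ, map_pow, C.σ_ι] at e
      exact e
    have h3 : ((k.map C.σ).map C.σ).adjugate * ((g.delta.map C.σ).map C.σ * k)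
        = C.ι C.unif ^ j • (h.map C.σ).map C.σ := by
      have e := congrArg (fun M : Mat O => M.map C.σ) h2
      simp only [Matrix.map_mul, hadjσ, hsmulσ, map_pow, C.σ_ι, hkσ] at e
      exact e
    have e := key g.delta (g.delta.map C.σ) ((g.delta.map C.σ).map C.σ) (k.map C.σ)
      ((k.map C.σ).map C.σ)
    rw [heq, h2, h3, g.norm_delta, hdetσ, hdetσ, hdetσ] at e
    simp only [Matrix.smul_mul, Matrix.mul_smul, smul_smul] at e
    rw [show 3 * j = j + (j + j) by ring, pow_add, pow_add]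
    convert! e.symm using 2
  set P := h * h.map C.σ * (h.map C.σ).map C.σ with hPdef
  have hordP : ordO P.det = 3 * ordO h.det := by
    have e1 : (h.map C.σ).det = C.σ h.det := det_map_sigma C.treeData h
    have e2 : ((h.map C.σ).map C.σ).det = C.σ (C.σ h.det) := by
      rw [← e1]; exact det_map_sigma C.treeData _
    have n1 : C.σ h.det ≠ 0 := by simpa using hh
    have n2 : C.σ (C.σ h.det) ≠ 0 := by simpa using hh
    rw [hPdef, Matrix.det_mul, Matrix.det_mul, e1, e2, ordO_mul (mul_ne_zero hh n1) n2,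
      ordO_mul hh n1]
    have o1 : ∀ x, ordO (C.σ x) = ordO x := ordO_sigma C.treeData
    simp only [o1]
    ring
  have hS : C.σ k.det * C.σ (C.σ k.det) * (Nf.p ^ 2 * g.c) ≠ 0 := by
    simp [hk, Nf.p_ne_zero, g.c_ne_zero]
  have hπ := C.irreducible
  rcases hsh with h0 | ⟨h1, hnil⟩ | ⟨h1, hsp⟩
  · obtain ⟨ha, G, hG⟩ := stable_unimodular hπ Nf.p_ne_zero hk Nf.ι_a_ne_zero Nf.trace_up
      Nf.det_up_γ Nf.type_up hS hprod (by omega)
    refine ⟨k, h, G, hk, j, hky, hh, heq, hG, Or.inl ⟨C.isUnit_ι.mp ha, ?_⟩⟩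
    obtain ⟨u, hu⟩ := exists_unit_of_ne_zero hπ hh
    rw [h0, pow_zero, mul_one] at hu
    exact hu ▸ u.isUnit
  · have hP : ∀ i l, C.ι C.unif ∣ P i l :=
      dvd_mul_right_entries (dvd_mul_of_nilShape C.treeData hnil (hnil.map C.treeData)) _
    obtain ⟨hb, ha, G, hG⟩ := stable_nil hπ Nf.p_ne_zero hk Nf.ι_a_ne_zero Nf.trace_up
      Nf.det_up_γ Nf.type_up hS hprod
      (by rw [Matrix.trace_fin_two]; exact dvd_add (hP 0 0) (hP 1 1))
      (Or.inr ⟨by omega, hP, g.three_dvd⟩)
    exact ⟨k, h, G, hk, j, hky, hh, heq, hG,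
      Or.inr (Or.inl ⟨C.ι_dvd_iff.mp hb, C.ι_dvd_iff.mp ha, h1, hp, hnil⟩)⟩
  · have hP : IsSplitShape C.treeData P :=
      (hsp.mul C.treeData (hsp.map C.treeData)).mul C.treeData ((hsp.map C.treeData).map C.treeData)
    obtain ⟨hb, ha, -, G, hG⟩ := stable_split hπ Nf.p_ne_zero hk Nf.ι_a_ne_zero Nf.trace_up
      Nf.det_up_γ Nf.type_up hS hprod (hP.isUnit_trace C.treeData) (by omega)
    exact ⟨k, h, G, hk, j, hky, hh, heq, hG,
      Or.inr (Or.inr ⟨C.isUnit_ι.mp hb, C.ι_dvd_iff.mp ha⟩)⟩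

/-- Minimal vertices upstairs are fixed by the automorphism. -/
theorem galMap_of_isMinimal {y : Vertex O}
    (hy : IsMinimal C.treeData g.delta g.det_delta_ne_zero y) :
    galMap C.treeData y = y := by
  obtain ⟨k, h, G, hk, j, rfl, hh, heq, hG, htype⟩ := g.stable_of_isMinimal hy
  obtain ⟨ht, hd⟩ := stable_invariants Nf.p_ne_zero hk Nf.trace_up Nf.det_up_γ hG
  have hdetσ : ∀ M : Mat O, (M.map C.σ).det = C.σ M.det := det_map_sigma C.treeData
  have hadjσ : ∀ M : Mat O, M.adjugate.map C.σ = (M.map C.σ).adjugate :=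
    adjugate_map_sigma C.treeData
  have hsmulσ : ∀ (r : O) (M : Mat O), (r • M).map C.σ = C.σ r • M.map C.σ :=
    map_smul_sigma C.treeData
  have hdvdσ : ∀ {x : O}, C.ι C.unif ∣ x → C.ι C.unif ∣ C.σ x := fun hx =>
    dvd_sigma C.treeData hx
  set π := C.ι C.unif with hπdef
  have hπ : Irreducible π := C.irreducible
  have hσd : C.σ k.det ≠ 0 := by simpa using hk
  have hp0 := Nf.p_ne_zero
  have hσp : C.σ Nf.p = Nf.p := by rw [p, map_pow, C.σ_ι]
  set A := k.adjugate * k.map C.σ with hA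
  have hAd : A.det ≠ 0 := det_adjugate_mul_ne_zero hk (by rw [hdetσ]; exact hσd)
  have hGσ : (k.map C.σ).adjugate * C.up γ * k.map C.σ = (Nf.p * C.σ k.det) • G.map C.σ := by
    have e := congrArg (fun M : Mat O => M.map C.σ) hG
    simp only [Matrix.map_mul, hadjσ, hsmulσ, C.map_σ_up, map_mul, hσp] at e
    exact e
  have hsandwich : ∀ x y : Mat O, k.adjugate * x * k * (k.adjugate * y * k.map C.σ)
      = k.det • (k.adjugate * (x * y) * k.map C.σ) ∧
      k.adjugate * x * k.map C.σ * ((k.map C.σ).adjugate * y * k.map C.σ)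
      = C.σ k.det • (k.adjugate * (x * y) * k.map C.σ) := fun x y => by
    constructor
    · calc k.adjugate * x * k * (k.adjugate * y * k.map C.σ)
          = k.adjugate * x * (k * k.adjugate) * (y * k.map C.σ) := by simp only [Matrix.mul_assoc]
        _ = _ := by simp [Matrix.mul_adjugate, Matrix.mul_assoc]
    · calc k.adjugate * x * k.map C.σ * ((k.map C.σ).adjugate * y * k.map C.σ)
          = k.adjugate * x * (k.map C.σ * (k.map C.σ).adjugate) * (y * k.map C.σ) := by
            simp only [Matrix.mul_assoc]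
        _ = _ := by simp [Matrix.mul_adjugate, Matrix.mul_assoc, hdetσ]
  rw [← dist_eq_zero_iff C.treeData, dist_comm]
  show gap C.treeData A = 0
  -- the local matrix is `Z * A` up to a scalar
  have hZA : gap C.treeData A = gap C.treeData ((qEval G ht hd g.z).adjugate * h) := by
      set Z := qEval G ht hd g.z with hZ
      have hZd : Z.det ≠ 0 := (det_qEval G ht hd g.z).symm ▸ g.norm_ne_zero
      have e1 := (hsandwich g.delta 1).1
      rw [Matrix.mul_one, Matrix.mul_one, Matrix.mul_assoc k.adjugate g.delta (k.map C.σ),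
        heq, Good.delta, Nf.adjugate_evalM hG ht hd, ← hA] at e1
      have e2 : Nf.p • (Z * A) = π ^ j • h := by
        apply smul_right_injective (Mat O) hk
        show k.det • (Nf.p • (Z * A)) = k.det • (π ^ j • h)
        rw [← e1, Matrix.smul_mul, smul_smul, mul_comm k.det]
      have e3 := congrArg (fun M => Z.adjugate * M) e2
      simp only [Matrix.mul_smul, ← Matrix.mul_assoc, Matrix.adjugate_mul, Matrix.smul_mul,
        Matrix.one_mul, smul_smul] at e3
      have hne : Nf.p * Z.det ≠ 0 := mul_ne_zero hp0 hZd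
      rw [← gap_smul C.treeData hAd hne, e3,
        gap_smul C.treeData (det_adjugate_mul_ne_zero hZd hh) (pow_ne_zero _ hπ.ne_zero)]
  rcases htype with ⟨ha, hhu⟩ | ⟨hb, ha, hh1, hprim, hnil⟩ | ⟨hb, ha⟩
  · -- elliptic: both factors are unimodular
    rw [hZA]
    have hu : IsUnit (((qEval G ht hd g.z).adjugate * h).det) := by
      rw [Matrix.det_mul, Matrix.det_adjugate, det_qEval]
      simpa using (isUnit_iff_norm_isUnit.mp (g.elliptic_data ha)).mul hhu
    exact (gap_eq_zero_iff C.treeData hu.ne_zero).mpr ⟨0, _, hu, by simp⟩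
  · -- inversion: the product vanishes modulo the uniformiser
    rw [hZA]
    obtain ⟨hn1, h1, w, hw, hwu⟩ := g.inversion_data hb ha
    obtain ⟨h00, h01, h11⟩ := hnil
    change π ∣ h 0 0 at h00
    change π ∣ h 0 1 at h01
    change π ∣ h 1 1 at h11
    have hC : ¬ π ∣ h 1 0 := fun h10 => (isPrimMat_iff C.treeData).mp hprim fun i l => by
      fin_cases i <;> fin_cases l
      exacts [h00, h01, h10, h11]
    -- `h` intertwines `σ G` with `G`
    have hint : G * h = h * G.map C.σ := by
      have e1 := (hsandwich (C.up γ) g.delta).1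
      have e2 := (hsandwich g.delta (C.up γ)).2
      rw [Good.commute_delta, hGσ, Matrix.mul_assoc k.adjugate g.delta, heq] at e2
      rw [hG, Matrix.mul_assoc k.adjugate g.delta, heq] at e1
      apply smul_right_injective (Mat O)
        (mul_ne_zero (mul_ne_zero (mul_ne_zero hσd hp0) hk) (pow_ne_zero j hπ.ne_zero))
      have e3 : C.σ k.det • (((Nf.p * k.det) • G) * (π ^ j • h))
          = k.det • ((π ^ j • h) * ((Nf.p * C.σ k.det) • G.map C.σ)) := by
        rw [e1, e2, smul_comm]
      simp only [Matrix.smul_mul, Matrix.mul_smul, smul_smul] at e3 ⊢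
      convert! e3 using 2 <;> ring
    have hrow0 : ∀ l, π ∣ (h * G.map C.σ) 0 l := fun l => by
      rw [Matrix.mul_apply, Fin.sum_univ_two]
      exact dvd_add (h00.mul_right _) (h01.mul_right _)
    have hG01 : π ∣ G 0 1 := by
      have e := hrow0 0
      rw [← hint, Matrix.mul_apply, Fin.sum_univ_two, dvd_add_right (h00.mul_left _)] at e
      exact (hπ.prime.dvd_or_dvd e).resolve_right hC
    have hbd : π ∣ G 0 0 + G 1 1 := by
      rw [← Matrix.trace_fin_two, ht]; exact map_dvd C.ι hb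
    have had : π ∣ G 0 0 * G 1 1 := by
      have e : π ∣ G.det := hd ▸ (map_dvd C.ι ha).neg_right
      rw [Matrix.det_fin_two, dvd_sub_left (hG01.mul_right _)] at e
      exact e
    have hdiag : π ∣ G 0 0 ∧ π ∣ G 1 1 := by
      rcases hπ.prime.dvd_or_dvd had with e | e
      · exact ⟨e, (dvd_add_right e).mp hbd⟩
      · exact ⟨(dvd_add_left e).mp hbd, e⟩
    have hall : ∀ i l, π ∣ ((qEval G ht hd g.z).adjugate * h) i l := by
      rw [hw, map_mul, Matrix.adjugate_mul_distrib, Matrix.mul_assoc]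
      apply dvd_mul_left_entries
      rw [show qEval G ht hd ω = G by simp [qEval_apply]]
      intro i l
      fin_cases i <;> fin_cases l <;>
        simp [Matrix.adjugate_fin_two, Matrix.mul_apply, Fin.sum_univ_two] <;>
        rw [← neg_mul]
      · exact dvd_add (hdiag.2.mul_right _) (hG01.neg_right.mul_right _)
      · exact dvd_add (hdiag.2.mul_right _) (hG01.neg_right.mul_right _)
      · exact dvd_add (h00.mul_left _) (hdiag.1.mul_right _)
      · exact dvd_add (h01.mul_left _) (hdiag.1.mul_right _)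
    choose U hU using hall
    have hM : (qEval G ht hd g.z).adjugate * h = π • Matrix.of U := by
      ext i l; simp [hU i l]
    have hord : ordO ((qEval G ht hd g.z).adjugate * h).det = 2 := by
      rw [Matrix.det_mul, Matrix.det_adjugate, det_qEval, Fintype.card_fin,
        show 2 - 1 = 1 from rfl, pow_one, ordO_mul g.norm_ne_zero hh, hn1, hh1]
    have hU0 : (Matrix.of U).det ≠ 0 := fun e => by
      rw [hM, Matrix.det_smul, e, mul_zero] at hord
      simp [ordO] at hord
    rw [hM, gap_smul C.treeData hU0 hπ.ne_zero]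
    have hUu : IsUnit (Matrix.of U).det := by
      obtain ⟨u, hu⟩ := exists_unit_of_ne_zero hπ hU0
      rw [hM, Matrix.det_smul, Fintype.card_fin, ordO_mul (pow_ne_zero _ hπ.ne_zero) hU0,
        ordO_pow hπ.ne_zero, ordO_irreducible hπ] at hord
      rw [show ordO (Matrix.of U).det = 0 by omega, pow_zero, mul_one] at hu
      exact hu ▸ u.isUnit
    exact (gap_eq_zero_iff C.treeData hU0).mpr ⟨0, _, hUu, by simp⟩
  · -- translation: `A` intertwines `σ G` with `G`, which has two residual eigenlines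
    obtain ⟨i, A₀, hA₀, hAi⟩ := exists_primitive C.treeData hAd
    change A = π ^ i • A₀ at hAi
    have hA₀d : A₀.det ≠ 0 := fun e => hAd (by rw [hAi, Matrix.det_smul, e, mul_zero])
    rw [hAi, gap_smul C.treeData hA₀d (pow_ne_zero _ hπ.ne_zero), gap_of_prim C.treeData hA₀d hA₀]
    by_contra hne
    have hd0 : π ∣ A₀.det := by
      simpa using (pow_dvd_iff_le_ordO hπ hA₀d (n := 1)).mpr (by omega)
    -- the intertwining
    have hint : A₀ * G.map C.σ = G * A₀ := by
      have e1 := (hsandwich (C.up γ) 1).1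
      have e2 := (hsandwich 1 (C.up γ)).2
      rw [Matrix.one_mul, Matrix.mul_one, hGσ, ← hA, hAi] at e2
      rw [Matrix.mul_one, Matrix.mul_one, hG, ← hA, hAi] at e1
      apply smul_right_injective (Mat O)
        (mul_ne_zero (mul_ne_zero (mul_ne_zero hσd hp0) hk) (pow_ne_zero i hπ.ne_zero))
      have e3 : C.σ k.det • (((Nf.p * k.det) • G) * (π ^ i • A₀))
          = k.det • ((π ^ i • A₀) * ((Nf.p * C.σ k.det) • G.map C.σ)) := by
        rw [e1, e2, smul_comm]
      simp only [Matrix.smul_mul, Matrix.mul_smul, smul_smul] at e3 ⊢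
      convert! e3.symm using 2 <;> ring
    -- the product of the conjugates is scalar
    set s := C.σ k.det * C.σ (C.σ k.det) * k.det
    have hscal : π ^ (3 * i) • (A₀ * A₀.map C.σ * (A₀.map C.σ).map C.σ) = s • (1 : Mat O) := by
      have hkσ : ((k.map C.σ).map C.σ).map C.σ = k := by ext i l; simp [C.order_three]
      have hm : ∀ (q : Mat O), (π ^ i • q).map C.σ = π ^ i • q.map C.σ := fun q => by
        rw [hsmulσ, map_pow, hπdef, C.σ_ι]
      have e : A * A.map C.σ * (A.map C.σ).map C.σ = s • (1 : Mat O) := by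
        simp only [hA, Matrix.map_mul, hadjσ, hkσ]
        calc k.adjugate * k.map C.σ * ((k.map C.σ).adjugate * (k.map C.σ).map C.σ) *
              (((k.map C.σ).map C.σ).adjugate * k)
            = k.adjugate * (k.map C.σ * (k.map C.σ).adjugate) *
                ((k.map C.σ).map C.σ * ((k.map C.σ).map C.σ).adjugate) * k := by
              simp only [Matrix.mul_assoc]
          _ = _ := by
              simp [-Matrix.map_map, Matrix.mul_adjugate, Matrix.adjugate_mul, hdetσ, smul_smul, s, mul_comm,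
                mul_left_comm]
      rw [hAi, hm, hm] at e
      rw [← e, show 3 * i = i + (i + i) by ring, pow_add, pow_add]
      simp [Matrix.smul_mul, Matrix.mul_smul, smul_smul, mul_comm, mul_left_comm]
    set P := A₀ * A₀.map C.σ * (A₀.map C.σ).map C.σ with hP
    have hπi : π ^ (3 * i) ≠ 0 := pow_ne_zero _ hπ.ne_zero
    have hP01 : P 0 1 = 0 := by
      simpa [hπi, Matrix.one_apply] using congrFun (congrFun hscal 0) 1
    have hP10 : P 1 0 = 0 := by
      simpa [hπi, Matrix.one_apply] using congrFun (congrFun hscal 1) 0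
    have hP11 : P 1 1 = P 0 0 := mul_left_cancel₀ hπi (by
      have e0 := congrFun (congrFun hscal 0) 0
      have e1 := congrFun (congrFun hscal 1) 1
      simp only [Matrix.smul_apply, Matrix.one_apply, if_true, smul_eq_mul, mul_one] at e0 e1
      exact e1.trans e0.symm)
    have hP00 : π ∣ P 0 0 := by
      have e : π ∣ P.det := by
        rw [hP, Matrix.det_mul, Matrix.det_mul]
        exact (hd0.mul_right _).mul_right _
      rw [Matrix.det_fin_two, hP01, hP11, zero_mul, sub_zero] at e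
      exact (hπ.prime.dvd_or_dvd e).elim id id
    -- residual eigenbasis of `G`
    have hbu : IsUnit (C.ι Nf.b) := hb.map C.ι
    have hdG : π ∣ G.det := hd ▸ (map_dvd C.ι ha).neg_right
    rw [Matrix.det_fin_two] at hdG
    have htr : G 0 0 + G 1 1 = C.ι Nf.b := by rw [← Matrix.trace_fin_two, ht]
    obtain ⟨V, hV, hGV⟩ : ∃ V : Mat O, IsUnit V.det ∧
        ∀ r l, π ∣ (G * V - V * !![C.ι Nf.b, 0; 0, 0]) r l := by
      have h0 : IsUnit (G 0 0) ∨ IsUnit (G 1 1) :=
        IsLocalRing.isUnit_or_isUnit_of_isUnit_add (htr ▸ hbu)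
      rcases h0 with h0 | h0
      · refine ⟨!![G 0 0, -G 0 1; G 1 0, G 0 0], ?_, fun r l => ?_⟩
        · rw [isUnit_iff_not_dvd hπ]
          intro e
          apply (isUnit_iff_not_dvd hπ).mp (h0.mul hbu)
          rw [← dvd_sub_left hdG]
          convert! e using 1
          simp [Matrix.det_fin_two, ← htr]
          ring
        · fin_cases r <;> fin_cases l <;>
            simp [Matrix.mul_apply, Fin.sum_univ_two, ← htr]
          · convert! hdG.neg_right using 1; ring
          · convert! dvd_zero π using 1; ring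
          · convert! dvd_zero π using 1; ring
          · convert! hdG using 1; ring
      · refine ⟨!![G 0 1, G 1 1; G 1 1, -G 1 0], ?_, fun r l => ?_⟩
        · rw [isUnit_iff_not_dvd hπ]
          intro e
          apply (isUnit_iff_not_dvd hπ).mp (h0.mul hbu)
          rw [← dvd_sub_left hdG, ← dvd_neg]
          convert! e using 1
          simp [Matrix.det_fin_two, ← htr]
          ring
        · fin_cases r <;> fin_cases l <;>
            simp [Matrix.mul_apply, Fin.sum_univ_two, ← htr]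
          · convert! dvd_zero π using 1; ring
          · convert! hdG using 1; ring
          · convert! hdG.neg_right using 1; ring
          · convert! dvd_zero π using 1; ring
    set Δ : Mat O := !![C.ι Nf.b, 0; 0, 0]
    have hΔσ : Δ.map C.σ = Δ := by ext r l; fin_cases r <;> fin_cases l <;> simp [Δ, C.σ_ι]
    have hVσ : IsUnit (V.map C.σ).det := by rw [hdetσ]; exact hV.map _
    set B := V.adjugate * A₀ * V.map C.σ with hB
    have hBΔ : ∀ r l, π ∣ (B * Δ - Δ * B) r l := by
      have e1 : ∀ r l, π ∣ (V.adjugate * A₀ * (G * V - V * Δ).map C.σ) r l := fun r l =>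
        dvd_mul_left_entries (fun r l => hdvdσ (hGV r l)) _ r l
      have e2 : ∀ r l, π ∣ ((V.adjugate * (G * V - V * Δ) * V.adjugate) * A₀ * V.map C.σ) r l :=
        fun r l => dvd_mul_right_entries
          (dvd_mul_right_entries (dvd_mul_right_entries (dvd_mul_left_entries hGV _) _) _) _ r l
      have key : V.det • (B * Δ - Δ * B) = (V.adjugate * (G * V - V * Δ) * V.adjugate) * A₀ *
          V.map C.σ - V.det • (V.adjugate * A₀ * (G * V - V * Δ).map C.σ) := by
        have hmap : (G * V - V * Δ).map C.σ = G.map C.σ * V.map C.σ - V.map C.σ * Δ := by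
          rw [Matrix.map_sub _ (map_sub C.σ), Matrix.map_mul, Matrix.map_mul, hΔσ]
        have h1 : V.adjugate * (G * V - V * Δ) * V.adjugate
            = V.det • (V.adjugate * G - Δ * V.adjugate) := by
          rw [Matrix.mul_sub, Matrix.sub_mul, ← Matrix.mul_assoc V.adjugate V,
            Matrix.adjugate_mul, Matrix.mul_assoc, Matrix.mul_assoc G, Matrix.mul_adjugate,
            smul_sub]
          simp [Matrix.mul_assoc]
        rw [h1, hmap, hB, Matrix.smul_mul, Matrix.smul_mul, ← smul_sub]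
        congr 1
        simp only [Matrix.mul_sub, Matrix.sub_mul, Matrix.mul_assoc]
        rw [← Matrix.mul_assoc A₀ (G.map C.σ), hint, Matrix.mul_assoc]
        abel
      intro r l
      have e := congrFun (congrFun key r) l
      rw [Matrix.smul_apply, smul_eq_mul] at e
      refine hV.dvd_mul_left.mp (e ▸ ?_)
      exact dvd_sub (e2 r l) (Dvd.dvd.mul_left (e1 r l) _)
    have hB01 : π ∣ B 0 1 := by
      have e := hBΔ 0 1
      simp [Δ, Matrix.mul_apply, Matrix.vecMul, dotProduct, Fin.sum_univ_two] at e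
      exact hbu.dvd_mul_left.mp e
    have hB10 : π ∣ B 1 0 := by
      have e := hBΔ 1 0
      simp [Δ, Matrix.mul_apply, Matrix.vecMul, dotProduct, Fin.sum_univ_two] at e
      exact hbu.dvd_mul_right.mp e
    have hBP : ∀ r l, π ∣ (B * B.map C.σ * (B.map C.σ).map C.σ) r l := by
      have hVσσ : ((V.map C.σ).map C.σ).map C.σ = V := by ext i l; simp [C.order_three]
      have e : B * B.map C.σ * (B.map C.σ).map C.σ
          = ((V.map C.σ).det * ((V.map C.σ).map C.σ).det) • (V.adjugate * P * V) := by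
        simp only [hB, hP, Matrix.map_mul, hadjσ, hVσσ]
        calc _ = V.adjugate * A₀ * (V.map C.σ * (V.map C.σ).adjugate) * A₀.map C.σ *
              ((V.map C.σ).map C.σ * ((V.map C.σ).map C.σ).adjugate) *
              (A₀.map C.σ).map C.σ * V := by simp only [Matrix.mul_assoc]
          _ = _ := by simp [Matrix.mul_adjugate, Matrix.mul_assoc, smul_smul, mul_comm]
      intro r l
      rw [e, Matrix.smul_apply, smul_eq_mul]
      refine Dvd.dvd.mul_left (dvd_mul_right_entries (dvd_mul_left_entries ?_ _) _ r l) _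
      intro r l
      fin_cases r <;> fin_cases l
      exacts [hP00, hP01 ▸ dvd_zero π, hP10 ▸ dvd_zero π, hP11 ▸ hP00]
    have hdiagB : ∀ x : O, π ∣ x * C.σ x * C.σ (C.σ x) → π ∣ x := fun x hx => by
      rcases hπ.prime.dvd_or_dvd hx with e | e
      · rcases hπ.prime.dvd_or_dvd e with e | e
        · exact e
        · simpa [C.order_three, hπdef, C.σ_ι] using hdvdσ (hdvdσ e)
      · simpa [C.order_three, hπdef, C.σ_ι] using hdvdσ e
    have hB00 : π ∣ B 0 0 := hdiagB _ (by
      have e := hBP 0 0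
      simp [Matrix.mul_apply, Fin.sum_univ_two, add_mul] at e
      rw [dvd_add_left (dvd_add ((hdvdσ (hdvdσ hB10)).mul_left _) ((hdvdσ (hdvdσ hB10)).mul_left _)),
        dvd_add_left ((hB01.mul_right _).mul_right _)] at e
      exact e)
    have hB11 : π ∣ B 1 1 := hdiagB _ (by
      have e := hBP 1 1
      simp [Matrix.mul_apply, Fin.sum_univ_two, add_mul] at e
      rw [dvd_add_right (dvd_add ((hdvdσ (hdvdσ hB01)).mul_left _) ((hdvdσ (hdvdσ hB01)).mul_left _)),
        dvd_add_right ((hB10.mul_right _).mul_right _)] at e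
      exact e)
    have hBall : ∀ r l, π ∣ B r l := fun r l => by
      fin_cases r <;> fin_cases l
      exacts [hB00, hB01, hB10, hB11]
    have hVa : IsUnit V.adjugate.det := by simpa [Matrix.det_adjugate] using hV
    refine (isPrimMat_iff C.treeData).mp hA₀ fun r l => ?_
    have e := dvd_mul_left_entries (dvd_mul_right_entries hBall (V.map C.σ)⁻¹) V.adjugate⁻¹ r l
    rwa [hB, Matrix.mul_nonsing_inv_cancel_right _ _ hVσ,
      Matrix.nonsing_inv_mul_cancel_left _ _ hVa] at e

variable [Finite (ResidueField O₀)]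

/-- The minimal vertices upstairs are the images of those downstairs. -/
theorem isMinimal_iff (y : Vertex O) :
    IsMinimal C.treeData g.delta g.det_delta_ne_zero y ↔
      ∃ x, IsMinimal C.baseData γ Nf.det_γ_ne_zero x ∧ C.incl x = y := by
  constructor
  · intro hy
    obtain ⟨x, rfl⟩ := C.exists_incl_of_galMap_eq (g.galMap_of_isMinimal hy)
    obtain ⟨k₀, hk₀, rfl⟩ := x.exists_rep
    obtain ⟨k, h, G, hk, j, hky, -, -, hG, -⟩ := g.stable_of_isMinimal hy
    refine ⟨_, (Nf.isMinimal_of_stable hk₀ ?_).1, rfl⟩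
    -- stability transfers along the change of representative
    rw [C.incl_mk hk₀] at hky
    obtain ⟨U, a, b, hU, ha, hb, he⟩ := Quotient.exact hky
    change a • C.up k₀ = b • (k * U) at he
    have hG' : (C.up k₀).adjugate * C.up γ * C.up k₀
        = (Nf.p * (C.up k₀).det) • ((↑hU.unit⁻¹ : O) • (U.adjugate * G * U)) := by
      apply smul_right_injective (Mat O) (mul_ne_zero ha ha)
      have hadj : a • (C.up k₀).adjugate = b • (U.adjugate * k.adjugate) := by
        have e := congrArg Matrix.adjugate he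
        simpa [Matrix.adjugate_smul, Matrix.adjugate_mul_distrib] using e
      have hdet : a ^ 2 * (C.up k₀).det = b ^ 2 * (k.det * U.det) := by
        have e := congrArg Matrix.det he
        simpa [Matrix.det_smul, Fintype.card_fin] using e
      calc (a * a) • ((C.up k₀).adjugate * C.up γ * C.up k₀)
          = (a • (C.up k₀).adjugate) * C.up γ * (a • C.up k₀) := by
            simp [Matrix.smul_mul, Matrix.mul_smul, smul_smul]
        _ = (b * b) • (U.adjugate * (k.adjugate * C.up γ * k) * U) := by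
            rw [hadj, he]; simp [Matrix.smul_mul, Matrix.mul_smul, smul_smul, Matrix.mul_assoc]
        _ = (b * b * (Nf.p * k.det)) • (U.adjugate * G * U) := by
            rw [hG]; simp [Matrix.smul_mul, Matrix.mul_smul, smul_smul, Matrix.mul_assoc]
        _ = _ := by
            show _ = (a * a) • _
            rw [smul_smul, smul_smul]
            congr 1
            have hv : U.det * ↑hU.unit⁻¹ = 1 := hU.mul_val_inv
            linear_combination (-(b * b * (Nf.p * k.det))) * hv
              - Nf.p * (↑hU.unit⁻¹ : O) * hdet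
    -- divisibility descends
    have hdvd : ∀ r l, C.unif ^ Nf.e * k₀.det ∣ (k₀.adjugate * γ * k₀) r l := fun r l => by
      rw [← C.ι_dvd_iff]
      refine ⟨((↑hU.unit⁻¹ : O) • (U.adjugate * G * U)) r l, ?_⟩
      have e := congrFun (congrFun hG' r) l
      rw [C.adjugate_up, ← C.up_mul, ← C.up_mul, C.det_up, Matrix.smul_apply, smul_eq_mul] at e
      rw [map_mul, map_pow]
      exact e
    choose G₀ hG₀ using hdvd
    exact ⟨Matrix.of G₀, by ext r l; simp [hG₀ r l]⟩
  · rintro ⟨x, hx, rfl⟩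
    obtain ⟨k, -, hk, -, rfl, -, -, -, -, hst, -⟩ := Nf.stable_of_isMinimal hx
    exact (g.isMinimal_incl hk hst).1

/-- All minimal vertices upstairs have the same displacement. -/
theorem disp_incl {x : Vertex O₀} (hx : IsMinimal C.baseData γ Nf.det_γ_ne_zero x) :
    disp C.treeData g.delta g.det_delta_ne_zero (C.incl x) = ordO g.z.norm := by
  obtain ⟨k, -, hk, -, rfl, -, -, -, -, hst, -⟩ := Nf.stable_of_isMinimal hx
  exact (g.isMinimal_incl hk hst).2

end Good

end Normal

end Fermat.Agent.LT.Inert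

end
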