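import Fermat.Agent.LT.Inert.PlaceInstances
import Fermat.Agent.LT.Descent.NoNorm

/-!
# An inert place without a local norm
-/

set_option autoImplicit false

noncomputable section

namespace Fermat.Agent.LT.Inert

open IsDedekindDomain IsDedekindDomain.HeightOneSpectrum NumberField Matrix
open Fermat.Agent.LT.Descent Fermat.Agent.LT.Geom
open scoped MatrixGroups

variable {K K' : Type*} [Field K] [NumberField K] [Field K'] [NumberField K'] [Algebra K K']
  {σ : K' ≃ₐ[K] K'} {v : HeightOneSpectrum (𝓞 K)} {w : HeightOneSpectrum (𝓞 K')}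

/-- **An inert place without a local norm**: the fibre sums vanish. -/
theorem InertPlace.vanishesAtPlace_of_not_isLocalNorm (P : InertPlace σ v w)
    {V : ∀ u : HeightOneSpectrum (𝓞 K), Subgroup (GL (Fin 2) (u.adicCompletion K))}
    (hH₀ : IsUnimodularLevel (v.adicCompletionIntegers K) ((V v).map ProjGenLinGroup.mk))
    {φ f : ℕ →₀ ℂ} (hf : IsBaseChange (resCard (v.adicCompletionIntegers K))
      (resCard (w.adicCompletionIntegers K')) φ f)
    {k : KerFamily V} (hk : k.ker v = radKer P.cubic.baseData hH₀ f)
    {c : K} {hc : c ≠ 0} (hloc : ¬ IsLocalNorm σ c hc w) :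
    VanishesAtPlace k (classRep c hc) v :=
  P.vanishesAtPlace hH₀ hf hk (by rw [classInv_classRep]; exact hc) fun d =>
    twNorm_ne_of_not_isLocalNorm σ hloc P.continuous_aut P.aut_coe P.emb_coe d

end Fermat.Agent.LT.Inert

end
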