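import Mathlib.Algebra.QuadraticAlgebra.Basic
import Mathlib.RingTheory.LocalRing.ResidueField.Basic
import Mathlib.RingTheory.AdicCompletion.Basic
import Mathlib.RingTheory.DiscreteValuationRing.Basic
import Mathlib.GroupTheory.QuotientGroup.Basic
import Mathlib.GroupTheory.Index
import Mathlib.LinearAlgebra.Dual.Lemmas
import Mathlib.Tactic.Ring
import Mathlib.Tactic.LinearCombination

/-!
# Norms from a cubic unramified extension on quadratic algebras

For an automorphism `σ` of order three acting coefficientwise on a quadratic algebra with fixed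
structure constants: Hilbert 90 over a field, surjectivity of the norm on units over a finite
field, and over a complete DVR with an element of trace one.
-/

set_option autoImplicit false
set_option linter.style.haveILetI false

noncomputable section

namespace Fermat.Agent.LT.Inert

open QuadraticAlgebra IsLocalRing

section Map

variable {R S : Type*} [CommRing R] [CommRing S] (f : R →+* S) {a b : R} {a' b' : S}

/-- A ring map applied to the coefficients. -/
def qMap (ha : f a = a') (hb : f b = b') : QuadraticAlgebra R a b →+* QuadraticAlgebra S a' b' where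
  toFun z := ⟨f z.re, f z.im⟩
  map_one' := by ext <;> simp
  map_zero' := by ext <;> simp
  map_add' x y := by ext <;> simp
  map_mul' x y := by ext <;> simp [← ha, ← hb]

@[simp]
theorem qMap_re (ha : f a = a') (hb : f b = b') (z : QuadraticAlgebra R a b) :
    (qMap f ha hb z).re = f z.re := rfl

@[simp]
theorem qMap_im (ha : f a = a') (hb : f b = b') (z : QuadraticAlgebra R a b) :
    (qMap f ha hb z).im = f z.im := rfl

end Map

/-- An automorphism of order three fixing two elements. -/
structure CubicAut (R : Type*) [CommRing R] (a b : R) where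
  σ : R ≃+* R
  order_three : ∀ x, σ (σ (σ x)) = x
  map_a : σ a = a
  map_b : σ b = b

namespace CubicAut

variable {R : Type*} [CommRing R] {a b : R} (T : CubicAut R a b)

/-- The action on the quadratic algebra. -/
def τ : QuadraticAlgebra R a b →+* QuadraticAlgebra R a b :=
  qMap T.σ.toRingHom T.map_a T.map_b

@[simp]
theorem τ_re (z : QuadraticAlgebra R a b) : (T.τ z).re = T.σ z.re := rfl

@[simp]
theorem τ_im (z : QuadraticAlgebra R a b) : (T.τ z).im = T.σ z.im := rfl

theorem τ_order_three (z : QuadraticAlgebra R a b) : T.τ (T.τ (T.τ z)) = z := by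
  ext <;> simp [T.order_three]

/-- The norm `z τ(z) τ²(z)`. -/
def cubicNorm : QuadraticAlgebra R a b →* QuadraticAlgebra R a b where
  toFun z := z * T.τ z * T.τ (T.τ z)
  map_one' := by simp
  map_mul' x y := by simp only [map_mul]; ring

theorem cubicNorm_def (z : QuadraticAlgebra R a b) :
    T.cubicNorm z = z * T.τ z * T.τ (T.τ z) := rfl

theorem τ_cubicNorm (z : QuadraticAlgebra R a b) : T.τ (T.cubicNorm z) = T.cubicNorm z := by
  simp only [cubicNorm_def, map_mul, T.τ_order_three]
  ring

end CubicAut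

section Hilbert90

variable {K : Type*} [Field K] {a b : K} (T : CubicAut K a b)

theorem CubicAut.eq_zero_of_forall (hne : ∃ x, T.σ x ≠ x) {c₀ c₁ c₂ : K}
    (h : ∀ l, c₀ * l + c₁ * T.σ l + c₂ * T.σ (T.σ l) = 0) : c₀ = 0 := by
  obtain ⟨x, hx⟩ := hne
  have hx2 : x - T.σ (T.σ x) ≠ 0 := by
    intro h0
    rw [sub_eq_zero] at h0
    exact hx ((congrArg T.σ h0).trans (T.order_three x))
  have h1 : ∀ l, c₀ * (x - T.σ (T.σ x)) * l + c₁ * (T.σ x - T.σ (T.σ x)) * T.σ l = 0 := by
    intro l
    have e1 := h (x * l)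
    have e2 := h l
    simp only [map_mul] at e1
    linear_combination e1 - T.σ (T.σ x) * e2
  have h2 := h1 (x * 1)
  have h3 := h1 1
  simp only [map_mul, map_one, mul_one] at h2 h3
  have h4 : c₀ * (x - T.σ (T.σ x)) * (x - T.σ x) = 0 := by linear_combination h2 - T.σ x * h3
  simpa [hx2, sub_eq_zero, Ne.symm hx] using h4

/-- Hilbert 90 for the units of a quadratic algebra. -/
theorem CubicAut.exists_unit_mul_τ_eq (hne : ∃ x, T.σ x ≠ x) {u : QuadraticAlgebra K a b}
    (hu : T.cubicNorm u = 1) : ∃ c : QuadraticAlgebra K a b, IsUnit c ∧ u * T.τ c = c := by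
  by_contra hcon
  simp only [not_exists, not_and] at hcon
  let θ : QuadraticAlgebra K a b →+ QuadraticAlgebra K a b :=
    AddMonoidHom.id _ + (AddMonoidHom.mulLeft u).comp T.τ.toAddMonoidHom
      + (AddMonoidHom.mulLeft (u * T.τ u)).comp (T.τ.toAddMonoidHom.comp T.τ.toAddMonoidHom)
  have hθ : ∀ v, θ v = v + u * T.τ v + u * T.τ u * T.τ (T.τ v) := fun v => rfl
  have hfix : ∀ v, u * T.τ (θ v) = θ v := by
    intro v
    rw [CubicAut.cubicNorm_def] at hu
    simp only [hθ, map_add, map_mul, T.τ_order_three]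
    linear_combination v * hu
  have hnorm : ∀ v, (θ v).norm = 0 := fun v => by
    by_contra h
    exact hcon _ (isUnit_iff_norm_isUnit.mpr (isUnit_iff_ne_zero.mpr h)) (hfix v)
  -- the polar form of the norm vanishes on the image, which spans
  let B : QuadraticAlgebra K a b → QuadraticAlgebra K a b → K :=
    fun x y => (x + y).norm - x.norm - y.norm
  have hB : ∀ x y, B x y = 2 * (x.re * y.re) + b * (x.re * y.im + x.im * y.re)
      - 2 * a * (x.im * y.im) := by
    intro x y
    simp only [B, QuadraticAlgebra.norm_def, QuadraticAlgebra.re_add, QuadraticAlgebra.im_add]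
    ring
  have hspan : Submodule.span K (Set.range θ) = ⊤ := by
    by_contra hne'
    obtain ⟨l, hl0, hl⟩ := Submodule.exists_dual_map_eq_bot_of_lt_top (lt_top_iff_ne_top.mpr hne')
      inferInstance
    apply hl0
    ext w
    have hl' : ∀ v, l (θ v) = 0 := fun v => by
      have : l (θ v) ∈ (Submodule.span K (Set.range θ)).map l :=
        ⟨_, Submodule.subset_span ⟨v, rfl⟩, rfl⟩
      rwa [hl, Submodule.mem_bot] at this
    refine T.eq_zero_of_forall hne (c₁ := l (u * T.τ w)) (c₂ := l (u * T.τ u * T.τ (T.τ w)))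
      fun s => ?_
    have hs := hl' (s • w)
    have e1 : ∀ (r : K) (z : QuadraticAlgebra K a b), T.τ (r • z) = T.σ r • T.τ z := fun r z => by
      ext <;> simp
    rw [hθ, e1, e1, mul_smul_comm, mul_smul_comm, map_add, map_add, map_smul, map_smul,
      map_smul] at hs
    simp only [smul_eq_mul] at hs
    linear_combination hs
  have hB1 : ∀ x v, B x (θ v) = 0 := by
    intro x v
    have hx : x ∈ Submodule.span K (Set.range θ) := hspan ▸ Submodule.mem_top
    induction hx using Submodule.span_induction with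
    | mem y hy =>
      obtain ⟨w, rfl⟩ := hy
      simp only [B, ← map_add, hnorm, sub_zero]
    | zero => simp [hB]
    | add y z _ _ h1 h2 =>
      rw [hB] at h1 h2 ⊢
      simp only [QuadraticAlgebra.re_add, QuadraticAlgebra.im_add]
      linear_combination h1 + h2
    | smul r y _ h1 =>
      rw [hB] at h1 ⊢
      simp only [QuadraticAlgebra.re_smul, QuadraticAlgebra.im_smul, smul_eq_mul]
      linear_combination r * h1
  have hzero : ∀ x : QuadraticAlgebra K a b, x.norm = 0 := by
    intro x
    have hx : x ∈ Submodule.span K (Set.range θ) := hspan ▸ Submodule.mem_top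
    induction hx using Submodule.span_induction with
    | mem y hy => obtain ⟨w, rfl⟩ := hy; exact hnorm w
    | zero => simp
    | add y z hy hz h1 h2 =>
      have : B y z = 0 := by
        clear h1 h2
        induction hz using Submodule.span_induction with
        | mem z hz' => obtain ⟨w, rfl⟩ := hz'; exact hB1 y w
        | zero => simp [hB]
        | add z z' _ _ h1 h2 =>
          rw [hB] at h1 h2 ⊢
          simp only [QuadraticAlgebra.re_add, QuadraticAlgebra.im_add]
          linear_combination h1 + h2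
        | smul r z _ h1 =>
          rw [hB] at h1 ⊢
          simp only [QuadraticAlgebra.re_smul, QuadraticAlgebra.im_smul, smul_eq_mul]
          linear_combination r * h1
      simp only [B, h1, h2, sub_zero] at this
      exact this
    | smul r y _ h1 =>
      rw [QuadraticAlgebra.norm_def] at h1 ⊢
      simp only [QuadraticAlgebra.re_smul, QuadraticAlgebra.im_smul, smul_eq_mul]
      linear_combination r ^ 2 * h1
  simpa using hzero 1

/-- The norm is surjective on fixed units over a finite field. -/
theorem CubicAut.exists_cubicNorm_eq [Finite K] (hne : ∃ x, T.σ x ≠ x)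
    {v : QuadraticAlgebra K a b} (hv : IsUnit v) (hfix : T.τ v = v) :
    ∃ z : QuadraticAlgebra K a b, IsUnit z ∧ T.cubicNorm z = v := by
  haveI : Finite (QuadraticAlgebra K a b) :=
    Finite.of_equiv _ (QuadraticAlgebra.equivProd a b).symm
  let t : (QuadraticAlgebra K a b)ˣ →* (QuadraticAlgebra K a b)ˣ := Units.map T.τ.toMonoidHom
  let N : (QuadraticAlgebra K a b)ˣ →* (QuadraticAlgebra K a b)ˣ := Units.map T.cubicNorm
  let M : (QuadraticAlgebra K a b)ˣ →* (QuadraticAlgebra K a b)ˣ := MonoidHom.id _ / t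
  have h1 : N.ker ≤ M.range := by
    intro u hu
    have hu' : T.cubicNorm (u : QuadraticAlgebra K a b) = 1 := congrArg Units.val hu
    obtain ⟨c, hc, hcu⟩ := T.exists_unit_mul_τ_eq hne hu'
    refine ⟨hc.unit, ?_⟩
    show hc.unit / t hc.unit = u
    rw [div_eq_iff_eq_mul]
    exact Units.ext hcu.symm
  have h2 : N.range ≤ M.ker := by
    rintro _ ⟨u, rfl⟩
    show N u / t (N u) = 1
    rw [div_eq_one]
    exact Units.ext (T.τ_cubicNorm u).symm
  have h3 : Nat.card M.ker ≤ Nat.card N.range := by
    have e1 := Subgroup.card_mul_index N.ker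
    have e2 := Subgroup.card_mul_index M.ker
    rw [Subgroup.index_ker] at e1 e2
    have hle : Nat.card N.ker ≤ Nat.card M.range := Subgroup.card_le_of_le h1
    have hpos : 0 < Nat.card M.range := Nat.card_pos
    nlinarith
  have h4 : M.ker ≤ N.range := (Subgroup.eq_of_le_of_card_ge h2 h3).ge
  obtain ⟨z, hz⟩ := h4 (show hv.unit ∈ M.ker by
    show hv.unit / t hv.unit = 1
    rw [div_eq_one]
    exact Units.ext hfix.symm)
  exact ⟨z, z.isUnit, congrArg Units.val hz⟩

end Hilbert90

section Complete

variable {O : Type*} [CommRing O] [IsDomain O] [IsDiscreteValuationRing O]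
  [Finite (ResidueField O)] [IsAdicComplete (maximalIdeal O) O] {a b : O} (T : CubicAut O a b)

/-- Coordinatewise divisibility. -/
def qDvd (c : O) (z : QuadraticAlgebra O a b) : Prop := ∃ y, z = c • y

/-- The norm is surjective on fixed units of a complete DVR with an element of trace one. -/
theorem CubicAut.exists_cubicNorm_eq_of_complete {π : O} (hπ : Irreducible π)
    (hπσ : T.σ π = π) {t : O} (ht : t + T.σ t + T.σ (T.σ t) = 1)
    (hres : ∃ x, ¬ π ∣ T.σ x - x) {v : QuadraticAlgebra O a b} (hv : IsUnit v)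
    (hfix : T.τ v = v) : ∃ z : QuadraticAlgebra O a b, IsUnit z ∧ T.cubicNorm z = v := by
  classical
  have hdvd : ∀ r, residue O r = 0 ↔ π ∣ r := fun r => by
    rw [IsLocalRing.residue_eq_zero_iff, hπ.maximalIdeal_eq, Ideal.mem_span_singleton]
  -- the residual automorphism
  let σk : ResidueField O ≃+* ResidueField O := IsLocalRing.ResidueField.mapEquiv T.σ
  have hσk : ∀ x, σk (residue O x) = residue O (T.σ x) := fun x => rfl
  let Tk : CubicAut (ResidueField O) (residue O a) (residue O b) :=
    { σ := σk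
      order_three := fun x => by
        obtain ⟨x, rfl⟩ := IsLocalRing.residue_surjective x
        rw [hσk, hσk, hσk, T.order_three]
      map_a := by rw [hσk, T.map_a]
      map_b := by rw [hσk, T.map_b] }
  let red : QuadraticAlgebra O a b →+* QuadraticAlgebra (ResidueField O) (residue O a) (residue O b) :=
    qMap (residue O) rfl rfl
  have hred : ∀ z, Tk.τ (red z) = red (T.τ z) := fun z => rfl
  have hkne : ∃ x, Tk.σ x ≠ x := by
    obtain ⟨x, hx⟩ := hres
    refine ⟨residue O x, fun h => hx ((hdvd _).mp ?_)⟩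
    rw [map_sub, ← hσk, h, sub_self]
  obtain ⟨zk, hzk, hNk⟩ := Tk.exists_cubicNorm_eq hkne (hv.map red) (by rw [hred, hfix])
  obtain ⟨z₀, hz₀⟩ : ∃ z₀, red z₀ = zk := by
    obtain ⟨x, hx⟩ := IsLocalRing.residue_surjective zk.re
    obtain ⟨y, hy⟩ := IsLocalRing.residue_surjective zk.im
    exact ⟨⟨x, y⟩, by ext <;> simp [red, hx, hy]⟩
  have hunit : ∀ z, IsUnit (red z) → IsUnit z := by
    intro z hz
    rw [isUnit_iff_norm_isUnit] at hz ⊢
    have : residue O z.norm = (red z).norm := by
      simp [red, QuadraticAlgebra.norm_def]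
    rw [← this] at hz
    exact (IsLocalRing.residue_ne_zero_iff_isUnit _).mp hz.ne_zero
  have hτsmul : ∀ (r : O) (z : QuadraticAlgebra O a b), T.τ (r • z) = T.σ r • T.τ z :=
    fun r z => by ext <;> simp
  -- successive approximation
  let P : ℕ → QuadraticAlgebra O a b → Prop :=
    fun m z => IsUnit z ∧ qDvd (π ^ (m + 1)) (v - T.cubicNorm z)
  have h0 : P 0 z₀ := by
    refine ⟨hunit _ (hz₀ ▸ hzk), ?_⟩
    have : red (v - T.cubicNorm z₀) = 0 := by
      rw [map_sub, sub_eq_zero, ← hNk, ← hz₀]
      simp only [CubicAut.cubicNorm_def, map_mul, hred]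
    have h1 := congrArg QuadraticAlgebra.re this
    have h2 := congrArg QuadraticAlgebra.im this
    simp only [red, qMap_re, qMap_im, QuadraticAlgebra.re_zero, QuadraticAlgebra.im_zero,
      hdvd] at h1 h2
    obtain ⟨y1, hy1⟩ := h1
    obtain ⟨y2, hy2⟩ := h2
    exact ⟨⟨y1, y2⟩, by ext <;> simp [hy1, hy2]⟩
  have hstep : ∀ m z, P m z → ∃ z', P (m + 1) z' ∧ qDvd (π ^ (m + 1)) (z' - z) := by
    rintro m z ⟨hz, y, hy⟩
    have hNu : IsUnit (T.cubicNorm z) := hz.map T.cubicNorm
    obtain ⟨w, hw⟩ := hNu.exists_right_inv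
    -- correct by `1 + π^(m+1) t w y`
    have hτy : T.τ y = y := by
      have h := congrArg T.τ hy
      rw [map_sub, hfix, T.τ_cubicNorm, hτsmul, map_pow, hπσ, hy] at h
      ext
      · exact (mul_left_cancel₀ (pow_ne_zero _ hπ.ne_zero)
          (congrArg QuadraticAlgebra.re h)).symm
      · exact (mul_left_cancel₀ (pow_ne_zero _ hπ.ne_zero)
          (congrArg QuadraticAlgebra.im h)).symm
    have hτw : T.τ w = w := by
      have h := congrArg T.τ hw
      rw [map_mul, map_one, T.τ_cubicNorm] at h
      calc T.τ w = (T.cubicNorm z * w) * T.τ w := by rw [hw, one_mul]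
        _ = w * (T.cubicNorm z * T.τ w) := by ring
        _ = w := by rw [h, mul_one]
    let e : QuadraticAlgebra O a b := π ^ (m + 1) • (w * y)
    let c := 1 + t • e
    have hτe : T.τ e = e := by
      simp only [e, hτsmul, map_pow, hπσ, map_mul, hτw, hτy]
    have hc : red c = 1 := by
      ext <;> simp [red, c, e, (hdvd π).mpr dvd_rfl]
    refine ⟨z * c, ⟨hz.mul (hunit _ (hc ▸ isUnit_one)), ?_⟩,
      ⟨z * (t • (w * y)), ?_⟩⟩
    · have hN : T.cubicNorm c = 1 + e + (π ^ (m + 2)) •
          ((π ^ m * (t * T.σ t + t * T.σ (T.σ t) + T.σ t * T.σ (T.σ t))) • (w * y * (w * y)) +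
            (π ^ (2 * m + 1) * (t * T.σ t * T.σ (T.σ t))) • (w * y * (w * y) * (w * y))) := by
        simp only [CubicAut.cubicNorm_def, c, map_add, map_one, hτsmul, hτe]
        simp only [e, Algebra.smul_def, map_add, map_mul, map_pow]
        have ht' := congrArg (algebraMap O (QuadraticAlgebra O a b)) ht
        simp only [map_add, map_one] at ht'
        linear_combination (algebraMap O (QuadraticAlgebra O a b) π) ^ (m + 1) * (w * y) * ht'
      refine ⟨-(T.cubicNorm z * ((π ^ m * (t * T.σ t + t * T.σ (T.σ t) + T.σ t * T.σ (T.σ t))) •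
          (w * y * (w * y)) +
            (π ^ (2 * m + 1) * (t * T.σ t * T.σ (T.σ t))) • (w * y * (w * y) * (w * y)))), ?_⟩
      rw [map_mul, hN]
      simp only [e, Algebra.smul_def, map_add, map_mul, map_pow] at hy ⊢
      linear_combination hy - (algebraMap O (QuadraticAlgebra O a b) π) ^ (m + 1) * y * hw
    · simp only [c, e, Algebra.smul_def, map_pow]
      ring
  choose f hf hf' using hstep
  let s : ∀ m, {z // P m z} := fun m => Nat.rec ⟨z₀, h0⟩ (fun k ih => ⟨f k ih.1 ih.2, hf k ih.1 ih.2⟩) m
  let seq : ℕ → QuadraticAlgebra O a b := fun m => (s m).1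
  have hsucc : ∀ m, qDvd (π ^ (m + 1)) (seq (m + 1) - seq m) := fun m => hf' m (s m).1 (s m).2
  have hcauchy : ∀ {m n : ℕ}, m ≤ n → qDvd (π ^ m) (seq n - seq m) := by
    intro m n hmn
    induction n, hmn using Nat.le_induction with
    | base => exact ⟨0, by simp⟩
    | succ n hmn ih =>
      obtain ⟨y, hy⟩ := ih
      obtain ⟨y', hy'⟩ := hsucc n
      refine ⟨y + π ^ (n + 1 - m) • y', ?_⟩
      rw [smul_add, smul_smul, ← pow_add, Nat.add_sub_cancel' (by omega), ← hy, ← hy']
      ring
  have hlim : ∀ (g : QuadraticAlgebra O a b →ₗ[O] O),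
      ∃ L, ∀ n, π ^ n ∣ g (seq n) - L := by
    intro g
    obtain ⟨L, hL⟩ := IsPrecomplete.prec (I := maximalIdeal O) (M := O) inferInstance
      (f := fun n => g (seq n)) fun {m n} hmn => by
        rw [SModEq.sub_mem, smul_eq_mul, Ideal.mul_top, hπ.maximalIdeal_eq,
          Ideal.span_singleton_pow, Ideal.mem_span_singleton]
        obtain ⟨y, hy⟩ := hcauchy hmn
        refine ⟨-g y, ?_⟩
        rw [mul_neg, ← smul_eq_mul, ← map_smul, ← hy, map_sub, neg_sub]
    refine ⟨L, fun n => ?_⟩
    have := hL n
    rwa [SModEq.sub_mem, smul_eq_mul, Ideal.mul_top, hπ.maximalIdeal_eq,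
      Ideal.span_singleton_pow, Ideal.mem_span_singleton] at this
  obtain ⟨L₁, hL₁⟩ := hlim (QuadraticAlgebra.reₗ a b)
  obtain ⟨L₂, hL₂⟩ := hlim (QuadraticAlgebra.imₗ a b)
  let z : QuadraticAlgebra O a b := ⟨L₁, L₂⟩
  have hzn : ∀ n, qDvd (π ^ n) (seq n - z) := fun n => by
    obtain ⟨y1, hy1⟩ := hL₁ n
    obtain ⟨y2, hy2⟩ := hL₂ n
    exact ⟨⟨y1, y2⟩, QuadraticAlgebra.ext hy1 hy2⟩
  refine ⟨z, hunit z ?_, ?_⟩
  · obtain ⟨y, hy⟩ := hzn 1
    have : red z = red (seq 1) := by
      rw [show z = seq 1 - π ^ 1 • y by rw [← hy]; ring, map_sub]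
      ext <;> simp [red, (hdvd π).mpr dvd_rfl]
    rw [this]
    exact (s 1).2.1.map red
  · -- `v - N z` is divisible by every power of `π`
    have hall : ∀ n, qDvd (π ^ n) (v - T.cubicNorm z) := by
      intro n
      obtain ⟨y, hy⟩ := hzn n
      obtain ⟨y', hy'⟩ := (s n).2.2
      have hz' : z = seq n - algebraMap O (QuadraticAlgebra O a b) (π ^ n) * y := by
        rw [← Algebra.smul_def, ← hy]; ring
      have hτp : T.τ (algebraMap O (QuadraticAlgebra O a b) (π ^ n))
          = algebraMap O (QuadraticAlgebra O a b) (π ^ n) := by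
        rw [map_pow, map_pow]; congr 1; ext <;> simp [QuadraticAlgebra.algebraMap_eq, hπσ]
      obtain ⟨w, hw⟩ : ∃ w, T.cubicNorm z
          = T.cubicNorm (seq n) + algebraMap O (QuadraticAlgebra O a b) (π ^ n) * w := by
        refine ⟨?_, ?_⟩
        rotate_left
        · rw [hz']
          simp only [CubicAut.cubicNorm_def, map_sub, map_mul, hτp]
          set P := algebraMap O (QuadraticAlgebra O a b) (π ^ n)
          set A := seq n
          rw [show (A - P * y) * (T.τ A - P * T.τ y) * (T.τ (T.τ A) - P * T.τ (T.τ y))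
              = A * T.τ A * T.τ (T.τ A) + P * (-(y * T.τ A * T.τ (T.τ A))
                - A * T.τ y * T.τ (T.τ A) - A * T.τ A * T.τ (T.τ y)
                + P * (y * T.τ y * T.τ (T.τ A) + y * T.τ A * T.τ (T.τ y)
                  + A * T.τ y * T.τ (T.τ y)) - P * P * (y * T.τ y * T.τ (T.τ y))) by ring]
      refine ⟨π • y' - w, ?_⟩
      rw [hw, ← sub_sub]
      simp only [seq] at *
      rw [hy']
      simp only [Algebra.smul_def, map_pow, map_mul]
      ring
    refine (sub_eq_zero.mp ?_).symm
    have hzero : ∀ g : QuadraticAlgebra O a b →ₗ[O] O, g (v - T.cubicNorm z) = 0 := fun g => by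
      refine IsHausdorff.haus (I := maximalIdeal O) inferInstance _ fun n => ?_
      rw [SModEq.sub_mem, sub_zero, smul_eq_mul, Ideal.mul_top, hπ.maximalIdeal_eq,
        Ideal.span_singleton_pow, Ideal.mem_span_singleton]
      obtain ⟨y, hy⟩ := hall n
      exact ⟨g y, by rw [hy, map_smul, smul_eq_mul]⟩
    exact QuadraticAlgebra.ext (hzero (QuadraticAlgebra.reₗ a b)) (hzero (QuadraticAlgebra.imₗ a b))

end Complete

end Fermat.Agent.LT.Inert

end
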