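import Fermat.Agent.LT.Inert.Rational
import Fermat.Agent.LT.Inert.QuadNorm
import Mathlib.RingTheory.Henselian

/-!
# Normal forms of `γ` and good twisted representatives

`γ` satisfies `γ ^ 2 = π^e b γ + π^(2e) a`; the three types are `a` a unit (elliptic), `a` of order
one with `π ∣ b` (inversion), `b` a unit with `π ∣ a` (translation).  A good representative is
`x π^e + y γ` for `z = x + y ω` in the quadratic algebra with cubic norm a scalar times `ω`.
-/

set_option autoImplicit false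
set_option linter.unusedSectionVars false

noncomputable section

namespace Fermat.Agent.LT.Inert

open IsLocalRing Matrix QuadraticAlgebra

section QEval

variable {R : Type*} [CommRing R] {a b : R}

/-- A matrix satisfies the quadratic relation when its invariants are right. -/
theorem sq_eq_of_invariants {G : Mat R} (ht : G.trace = b) (hd : G.det = -a) :
    G * G = a • (1 : Mat R) + b • G := by
  rw [Matrix.trace_fin_two] at ht
  rw [Matrix.det_fin_two] at hd
  ext i j
  fin_cases i <;> fin_cases j <;> simp [Matrix.mul_apply, Fin.sum_univ_two]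
  · linear_combination (G 0 0) * ht - hd
  · linear_combination (G 0 1) * ht
  · linear_combination (G 1 0) * ht
  · linear_combination (G 1 1) * ht - hd

/-- Evaluation of the quadratic algebra at a matrix with the right invariants. -/
def qEval (G : Mat R) (ht : G.trace = b) (hd : G.det = -a) :
    QuadraticAlgebra R a b →ₐ[R] Mat R :=
  QuadraticAlgebra.lift ⟨G, sq_eq_of_invariants ht hd⟩

theorem qEval_apply (G : Mat R) (ht : G.trace = b) (hd : G.det = -a)
    (z : QuadraticAlgebra R a b) : qEval G ht hd z = z.re • (1 : Mat R) + z.im • G := rfl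

theorem det_qEval (G : Mat R) (ht : G.trace = b) (hd : G.det = -a)
    (z : QuadraticAlgebra R a b) : (qEval G ht hd z).det = z.norm := by
  rw [qEval_apply, QuadraticAlgebra.norm_def]
  rw [Matrix.trace_fin_two] at ht
  rw [Matrix.det_fin_two] at hd ⊢
  simp
  linear_combination (z.re * z.im) * ht + z.im ^ 2 * hd

theorem trace_qEval (G : Mat R) (ht : G.trace = b) (hd : G.det = -a)
    (z : QuadraticAlgebra R a b) : (qEval G ht hd z).trace = QuadraticAlgebra.trace z := by
  rw [qEval_apply, QuadraticAlgebra.trace_def, Matrix.trace_add, Matrix.trace_smul,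
    Matrix.trace_smul, ht, Matrix.trace_one, Fintype.card_fin]
  simp only [smul_eq_mul, Nat.cast_ofNat]
  ring

end QEval

variable {O₀ O : Type*} [CommRing O₀] [IsDomain O₀] [IsDiscreteValuationRing O₀]
  [CommRing O] [IsDomain O] [IsDiscreteValuationRing O]

/-- The three types. -/
inductive NormalType (π : O₀) (a b : O₀) : Prop
  | elliptic (ha : IsUnit a) : NormalType π a b
  | inversion (hb : π ∣ b) (ha : π ∣ a) (ha' : ¬ π ^ 2 ∣ a) : NormalType π a b
  | translation (hb : IsUnit b) (ha : π ∣ a) : NormalType π a b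

/-- A normal form of `γ`. -/
structure Normal (C : CubicData O₀ O) (γ : Mat O₀) where
  e : ℕ
  a : O₀
  b : O₀
  trace_eq : γ.trace = C.unif ^ e * b
  det_eq : γ.det = -(C.unif ^ (2 * e) * a)
  type : NormalType C.unif a b
  ne_zero : a ≠ 0

/-- Every nonsingular matrix has a normal form. -/
theorem exists_normal (C : CubicData O₀ O) {γ : Mat O₀} (hγ : γ.det ≠ 0) :
    Nonempty (Normal C γ) := by
  classical
  have hπ := C.irreducible₀
  obtain ⟨u, hu⟩ := exists_unit_of_ne_zero hπ hγ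
  set N := ordO γ.det
  by_cases hT : γ.trace ≠ 0 ∧ 2 * ordO γ.trace < N
  · obtain ⟨hT0, hlt⟩ := hT
    obtain ⟨w, hw⟩ := exists_unit_of_ne_zero hπ hT0
    refine ⟨⟨ordO γ.trace, -(u * C.unif ^ (N - 2 * ordO γ.trace)), w, ?_, ?_, ?_, ?_⟩⟩
    · conv_lhs => rw [hw]
      ring
    · conv_lhs => rw [hu]
      rw [mul_neg, neg_neg, mul_left_comm, ← pow_add, Nat.add_sub_cancel' hlt.le]
    · exact .translation w.isUnit (Dvd.dvd.neg_right (Dvd.dvd.mul_left (dvd_pow_self _ (by omega)) _))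
    · simp [u.ne_zero, hπ.ne_zero]
  · -- the trace is divisible by half of the determinant
    have hdiv : ∀ k : ℕ, 2 * k ≤ N + 1 → C.unif ^ k ∣ γ.trace := by
      intro k hk
      rcases eq_or_ne γ.trace 0 with h0 | h0
      · rw [h0]; exact dvd_zero _
      · rw [pow_dvd_iff_le_ordO hπ h0]
        have := not_and.mp hT h0
        omega
    rcases Nat.even_or_odd' N with ⟨e, he | he⟩
    · obtain ⟨b, hb⟩ := hdiv e (by omega)
      refine ⟨⟨e, -(u : O₀), b, hb, ?_, .elliptic (u.isUnit.neg), by simp⟩⟩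
      conv_lhs => rw [hu, he]
      ring
    · obtain ⟨b, hb⟩ := hdiv (e + 1) (by omega)
      refine ⟨⟨e, -(u * C.unif), C.unif * b, ?_, ?_, ?_, ?_⟩⟩
      · rw [hb]; ring
      · conv_lhs => rw [hu, he]
        ring
      · refine .inversion (dvd_mul_right _ _) (dvd_mul_left _ _).neg_right ?_
        rw [dvd_neg, pow_two, mul_comm (u : O₀), mul_dvd_mul_iff_left hπ.ne_zero]
        exact fun h => hπ.not_isUnit (isUnit_of_dvd_unit h u.isUnit)
      · simp [u.ne_zero, hπ.ne_zero]

namespace Normal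

variable {C : CubicData O₀ O} {γ : Mat O₀} (Nf : Normal C γ)

/-- The uniformiser power upstairs. -/
def p : O := C.ι C.unif ^ Nf.e

theorem p_ne_zero : Nf.p ≠ 0 := pow_ne_zero _ C.irreducible.ne_zero

/-- The automorphism of the quadratic algebra. -/
def aut : CubicAut O (C.ι Nf.a) (C.ι Nf.b) :=
  ⟨C.σ, C.order_three, C.σ_ι _, C.σ_ι _⟩

include Nf in
theorem det_γ_ne_zero : γ.det ≠ 0 := by
  rw [Nf.det_eq]
  simp [C.irreducible₀.ne_zero, Nf.ne_zero]

/-- `z ↦ x π^e + y γ`. -/
def evalM (z : QuadraticAlgebra O (C.ι Nf.a) (C.ι Nf.b)) : Mat O :=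
  (z.re * Nf.p) • (1 : Mat O) + z.im • C.up γ

theorem trace_up : (C.up γ).trace = Nf.p * C.ι Nf.b := by
  rw [Matrix.trace_fin_two, CubicData.up, Matrix.map_apply, Matrix.map_apply, ← map_add,
    ← Matrix.trace_fin_two, Nf.trace_eq, map_mul, map_pow, p]

theorem det_up_γ : (C.up γ).det = -(Nf.p ^ 2 * C.ι Nf.a) := by
  rw [CubicData.det_up, Nf.det_eq, map_neg, map_mul, map_pow, p, ← pow_mul, mul_comm 2 Nf.e]

theorem evalM_omega : Nf.evalM ω = C.up γ := by simp [evalM]

theorem evalM_one : Nf.evalM 1 = Nf.p • (1 : Mat O) := by simp [evalM]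

theorem evalM_smul (r : O) (z : QuadraticAlgebra O (C.ι Nf.a) (C.ι Nf.b)) :
    Nf.evalM (r • z) = r • Nf.evalM z := by
  simp [evalM, smul_add, smul_smul, mul_assoc]

theorem evalM_mul (z w : QuadraticAlgebra O (C.ι Nf.a) (C.ι Nf.b)) :
    Nf.evalM z * Nf.evalM w = Nf.p • Nf.evalM (z * w) := by
  have hsq : C.up γ * C.up γ = (Nf.p ^ 2 * C.ι Nf.a) • (1 : Mat O) + (Nf.p * C.ι Nf.b) • C.up γ :=
    sq_eq_of_invariants Nf.trace_up Nf.det_up_γ
  simp only [evalM, Matrix.add_mul, Matrix.mul_add, Matrix.smul_mul, Matrix.mul_smul,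
    Matrix.one_mul, Matrix.mul_one, hsq, QuadraticAlgebra.re_mul, QuadraticAlgebra.im_mul]
  ext i j
  simp only [Matrix.add_apply, Matrix.smul_apply, smul_eq_mul]
  ring

theorem det_evalM (z : QuadraticAlgebra O (C.ι Nf.a) (C.ι Nf.b)) :
    (Nf.evalM z).det = Nf.p ^ 2 * z.norm := by
  have ht := Nf.trace_up
  have hd := Nf.det_up_γ
  rw [Matrix.trace_fin_two] at ht
  rw [Matrix.det_fin_two] at hd ⊢
  rw [QuadraticAlgebra.norm_def]
  simp [evalM]
  linear_combination (z.re * Nf.p * z.im) * ht + z.im ^ 2 * hd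

theorem map_evalM (z : QuadraticAlgebra O (C.ι Nf.a) (C.ι Nf.b)) :
    (Nf.evalM z).map C.σ = Nf.evalM (Nf.aut.τ z) := by
  ext i j
  simp [evalM, p, aut, C.σ_ι, CubicData.up, Matrix.one_apply, apply_ite C.σ]

theorem commute_evalM (z : QuadraticAlgebra O (C.ι Nf.a) (C.ι Nf.b)) :
    Nf.evalM z * C.up γ = C.up γ * Nf.evalM z := by
  rw [← Nf.evalM_omega, Nf.evalM_mul, Nf.evalM_mul, mul_comm z ω]

/-- A good element: cubic norm `c ω`, in the normalised position of its type. -/
structure Good where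
  z : QuadraticAlgebra O (C.ι Nf.a) (C.ι Nf.b)
  c : O
  c_ne_zero : c ≠ 0
  cubicNorm_eq : Nf.aut.cubicNorm z = c • ω
  norm_ne_zero : z.norm ≠ 0
  shape : (IsUnit Nf.a ∧ IsUnit z) ∨
    (C.unif ∣ Nf.b ∧ C.unif ∣ Nf.a ∧ ordO z.norm = 1 ∧ ∃ w, z = ω * w) ∨
    (IsUnit Nf.b ∧ C.unif ∣ Nf.a ∧ 3 * ordO z.norm = ordO Nf.a ∧
      IsUnit (QuadraticAlgebra.trace z) ∧ IsUnit (QuadraticAlgebra.trace (z * Nf.aut.τ z)))

/-- The twisted representative of a good element. -/
def Good.delta {Nf : Normal C γ} (g : Nf.Good) : Mat O := Nf.evalM g.z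

theorem Good.det_delta_ne_zero {Nf : Normal C γ} (g : Nf.Good) : g.delta.det ≠ 0 := by
  rw [Good.delta, det_evalM]
  exact mul_ne_zero (pow_ne_zero _ Nf.p_ne_zero) g.norm_ne_zero

theorem Good.norm_delta {Nf : Normal C γ} (g : Nf.Good) :
    g.delta * g.delta.map C.σ * (g.delta.map C.σ).map C.σ
      = (Nf.p ^ 2 * g.c) • C.up γ := by
  rw [Good.delta, map_evalM, map_evalM, evalM_mul, Matrix.smul_mul, evalM_mul, smul_smul,
    ← CubicAut.cubicNorm_def, g.cubicNorm_eq, evalM_smul, evalM_omega, smul_smul, ← pow_two]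

theorem Good.commute_delta {Nf : Normal C γ} (g : Nf.Good) :
    g.delta * C.up γ = C.up γ * g.delta := Nf.commute_evalM g.z

end Normal

variable [Finite (ResidueField O)] [IsAdicComplete (maximalIdeal O) O]
  [IsAdicComplete (maximalIdeal O₀) O₀]

/-- Good elements exist, except for translations of length prime to three. -/
theorem Normal.exists_good {C : CubicData O₀ O} {γ : Mat O₀} (Nf : Normal C γ)
    (h3 : IsUnit Nf.b → C.unif ∣ Nf.a → 3 ∣ ordO Nf.a) : Nonempty Nf.Good := by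
  set π := C.ι C.unif with hπdef
  have hπ := C.irreducible
  obtain ⟨t, ht⟩ := C.trace_one
  have hsolve : ∀ u : QuadraticAlgebra O (C.ι Nf.a) (C.ι Nf.b), IsUnit u → Nf.aut.τ u = u →
      ∃ w, IsUnit w ∧ Nf.aut.cubicNorm w = u := fun u hu hfix =>
    Nf.aut.exists_cubicNorm_eq_of_complete hπ (C.σ_ι _) (t := t) ht C.residue_moved hu hfix
  have hτω : Nf.aut.τ ω = ω := by ext <;> simp
  rcases Nf.type with ha | ⟨hb, ha, ha2⟩ | ⟨hb, ha⟩
  · have hω : IsUnit (ω : QuadraticAlgebra O (C.ι Nf.a) (C.ι Nf.b)) := by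
      rw [isUnit_iff_norm_isUnit, QuadraticAlgebra.norm_def]
      simpa using ha.map C.ι
    obtain ⟨w, hw, hwn⟩ := hsolve ω hω hτω
    exact ⟨⟨w, 1, one_ne_zero, by rw [one_smul, hwn],
      (isUnit_iff_norm_isUnit.mp hw).ne_zero, Or.inl ⟨ha, hw⟩⟩⟩
  · obtain ⟨b', hb'⟩ := hb
    obtain ⟨a', ha'⟩ := ha
    have ha'u : IsUnit a' := (isUnit_iff_not_dvd C.irreducible₀).mpr fun h =>
      ha2 (by rw [ha', pow_two]; exact mul_dvd_mul_left _ h)
    let u : QuadraticAlgebra O (C.ι Nf.a) (C.ι Nf.b) := ⟨C.ι a', C.ι b'⟩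
    have hu : IsUnit u := by
      rw [isUnit_iff_norm_isUnit, QuadraticAlgebra.norm_def, isUnit_iff_not_dvd hπ]
      intro h
      apply (isUnit_iff_not_dvd hπ).mp ((ha'u.mul ha'u).map C.ι)
      have h1 : π ∣ C.ι Nf.b * (C.ι a' * C.ι b') - C.ι Nf.a * (C.ι b' * C.ι b') :=
        dvd_sub ((map_dvd C.ι ⟨b', hb'⟩).mul_right _) ((map_dvd C.ι ⟨a', ha'⟩).mul_right _)
      rw [map_mul, ← dvd_add_left h1]
      convert! h using 1
      simp only [u]
      ring
    obtain ⟨v, hv⟩ := hu.exists_right_inv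
    have hvu : IsUnit v := IsUnit.of_mul_eq_one u (by rw [mul_comm]; exact hv)
    have hτu : Nf.aut.τ u = u := by ext <;> simp [u, Normal.aut, C.σ_ι]
    have hτv : Nf.aut.τ v = v := by
      have h := congrArg Nf.aut.τ hv
      rw [map_mul, map_one, hτu] at h
      exact hu.mul_left_cancel (h.trans hv.symm)
    obtain ⟨w, hw, hwn⟩ := hsolve v hvu hτv
    have hω2 : (ω : QuadraticAlgebra O (C.ι Nf.a) (C.ι Nf.b)) * ω = π • u := by
      rw [omega_mul_omega_eq_mk]
      ext <;> simp [u, hπdef, ← map_mul, ← ha', ← hb']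
    have hordω : ordO (ω : QuadraticAlgebra O (C.ι Nf.a) (C.ι Nf.b)).norm = 1 := by
      have : (ω : QuadraticAlgebra O (C.ι Nf.a) (C.ι Nf.b)).norm = π * (-(C.ι a')) := by
        simp [QuadraticAlgebra.norm_def, hπdef, ← map_mul, ← ha']
      rw [this, ordO_mul hπ.ne_zero (neg_ne_zero.mpr (ha'u.map C.ι).ne_zero),
        ordO_irreducible hπ, ordO_unit (ha'u.map C.ι).neg]
    have hnw := isUnit_iff_norm_isUnit.mp hw
    have hnω : (ω : QuadraticAlgebra O (C.ι Nf.a) (C.ι Nf.b)).norm ≠ 0 := by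
      intro h; rw [h] at hordω; simp [ordO] at hordω
    refine ⟨⟨ω * w, π, hπ.ne_zero, ?_, ?_, Or.inr (Or.inl ⟨⟨b', hb'⟩, ⟨a', ha'⟩, ?_, w, rfl⟩)⟩⟩
    · rw [map_mul, hwn]
      show Nf.aut.cubicNorm ω * v = π • ω
      rw [CubicAut.cubicNorm_def, hτω, hτω, hω2, Algebra.smul_def, Algebra.smul_def]
      linear_combination algebraMap O (QuadraticAlgebra O (C.ι Nf.a) (C.ι Nf.b)) π * ω * hv
    · rw [map_mul]; exact mul_ne_zero hnω hnw.ne_zero
    · rw [map_mul, ordO_mul hnω hnw.ne_zero, hordω, ordO_unit hnw]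
  · -- a root of `X ^ 2 - b X - a` congruent to `b`
    have : HenselianLocalRing O₀ :=
      { is_henselian := fun f hf a₀ h1 h2 => HenselianRing.is_henselian f hf a₀ h1 (h2.map _) }
    obtain ⟨l, hlroot, hlb⟩ : ∃ l : O₀, l * l - Nf.b * l - Nf.a = 0 ∧ C.unif ∣ l - Nf.b := by
      obtain ⟨l, hl, hlb⟩ := HenselianLocalRing.is_henselian (R := O₀)
        (Polynomial.X ^ 2 - Polynomial.C Nf.b * Polynomial.X - Polynomial.C Nf.a)
        (by monicity!) Nf.b
        (by simpa [pow_two, C.irreducible₀.maximalIdeal_eq, Ideal.mem_span_singleton] using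
          ha.neg_right)
        (by simpa [show (1 + 1) * Nf.b - Nf.b = Nf.b by ring] using hb)
      refine ⟨l, by simpa [Polynomial.IsRoot, pow_two] using hl, ?_⟩
      rwa [C.irreducible₀.maximalIdeal_eq, Ideal.mem_span_singleton] at hlb
    have hlu : IsUnit l := (isUnit_iff_not_dvd C.irreducible₀).mpr fun h =>
      (isUnit_iff_not_dvd C.irreducible₀).mp hb (by simpa using dvd_sub h hlb)
    set mu := Nf.b - l with hmu
    have hlm : l * mu = -Nf.a := by rw [hmu]; linear_combination -hlroot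
    have hmu0 : mu ≠ 0 := fun h => Nf.ne_zero (by rw [h, mul_zero] at hlm; simpa using hlm.symm)
    have hordmu : ordO mu = ordO Nf.a := by
      have e := congrArg ordO hlm
      rw [ordO_mul hlu.ne_zero hmu0, ordO_unit hlu, zero_add,
        show -Nf.a = (-1 : O₀) * Nf.a by ring,
        ordO_mul (by simp) Nf.ne_zero, ordO_unit isUnit_one.neg, zero_add] at e
      exact e
    obtain ⟨m, hm⟩ := h3 hb ha
    have hm1 : 1 ≤ m := by
      have := (pow_dvd_iff_le_ordO C.irreducible₀ Nf.ne_zero (n := 1)).mp (by simpa using ha)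
      omega
    obtain ⟨w0, hw0⟩ := exists_unit_of_ne_zero C.irreducible₀ hmu0
    have hdu : IsUnit (l - mu) := by
      rw [isUnit_iff_not_dvd C.irreducible₀]
      intro h
      apply (isUnit_iff_not_dvd C.irreducible₀).mp hlu
      have h1 : C.unif ∣ mu := by
        rw [hmu, ← dvd_neg, neg_sub]; exact hlb
      simpa using dvd_add h h1
    -- evaluations at the two roots
    have hq : ∀ r : O₀, r * r - Nf.b * r - Nf.a = 0 →
        C.ι r * C.ι r = C.ι Nf.a • (1 : O) + C.ι Nf.b • C.ι r := fun r hr => by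
      simp only [smul_eq_mul, mul_one, ← map_mul, ← map_add]
      congr 1
      linear_combination hr
    let φl : QuadraticAlgebra O (C.ι Nf.a) (C.ι Nf.b) →ₐ[O] O :=
      QuadraticAlgebra.lift ⟨C.ι l, hq l hlroot⟩
    let φm : QuadraticAlgebra O (C.ι Nf.a) (C.ι Nf.b) →ₐ[O] O :=
      QuadraticAlgebra.lift ⟨C.ι mu, hq mu (by rw [hmu]; linear_combination hlroot)⟩
    have hφl : ∀ z, φl z = z.re + z.im * C.ι l := fun z => by
      show z.re • (1 : O) + z.im • C.ι l = _; simp
    have hφm : ∀ z, φm z = z.re + z.im * C.ι mu := fun z => by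
      show z.re • (1 : O) + z.im • C.ι mu = _; simp
    have hnorm : ∀ z, z.norm = φl z * φm z := fun z => by
      rw [hφl, hφm, QuadraticAlgebra.norm_def]
      have e1 : C.ι l + C.ι mu = C.ι Nf.b := by rw [← map_add, hmu]; ring_nf
      have e2 : C.ι l * C.ι mu = -C.ι Nf.a := by rw [← map_mul, hlm, map_neg]
      linear_combination -(z.re * z.im) * e1 - z.im ^ 2 * e2
    have htrace : ∀ z, QuadraticAlgebra.trace z = φl z + φm z := fun z => by
      rw [hφl, hφm, QuadraticAlgebra.trace_def]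
      have e1 : C.ι l + C.ι mu = C.ι Nf.b := by rw [← map_add, hmu]; ring_nf
      linear_combination -z.im * e1
    have hinj : ∀ z z', φl z = φl z' → φm z = φm z' → z = z' := fun z z' h1 h2 => by
      rw [hφl, hφl] at h1
      rw [hφm, hφm] at h2
      have him : z.im = z'.im := by
        apply (hdu.map C.ι).mul_left_cancel
        rw [map_sub]; linear_combination h1 - h2
      exact QuadraticAlgebra.ext (by rw [him] at h1; linear_combination h1) him
    obtain ⟨di, hdi⟩ := (hdu.map C.ι).exists_right_inv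
    have hval : ∀ x y : O, ∃ z, φl z = x ∧ φm z = y := fun x y =>
      ⟨⟨x - (x - y) * di * C.ι l, (x - y) * di⟩, by rw [hφl]; ring, by
        rw [hφm]
        rw [map_sub] at hdi
        linear_combination -(x - y) * hdi⟩
    obtain ⟨u, hul, hum⟩ := hval (C.ι l) (C.ι w0)
    obtain ⟨s, hsl, hsm⟩ := hval 1 (π ^ m)
    have hu : IsUnit u := by
      rw [isUnit_iff_norm_isUnit, hnorm, hul, hum]
      exact (hlu.map C.ι).mul (w0.isUnit.map C.ι)
    have hτ : ∀ z, φl (Nf.aut.τ z) = C.σ (φl z) ∧ φm (Nf.aut.τ z) = C.σ (φm z) := fun z => by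
      simp [hφl, hφm, Normal.aut, C.σ_ι]
    have hfixu : Nf.aut.τ u = u :=
      hinj _ _ (by rw [(hτ u).1, hul, C.σ_ι]) (by rw [(hτ u).2, hum, C.σ_ι])
    have hfixs : Nf.aut.τ s = s :=
      hinj _ _ (by rw [(hτ s).1, hsl, map_one]) (by rw [(hτ s).2, hsm, map_pow, C.σ_ι])
    obtain ⟨w, hw, hwn⟩ := hsolve u hu hfixu
    have hwl : IsUnit (φl w) := hw.map φl
    have hwm : IsUnit (φm w) := hw.map φm
    have hzm : π ∣ φm (w * s) := by
      rw [map_mul, hsm]; exact Dvd.dvd.mul_left (dvd_pow_self _ (by omega)) _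
    have hzl : IsUnit (φl (w * s)) := by rw [map_mul, hsl, mul_one]; exact hwl
    refine ⟨⟨w * s, 1, one_ne_zero, ?_, ?_, Or.inr (Or.inr ⟨hb, ha, ?_, ?_, ?_⟩)⟩⟩
    · rw [one_smul]
      refine hinj _ _ ?_ ?_
      · rw [map_mul, map_mul, hwn, hul, CubicAut.cubicNorm_def, hfixs, hfixs, map_mul, map_mul,
          hsl, hφl]
        simp
      · rw [map_mul, map_mul, hwn, hum, CubicAut.cubicNorm_def, hfixs, hfixs, map_mul, map_mul,
          hsm, hφm]
        simp only [omega_re, omega_im, zero_add, one_mul]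
        rw [hw0, map_mul, map_pow, hordmu, hm, ← hπdef]
        ring
    · rw [hnorm]
      refine mul_ne_zero hzl.ne_zero ?_
      rw [map_mul, hsm]
      exact mul_ne_zero hwm.ne_zero (pow_ne_zero _ hπ.ne_zero)
    · rw [hnorm, map_mul, map_mul, hsl, hsm, mul_one,
        ordO_mul hwl.ne_zero (mul_ne_zero hwm.ne_zero (pow_ne_zero _ hπ.ne_zero)),
        ordO_mul hwm.ne_zero (pow_ne_zero _ hπ.ne_zero), ordO_unit hwl, ordO_unit hwm,
        ordO_pow hπ.ne_zero, ordO_irreducible hπ, hm]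
      ring
    · rw [htrace, isUnit_iff_not_dvd hπ, dvd_add_left hzm]
      exact (isUnit_iff_not_dvd hπ).mp hzl
    · rw [htrace, map_mul, map_mul φm, isUnit_iff_not_dvd hπ, dvd_add_left (hzm.mul_right _),
        (hτ _).1]
      exact (isUnit_iff_not_dvd hπ).mp (hzl.mul (hzl.map C.σ))

end Fermat.Agent.LT.Inert

end
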