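import Fermat.Agent.LT.Inert.Completion
import Fermat.Agent.LT.Inert.Kernel
import Fermat.Agent.LT.Tame.PlaceMatch

/-!
# Local matchings on the cosets over an inert place

At an inert place with unimodular levels and radial matrices, one the base change of the other,
the diagonal functions of `γ` and of `δ ∘ σ` match; with trivial matrices and integral elements
the base points correspond; if `γ` is not a local norm the fibre sums vanish.
-/

set_option autoImplicit false

noncomputable section

namespace Fermat.Agent.LT.Inert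

open IsDedekindDomain IsDedekindDomain.HeightOneSpectrum IsLocalRing NumberField Matrix
open Fermat.Agent.LT.Tame Fermat.Agent.LT.Descent Fermat.Agent.LT.Geom
open scoped MatrixGroups

variable {K K' : Type*} [Field K] [NumberField K] [Field K'] [NumberField K'] [Algebra K K']
  {σ : K' ≃ₐ[K] K'} {v : HeightOneSpectrum (𝓞 K)} {w : HeightOneSpectrum (𝓞 K')}
  {V : ∀ u : HeightOneSpectrum (𝓞 K), Subgroup (GL (Fin 2) (u.adicCompletion K))}
  {V' : ∀ u : HeightOneSpectrum (𝓞 K'), Subgroup (GL (Fin 2) (u.adicCompletion K'))}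
  (hσ : ∀ u, ∀ g ∈ V' (placePerm σ.toRingEquiv u), GeneralLinearGroup.map
    (completionEquiv σ.toRingEquiv (valuation_apply_placePerm σ.toRingEquiv u)).toRingHom g ∈ V' u)
  (k' : ∀ u, LKer PGL(2, u.adicCompletion K') (LocY V' u))
  (hH₀ : IsUnimodularLevel (v.adicCompletionIntegers K) ((V v).map ProjGenLinGroup.mk))
  (hH : IsUnimodularLevel (w.adicCompletionIntegers K') ((V' w).map ProjGenLinGroup.mk))

/-- A level equal to the maximal compact one is unimodular. -/
theorem isUnimodularLevel_of_eq {F : Type*} [Field F] [NumberField F]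
    {U : ∀ u : HeightOneSpectrum (𝓞 F), Subgroup (GL (Fin 2) (u.adicCompletion F))}
    {u : HeightOneSpectrum (𝓞 F)} (h : U u = localFull F u) :
    IsUnimodularLevel (u.adicCompletionIntegers F) ((U u).map ProjGenLinGroup.mk) := by
  rw [h]
  exact isUnimodularLevel_localFull u

namespace InertPlace

variable (P : InertPlace σ v w)

theorem emb_comp_algebraMap :
    P.emb.comp (algebraMap K (v.adicCompletion K)) =
      (algebraMap K' (w.adicCompletion K')).comp (algebraMap K K') := by
  refine RingHom.ext fun x => ?_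
  rw [RingHom.comp_apply, RingHom.comp_apply, algebraMap_adicCompletion, algebraMap_adicCompletion]
  exact P.emb_coe x

theorem pglEquiv_aut_algebraMap (δ : PGL(2, K')) :
    pglEquiv P.aut (pglMap (algebraMap K' (w.adicCompletion K')) δ) =
      pglMap (algebraMap K' (w.adicCompletion K')) (pglSigma σ δ) := by
  rw [pglSigma, pglEquiv_apply, pglEquiv_apply, pglMap_pglMap, pglMap_pglMap]
  congr 2
  refine RingHom.ext fun x => ?_
  show P.aut (algebraMap K' (w.adicCompletion K') x) = algebraMap K' (w.adicCompletion K') (σ x)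
  rw [algebraMap_adicCompletion]
  exact P.aut_coe x

/-- A global twisted norm is a local one. -/
theorem twNorm_completion {γ : PGL(2, K)} {δ : PGL(2, K')}
    (hN : Geom.twNorm (pglSigma σ) δ = pglMap (algebraMap K K') γ) :
    Geom.twNorm (pglEquiv P.aut) (pglMap (algebraMap K' (w.adicCompletion K')) δ) =
      pglMap P.emb (pglMap (algebraMap K (v.adicCompletion K)) γ) := by
  rw [Geom.twNorm, pglEquiv_aut_algebraMap, pglEquiv_aut_algebraMap, ← map_mul, ← map_mul,
    show δ * pglSigma σ δ * pglSigma σ (pglSigma σ δ) = pglMap (algebraMap K K') γ from hN,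
    pglMap_pglMap, pglMap_pglMap, emb_comp_algebraMap]

theorem map_ne_one {γ : PGL(2, K)} (h : γ ≠ 1) :
    pglMap (algebraMap K (v.adicCompletion K)) γ ≠ 1 := fun e =>
  h (pglMap_injective (algebraMap K (v.adicCompletion K)) (e.trans (map_one _).symm))

variable {p : HeightOneSpectrum (𝓞 K') → Prop} (hp : ∀ u, p u ↔ u = w)

include P hp in
theorem twistCoset (z : ∀ j : Subtype p, LocY V' j.1) (hpw : p (placePerm σ.toRingEquiv w))
    (x : PGL(2, w.adicCompletion K')) (hx : z ⟨w, (hp w).2 rfl⟩ = (x : LocY V' w)) :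
    cosetTwist σ.toRingEquiv hσ w (z ⟨_, hpw⟩) = ((pglEquiv P.aut x : _) : LocY V' w) := by
  suffices key : ∀ (u : HeightOneSpectrum (𝓞 K')) (hu : u = w) (hpu : p u)
      (hv : ∀ a, w.valuation K' (σ.toRingEquiv a) = u.valuation K' a)
      (hmap : ∀ g ∈ V' u, GeneralLinearGroup.map
        (completionEquiv σ.toRingEquiv hv).toRingHom g ∈ V' w) (g : PGL(2, u.adicCompletion K')),
      z ⟨u, hpu⟩ = (g : LocY V' u) →
        ((pglMap (completionEquiv σ.toRingEquiv hv).toRingHom g : _) : LocY V' w) =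
          ((pglEquiv P.aut x : _) : LocY V' w) by
    obtain ⟨g, hg⟩ := QuotientGroup.mk_surjective (z ⟨_, hpw⟩)
    rw [← hg, cosetTwist_mk]
    exact key _ P.fixed_place hpw _ (hσ w) g hg.symm
  rintro u hu hpu hv hmap g hg
  subst u
  have hgx : (g : LocY V' w) = (x : LocY V' w) := hg.symm.trans hx
  rw [QuotientGroup.eq] at hgx ⊢
  obtain ⟨γ, hγ, he⟩ := Subgroup.mem_map.1 hgx
  refine Subgroup.mem_map.2 ⟨GeneralLinearGroup.map (completionEquiv σ.toRingEquiv hv).toRingHom γ,
    hmap γ hγ, ?_⟩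
  rw [← pglMap_mk, he, map_mul, map_inv]
  rfl

variable (hpc : ∀ u, p u → p (placePerm σ.toRingEquiv u))

/-- The twist on the cosets at the place above. -/
def twistAbove (c : LocY V' w) : LocY V' w :=
  cosetTwist σ.toRingEquiv hσ w
    (TamePlace.fibrePoint hp c ⟨_, hpc w ((hp w).2 rfl)⟩)

include P in
theorem twistAbove_mk (g : PGL(2, w.adicCompletion K')) :
    twistAbove hσ hp hpc (g : LocY V' w) = ((pglEquiv P.aut g : _) : LocY V' w) :=
  P.twistCoset hσ hp _ _ g (TamePlace.fibrePoint_apply hp _)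

theorem twFibreFun_fibrePoint (δ : PGL(2, K')) (c : LocY V' w) :
    twFibreFun hσ k' δ hpc (TamePlace.fibrePoint hp c) =
      k' w c (pglMap (algebraMap K' (w.adicCompletion K')) δ • twistAbove hσ hp hpc c) := by
  rw [twFibreFun, finprod_eq_single _ (⟨w, (hp w).2 rfl⟩ : Subtype p)
    fun j hj => absurd (Subtype.ext ((hp j.1).1 j.2)) hj, TamePlace.fibrePoint_apply]
  rfl

include P hp in
/-- **Fibre matching at an inert place.** -/
theorem hasFibreMatch_ker {φ f : ℕ →₀ ℂ}
    (hf : IsBaseChange (resCard (v.adicCompletionIntegers K))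
      (resCard (w.adicCompletionIntegers K')) φ f)
    {k : LKer PGL(2, v.adicCompletion K) (LocY V v)} (hk : k = radKer P.cubic.baseData hH₀ f)
    (hk' : k' w = radKer P.cubic.treeData hH φ)
    {γ : PGL(2, K)} (h1 : γ ≠ 1) (h0 : classInv γ ≠ 0) {δ : PGL(2, K')}
    (hN : Geom.twNorm (pglSigma σ) δ = pglMap (algebraMap K K') γ)
    {T : Type*} [Group T] [MulAction T (LocY V v)] [MulAction T (∀ j : Subtype p, LocY V' j.1)]
    (ψ : T →* PGL(2, v.adicCompletion K))
    (hψ : ∀ t, Commute (ψ t) (pglMap (algebraMap K (v.adicCompletion K)) γ))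
    (hT : ∀ (t : T) (y : LocY V v), t • y = ψ t • y)
    (hT' : ∀ (t : T) (z : ∀ j : Subtype p, LocY V' j.1) (j : Subtype p)
      (Q : InertPlace σ v j.1), (t • z) j = pglMap Q.emb (ψ t) • z j) :
    HasFibreMatch T (fun y => k y (pglMap (algebraMap K (v.adicCompletion K)) γ • y))
      (twFibreFun hσ k' δ hpc) := by
  have hc0 : classInv (pglMap (algebraMap K (v.adicCompletion K)) γ) ≠ 0 := by
    rw [classInv_pglMap]; exact (map_ne_zero _).2 h0
  have := CFT.Kummer.kl_isAdicComplete v
  have := CFT.Kummer.kl_isAdicComplete w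
  let _ : MulAction T (LocY V' w) := MulAction.compHom _ ((pglMap P.emb).comp ψ)
  have hmatch := hasFibreMatch_inert P.cubic P.emb P.aut (fun _ => rfl) (fun _ => rfl) hH₀ hH
    (σH := twistAbove hσ hp hpc) (P.twistAbove_mk hσ hp hpc) (map_ne_one h1) hc0
    (P.twNorm_completion hN) hf ψ hψ hT (fun _ _ => rfl)
  rw [hk]
  refine hasFibreMatch_of_equiv (TamePlace.fibrePoint hp) (fun t c => ?_) hmatch fun c => ?_
  · refine (TamePlace.fibreEval_bijective hp).1 ?_
    show TamePlace.fibrePoint hp (t • c) ⟨w, _⟩ = (t • TamePlace.fibrePoint hp c) ⟨w, _⟩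
    rw [TamePlace.fibrePoint_apply, hT' t _ ⟨w, _⟩ P, TamePlace.fibrePoint_apply]
    rfl
  · rw [twFibreFun_fibrePoint hσ k' hp hpc, hk']
    rfl

include P hp in
/-- **With trivial matrices and integral elements base point goes to base point.** -/
theorem hasBaseMatch_one {k : LKer PGL(2, v.adicCompletion K) (LocY V v)}
    (hk : k = LKer.one _ _) (hk' : k' w = LKer.one _ _)
    {γ : PGL(2, K)} {δ : PGL(2, K')}
    (hN : Geom.twNorm (pglSigma σ) δ = pglMap (algebraMap K K') γ)
    {M : Mat (v.adicCompletionIntegers K)} (hM : IsUnit M.det) (hM10 : IsUnit (M 1 0))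
    (htr : M.trace ≠ 0)
    (hγ : pglMap (algebraMap K (v.adicCompletion K)) γ = toL (v.adicCompletion K) M hM.ne_zero)
    (hint : pglMap (algebraMap K' (w.adicCompletion K')) δ ∈ (V' w).map ProjGenLinGroup.mk)
    (hH₀ : IsUnimodularLevel (v.adicCompletionIntegers K) ((V v).map ProjGenLinGroup.mk))
    (hH : IsUnimodularLevel (w.adicCompletionIntegers K') ((V' w).map ProjGenLinGroup.mk))
    {T : Type*} [Group T] [MulAction T (LocY V v)] [MulAction T (∀ j : Subtype p, LocY V' j.1)]
    (ψ : T →* PGL(2, v.adicCompletion K))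
    (hψ : ∀ t, Commute (ψ t) (pglMap (algebraMap K (v.adicCompletion K)) γ))
    (hT : ∀ (t : T) (y : LocY V v), t • y = ψ t • y)
    (hT' : ∀ (t : T) (z : ∀ j : Subtype p, LocY V' j.1) (j : Subtype p)
      (Q : InertPlace σ v j.1), (t • z) j = pglMap Q.emb (ψ t) • z j) :
    HasBaseMatch T (fun y => k y (pglMap (algebraMap K (v.adicCompletion K)) γ • y))
      (twFibreFun hσ k' δ hpc) (basePt V v) (fun j => basePt V' j.1) := by
  have := CFT.Kummer.kl_isAdicComplete v
  have := CFT.Kummer.kl_isAdicComplete w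
  obtain ⟨d, hd, hde⟩ := (hH _).1 hint
  let _ : MulAction T (LocY V' w) := MulAction.compHom _ ((pglMap P.emb).comp ψ)
  have hN' := P.twNorm_completion hN
  rw [hγ, ← hde] at hN'
  have h := hasBaseMatch_inert P.cubic P.emb P.aut (fun _ => rfl) (fun _ => rfl) hH₀ hH
    (σH := twistAbove hσ hp hpc) (P.twistAbove_mk hσ hp hpc) hM hM10 htr hd hN' ψ
    (fun t => hγ ▸ hψ t) hT (fun _ _ => rfl)
  have h' := hasBaseMatch_of_equiv (TamePlace.fibrePoint hp) (fun t c => ?_) h
    (f'' := twFibreFun hσ k' δ hpc) fun c => ?_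
  · have hb : TamePlace.fibrePoint hp (basePt V' w) = fun j : Subtype p => basePt V' j.1 :=
      (TamePlace.fibreEval_bijective hp).1 (TamePlace.fibrePoint_apply hp _)
    rw [hk, ← radKer_single_zero P.cubic.baseData hH₀, hγ, ← hb]
    exact h'
  · refine (TamePlace.fibreEval_bijective hp).1 ?_
    show TamePlace.fibrePoint hp (t • c) ⟨w, _⟩ = (t • TamePlace.fibrePoint hp c) ⟨w, _⟩
    rw [TamePlace.fibrePoint_apply, hT' t _ ⟨w, _⟩ P, TamePlace.fibrePoint_apply]
    rfl
  · rw [twFibreFun_fibrePoint hσ k' hp hpc, hk', ← radKer_single_zero P.cubic.treeData hH, ← hde]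
    rfl

/-- **If `γ` is not a local norm the fibre sums vanish.** -/
theorem hasFibreMatch_zero {φ f : ℕ →₀ ℂ}
    (hf : IsBaseChange (resCard (v.adicCompletionIntegers K))
      (resCard (w.adicCompletionIntegers K')) φ f)
    {k : LKer PGL(2, v.adicCompletion K) (LocY V v)} (hk : k = radKer P.cubic.baseData hH₀ f)
    {γ : PGL(2, K)} (h0 : classInv γ ≠ 0)
    (hN : ∀ δ : PGL(2, w.adicCompletion K'), Geom.twNorm (pglEquiv P.aut) δ ≠
      pglMap P.emb (pglMap (algebraMap K (v.adicCompletion K)) γ))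
    {T : Type*} [Group T] [MulAction T (LocY V v)]
    (ψ : T →* PGL(2, v.adicCompletion K))
    (hψ : ∀ t, Commute (ψ t) (pglMap (algebraMap K (v.adicCompletion K)) γ))
    (hT : ∀ (t : T) (y : LocY V v), t • y = ψ t • y) :
    HasFibreMatch T (fun y => k y (pglMap (algebraMap K (v.adicCompletion K)) γ • y))
      (fun _ : LocY V v => (0 : ℂ)) := by
  have hc0 : classInv (pglMap (algebraMap K (v.adicCompletion K)) γ) ≠ 0 := by
    rw [classInv_pglMap]; exact (map_ne_zero _).2 h0
  have := CFT.Kummer.kl_isAdicComplete v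
  have := CFT.Kummer.kl_isAdicComplete w
  rw [hk]
  exact hasFibreMatch_inert_zero P.cubic P.emb P.aut (fun _ => rfl) (fun _ => rfl) hH₀ hN hc0 hf
    ψ hψ hT

end InertPlace

end Fermat.Agent.LT.Inert

end
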