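import Fermat.Agent.LT.Inert.Types
import Mathlib.Algebra.Algebra.Basic

/-!
# Rational vertices of a cubic unramified extension

`CubicData` packages an unramified cubic extension of DVRs.  The rational vertices are exactly the
vertices fixed by the automorphism, and the inclusion preserves distances.
-/

set_option autoImplicit false
set_option linter.unusedSectionVars false

noncomputable section

namespace Fermat.Agent.LT.Inert

open IsLocalRing Matrix

variable {O₀ O : Type*} [CommRing O₀] [IsDomain O₀] [IsDiscreteValuationRing O₀]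
  [CommRing O] [IsDomain O] [IsDiscreteValuationRing O]

/-- An unramified cubic extension of discrete valuation rings. -/
structure CubicData (O₀ O : Type*) [CommRing O₀] [IsDomain O₀] [IsDiscreteValuationRing O₀]
    [CommRing O] [IsDomain O] [IsDiscreteValuationRing O] where
  ι : O₀ →+* O
  ι_injective : Function.Injective ι
  σ : O ≃+* O
  unif : O₀
  irreducible₀ : Irreducible unif
  irreducible : Irreducible (ι unif)
  σ_ι : ∀ a, σ (ι a) = ι a
  order_three : ∀ x, σ (σ (σ x)) = x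
  fixed : ∀ x, σ x = x → ∃ a, ι a = x
  trace_one : ∃ t, t + σ t + σ (σ t) = 1
  residue_moved : ∃ x, ¬ ι unif ∣ σ x - x

variable (C : CubicData O₀ O)

/-- The semilinear tree data upstairs. -/
def CubicData.treeData : TreeData O := ⟨C.σ, C.ι C.unif, C.irreducible, C.σ_ι C.unif⟩

/-- The linear tree data downstairs. -/
def CubicData.baseData : TreeData O₀ := ⟨RingEquiv.refl O₀, C.unif, C.irreducible₀, rfl⟩

namespace CubicData

theorem isUnit_ι {a : O₀} : IsUnit (C.ι a) ↔ IsUnit a := by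
  refine ⟨fun h => ?_, fun h => h.map C.ι⟩
  rw [isUnit_iff_not_dvd C.irreducible₀]
  intro hd
  exact (isUnit_iff_not_dvd C.irreducible).mp h (map_dvd C.ι hd)

theorem ι_ne_zero {a : O₀} (ha : a ≠ 0) : C.ι a ≠ 0 :=
  fun h => ha (C.ι_injective (h.trans (map_zero C.ι).symm))

theorem ordO_ι (a : O₀) : ordO (C.ι a) = ordO a := by
  rcases eq_or_ne a 0 with rfl | ha
  · simp [ordO]
  obtain ⟨u, hu⟩ := exists_unit_of_ne_zero C.irreducible₀ ha
  have hu' : IsUnit (C.ι u) := u.isUnit.map C.ι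
  conv_lhs => rw [hu, map_mul, map_pow, ordO_mul hu'.ne_zero (pow_ne_zero _ C.irreducible.ne_zero),
    ordO_unit hu', ordO_pow C.irreducible.ne_zero, ordO_irreducible C.irreducible]
  simp

theorem ι_dvd_iff {a b : O₀} : C.ι a ∣ C.ι b ↔ a ∣ b := by
  refine ⟨fun h => ?_, fun h => map_dvd C.ι h⟩
  rcases eq_or_ne b 0 with rfl | hb
  · exact dvd_zero a
  rcases eq_or_ne a 0 with rfl | ha
  · rw [map_zero, zero_dvd_iff] at h
    exact absurd h (C.ι_ne_zero hb)
  obtain ⟨u, hu⟩ := exists_unit_of_ne_zero C.irreducible₀ ha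
  have h2 : C.ι C.unif ^ ordO a ∣ C.ι b := by
    have : C.ι a = C.ι u * C.ι C.unif ^ ordO a := by rw [← map_pow, ← map_mul, ← hu]
    exact (Dvd.intro_left _ this.symm).trans h
  rw [pow_dvd_iff_le_ordO C.irreducible (C.ι_ne_zero hb), C.ordO_ι,
    ← pow_dvd_iff_le_ordO C.irreducible₀ hb] at h2
  rw [hu]
  exact (IsUnit.mul_left_dvd u.isUnit).mpr h2

/-- The matrix upstairs of a matrix downstairs. -/
def up (k : Mat O₀) : Mat O := k.map C.ι

theorem det_up (k : Mat O₀) : (C.up k).det = C.ι k.det := (RingHom.map_det C.ι k).symm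

theorem det_up_ne_zero {k : Mat O₀} (hk : k.det ≠ 0) : (C.up k).det ≠ 0 :=
  (C.det_up k).symm ▸ C.ι_ne_zero hk

theorem adjugate_up (k : Mat O₀) : (C.up k).adjugate = C.up k.adjugate := by
  rw [up, up, ← RingHom.mapMatrix_apply, ← RingHom.map_adjugate, RingHom.mapMatrix_apply]

theorem up_mul (k l : Mat O₀) : C.up (k * l) = C.up k * C.up l := Matrix.map_mul

theorem up_smul (a : O₀) (k : Mat O₀) : C.up (a • k) = C.ι a • C.up k :=
  Matrix.map_smul' C.ι a k (map_mul C.ι)

theorem map_σ_up (k : Mat O₀) : (C.up k).map C.σ = C.up k := by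
  ext i j; simp [up, C.σ_ι]

theorem isPrimMat_up {k : Mat O₀} : IsPrimMat (C.up k) ↔ IsPrimMat k := by
  simp [IsPrimMat, up, C.isUnit_ι]

theorem gap_up {P : Mat O₀} (hd : P.det ≠ 0) :
    gap C.treeData (C.up P) = gap C.baseData P := by
  obtain ⟨j, P₀, h₀, rfl⟩ := exists_primitive C.baseData hd
  have hd₀ : P₀.det ≠ 0 := fun h => hd (by rw [Matrix.det_smul, h, mul_zero])
  rw [gap_eq C.baseData hd₀ h₀ rfl, gap_eq C.treeData (C.det_up_ne_zero hd₀)
    (C.isPrimMat_up.mpr h₀) (j := j) (by rw [up_smul, map_pow]; rfl), det_up, ordO_ι]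

/-- The inclusion of vertices. -/
def incl : Vertex O₀ → Vertex O :=
  Quotient.map (fun k => ⟨C.up k.1, C.det_up_ne_zero k.2⟩)
    fun k l ⟨U, a, b, hU, ha, hb, h⟩ => ⟨C.up U, C.ι a, C.ι b, by
      rw [det_up]; exact hU.map C.ι, C.ι_ne_zero ha, C.ι_ne_zero hb, by
      show C.ι a • C.up l.1 = C.ι b • (C.up k.1 * C.up U)
      rw [← up_smul, h, up_smul, up_mul]⟩

theorem incl_mk {k : Mat O₀} (hk : k.det ≠ 0) :
    C.incl (Vertex.mk k hk) = Vertex.mk (C.up k) (C.det_up_ne_zero hk) := rfl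

theorem dist_incl (x y : Vertex O₀) :
    dist C.treeData (C.incl x) (C.incl y) = dist C.baseData x y := by
  obtain ⟨k, hk, rfl⟩ := x.exists_rep
  obtain ⟨l, hl, rfl⟩ := y.exists_rep
  rw [incl_mk, incl_mk, dist_mk, dist_mk, adjugate_up, ← up_mul,
    gap_up C (det_adjugate_mul_ne_zero hk hl)]

theorem incl_injective : Function.Injective C.incl := fun x y h => by
  rw [← dist_eq_zero_iff C.baseData, ← dist_incl, h, dist_eq_zero_iff]

theorem galMap_incl (x : Vertex O₀) : galMap C.treeData (C.incl x) = C.incl x := by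
  obtain ⟨k, hk, rfl⟩ := x.exists_rep
  refine Quotient.sound ⟨1, 1, 1, by simp, one_ne_zero, one_ne_zero, ?_⟩
  show (1 : O) • C.up k = (1 : O) • ((C.up k).map C.σ * 1)
  rw [C.map_σ_up, Matrix.mul_one]

/-- Upper triangular normal form of a vertex. -/
theorem exists_triangular (x : Vertex O) :
    ∃ (m c : ℕ) (b : O) (h : _),
      Vertex.mk (!![C.ι C.unif ^ m, b; 0, C.ι C.unif ^ c] : Mat O) h = x := by
  obtain ⟨k, hk, rfl⟩ := x.exists_rep
  have hu0 := C.irreducible.ne_zero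
  have main : ∀ k : Mat O, k.det ≠ 0 → k 1 1 ∣ k 1 0 → ∃ (m c : ℕ) (b : O) (U : Mat O),
      IsUnit U.det ∧ k * U = !![C.ι C.unif ^ m, b; 0, C.ι C.unif ^ c] := by
    intro k hk ⟨r, hr⟩
    have h11 : k 1 1 ≠ 0 := fun h0 => hk (by rw [Matrix.det_fin_two, h0, hr, h0]; simp)
    have ha : k 0 0 - r * k 0 1 ≠ 0 := fun h0 => hk (by
      rw [Matrix.det_fin_two, hr, show k 0 0 = r * k 0 1 from sub_eq_zero.mp h0]; ring)
    obtain ⟨u, hu⟩ := exists_unit_of_ne_zero C.irreducible ha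
    obtain ⟨w, hw⟩ := exists_unit_of_ne_zero C.irreducible h11
    refine ⟨ordO (k 0 0 - r * k 0 1), ordO (k 1 1), k 0 1 * (↑w⁻¹ : O),
      !![(↑u⁻¹ : O), 0; -r * ↑u⁻¹, (↑w⁻¹ : O)], by simp [Matrix.det_fin_two], ?_⟩
    have e1 : (k 0 0 - r * k 0 1) * (↑u⁻¹ : O) = C.ι C.unif ^ ordO (k 0 0 - r * k 0 1) := by
      conv_lhs => rw [hu]
      rw [mul_comm, ← mul_assoc, Units.inv_mul, one_mul]
    have e2 : k 1 1 * (↑w⁻¹ : O) = C.ι C.unif ^ ordO (k 1 1) := by
      conv_lhs => rw [hw]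
      rw [mul_comm, ← mul_assoc, Units.inv_mul, one_mul]
    ext i j
    fin_cases i <;> fin_cases j <;> simp [Matrix.mul_apply, Fin.sum_univ_two]
    · linear_combination e1
    · rw [hr]; ring
    · exact e2
  obtain ⟨W, hW, hdvd⟩ : ∃ W : Mat O, IsUnit W.det ∧ (k * W) 1 1 ∣ (k * W) 1 0 := by
    rcases ValuationRing.dvd_total (k 1 1) (k 1 0) with h | h
    · exact ⟨1, by simp, by simpa using h⟩
    · exact ⟨!![0, 1; 1, 0], by simp [Matrix.det_fin_two],
        by simpa [Matrix.mul_apply, Fin.sum_univ_two] using h⟩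
  obtain ⟨m, c, b, U, hU, hkU⟩ := main (k * W) (by simp [hk, hW.ne_zero]) hdvd
  refine ⟨m, c, b, by simp [Matrix.det_fin_two, hu0], Quotient.sound (SameVertex.symm
    ⟨W * U, 1, 1, by simpa using hW.mul hU, one_ne_zero, one_ne_zero, ?_⟩)⟩
  show (1 : O) • _ = (1 : O) • (k * (W * U))
  rw [← Matrix.mul_assoc, hkU]

/-- Fixed vertices are rational. -/
theorem exists_incl_of_galMap_eq {x : Vertex O} (hx : galMap C.treeData x = x) :
    ∃ x₀, C.incl x₀ = x := by
  obtain ⟨m, c, b, h, rfl⟩ := C.exists_triangular x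
  set π := C.ι C.unif with hπ
  have hu0 : π ≠ 0 := C.irreducible.ne_zero
  have hσπ : C.σ π = π := C.σ_ι _
  -- `π ^ m` divides `σ b - b`
  have hdvd : π ^ m ∣ C.σ b - b := by
    have h' := hx
    rw [← dist_eq_zero_iff C.treeData, dist_comm] at h'
    change gap C.treeData ((!![π ^ m, b; 0, π ^ c] : Mat O).adjugate *
      (!![π ^ m, b; 0, π ^ c] : Mat O).map C.σ) = 0 at h'
    have hprod : (!![π ^ m, b; 0, π ^ c] : Mat O).adjugate *
        (!![π ^ m, b; 0, π ^ c] : Mat O).map C.σ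
          = !![π ^ (c + m), π ^ c * (C.σ b - b); 0, π ^ (c + m)] := by
      ext i l
      fin_cases i <;> fin_cases l <;>
        simp [Matrix.adjugate_fin_two, Matrix.mul_apply, Matrix.vecMul, dotProduct,
          Fin.sum_univ_two, hσπ, pow_add] <;> ring
    rw [hprod] at h'
    obtain ⟨j, U, hU, hjU⟩ := (gap_eq_zero_iff C.treeData
      (by simp [Matrix.det_fin_two, hu0])).mp h'
    rw [show C.treeData.unif = π from rfl] at hjU
    have h00 : π ^ (c + m) = π ^ j * U 0 0 := by simpa using congrFun (congrFun hjU 0) 0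
    have h01 : π ^ c * (C.σ b - b) = π ^ j * U 0 1 := by simpa using congrFun (congrFun hjU 0) 1
    have h10 : (0 : O) = π ^ j * U 1 0 := by simpa using congrFun (congrFun hjU 1) 0
    have hU10 : U 1 0 = 0 := (mul_eq_zero.mp h10.symm).resolve_left (pow_ne_zero _ hu0)
    have hU00 : IsUnit (U 0 0) := by
      rw [Matrix.det_fin_two, hU10, mul_zero, sub_zero] at hU
      exact isUnit_of_mul_isUnit_left hU
    have hj : j = c + m := by
      have e := congrArg ordO h00
      rw [ordO_mul (pow_ne_zero _ hu0) hU00.ne_zero, ordO_unit hU00, ordO_pow hu0, ordO_pow hu0,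
        hπ, ordO_irreducible C.irreducible] at e
      omega
    refine (mul_dvd_mul_iff_left (pow_ne_zero c hu0)).mp ⟨U 0 1, ?_⟩
    rw [h01, hj, pow_add]
  obtain ⟨t, ht⟩ := C.trace_one
  have hσσ : π ^ m ∣ C.σ (C.σ b) - b := by
    have h1 := map_dvd C.σ hdvd
    rw [map_pow, hσπ, map_sub] at h1
    have := dvd_add h1 hdvd
    rwa [show C.σ (C.σ b) - C.σ b + (C.σ b - b) = C.σ (C.σ b) - b by ring] at this
  set b₀ := t * b + C.σ t * C.σ b + C.σ (C.σ t) * C.σ (C.σ b) with hb₀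
  obtain ⟨a, ha⟩ := C.fixed b₀ (by simp only [hb₀, map_add, map_mul, C.order_three]; ring)
  obtain ⟨s, hs⟩ : π ^ m ∣ b₀ - b := by
    have : b₀ - b = C.σ t * (C.σ b - b) + C.σ (C.σ t) * (C.σ (C.σ b) - b) := by
      rw [hb₀]; linear_combination b * ht
    rw [this]
    exact dvd_add (hdvd.mul_left _) (hσσ.mul_left _)
  refine ⟨Vertex.mk !![C.unif ^ m, a; 0, C.unif ^ c]
    (by simp [Matrix.det_fin_two, C.irreducible₀.ne_zero]), Quotient.sound (SameVertex.symm
    ⟨!![1, s; 0, 1], 1, 1, by simp [Matrix.det_fin_two], one_ne_zero, one_ne_zero, ?_⟩)⟩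
  show (1 : O) • C.up !![C.unif ^ m, a; 0, C.unif ^ c] = (1 : O) • (_ * _)
  rw [one_smul, one_smul]
  ext i j
  fin_cases i <;> fin_cases j <;>
    simp [up, Matrix.mul_apply, Fin.sum_univ_two, ha, ← hπ] <;> linear_combination hs

end CubicData

end Fermat.Agent.LT.Inert

end
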