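import Fermat.Agent.LT.Inert.Normal

/-!
# Stable vertices

A vertex `k` is stable when `γ / π^e` maps its lattice into itself.  The stable vertices are the
minimal ones, and the stable minimal vertices upstairs are rational.
-/

set_option autoImplicit false
set_option linter.unusedSectionVars false

noncomputable section

namespace Fermat.Agent.LT.Inert

open IsLocalRing Matrix QuadraticAlgebra

section Core

variable {R : Type*} [CommRing R] [IsDomain R] [IsDiscreteValuationRing R]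

/-- `γ / c` stabilises the lattice of `k`. -/
def StableAt (c : R) (γ k : Mat R) : Prop :=
  ∃ G : Mat R, k.adjugate * γ * k = (c * k.det) • G

theorem isPrimMat_of_det {P : Mat R} (h : IsUnit P.det) : IsPrimMat P := by
  obtain ⟨π, hπ⟩ := IsDiscreteValuationRing.exists_irreducible R
  rw [IsPrimMat]
  by_contra hn
  simp only [not_exists, isUnit_iff_not_dvd hπ, not_not] at hn
  rw [isUnit_iff_not_dvd hπ, Matrix.det_fin_two] at h
  exact h (dvd_sub ((hn 0 0).mul_right _) ((hn 0 1).mul_right _))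

theorem isPrimMat_of_trace {P : Mat R} (h : IsUnit P.trace) : IsPrimMat P := by
  rw [Matrix.trace_fin_two] at h
  rcases IsLocalRing.isUnit_or_isUnit_of_isUnit_add h with h | h <;> exact ⟨_, _, h⟩

/-- Multiplying the three conjugates inserts scalars only. -/
theorem adjugate_mul_mul (k x y : Mat R) :
    k.adjugate * x * k * (k.adjugate * y * k) = k.det • (k.adjugate * (x * y) * k) := by
  calc k.adjugate * x * k * (k.adjugate * y * k)
      = k.adjugate * x * (k * k.adjugate) * (y * k) := by simp only [Matrix.mul_assoc]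
    _ = _ := by simp [Matrix.mul_adjugate, Matrix.mul_assoc]

variable {π c a b : R} {γ k G : Mat R}

theorem stable_invariants (hc : c ≠ 0) (hk : k.det ≠ 0) (ht : γ.trace = c * b)
    (hd : γ.det = -(c ^ 2 * a)) (hG : k.adjugate * γ * k = (c * k.det) • G) :
    G.trace = b ∧ G.det = -a := by
  constructor
  · have h := congrArg Matrix.trace hG
    rw [Matrix.trace_smul, Matrix.trace_mul_comm, ← Matrix.mul_assoc, Matrix.mul_adjugate,
      Matrix.smul_mul, Matrix.one_mul, Matrix.trace_smul, ht, smul_eq_mul, smul_eq_mul] at h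
    apply mul_left_cancel₀ (mul_ne_zero hc hk)
    linear_combination -h
  · have h := congrArg Matrix.det hG
    rw [Matrix.det_smul, Fintype.card_fin, Matrix.det_mul, Matrix.det_mul, Matrix.det_adjugate,
      Fintype.card_fin, hd] at h
    apply mul_left_cancel₀ (pow_ne_zero 2 (mul_ne_zero hc hk))
    simp only [show 2 - 1 = 1 from rfl, pow_one] at h
    linear_combination -h

theorem ord_facts (hπ : Irreducible π) (ha0 : a ≠ 0) (htype : NormalType π a b) :
    (IsUnit a ∧ ordO a = 0) ∨ (π ∣ b ∧ π ∣ a ∧ ordO a = 1) ∨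
      (IsUnit b ∧ π ∣ a ∧ 1 ≤ ordO a) := by
  rcases htype with ha | ⟨hb, ha, ha2⟩ | ⟨hb, ha⟩
  · exact Or.inl ⟨ha, ordO_unit ha⟩
  · have h1 := (pow_dvd_iff_le_ordO hπ ha0 (n := 1)).mp (by simpa using ha)
    have h2 := mt (pow_dvd_iff_le_ordO hπ ha0).mpr ha2
    exact Or.inr (Or.inl ⟨hb, ha, by omega⟩)
  · exact Or.inr (Or.inr ⟨hb, ha, (pow_dvd_iff_le_ordO hπ ha0 (n := 1)).mp (by simpa using ha)⟩)

/-- Comparison of valuations in a multiple of `adj k γ k`. -/
theorem stable_core (hπ : Irreducible π) (hc : c ≠ 0) (hk : k.det ≠ 0) (ha : a ≠ 0)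
    (ht : γ.trace = c * b) (hd : γ.det = -(c ^ 2 * a)) {S : R} {J : ℕ} {P : Mat R} (hS : S ≠ 0)
    (heq : S • (k.adjugate * γ * k) = π ^ J • P) :
    ∃ r : ℕ, 2 * r + ordO a = 2 * J + ordO P.det ∧
      (∀ s, (∀ i l, π ^ s ∣ P i l) → r ≤ J + s → StableAt c γ k) ∧
      ∃ w : Rˣ, π ^ r * b = w * (π ^ J * P.trace) := by
  have hScd : S * c * k.det ≠ 0 := mul_ne_zero (mul_ne_zero hS hc) hk
  obtain ⟨u, hu⟩ := exists_unit_of_ne_zero hπ hScd
  set r := ordO (S * c * k.det) with hr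
  have hdet : (π ^ J) ^ 2 * P.det = (S * c * k.det) ^ 2 * -a := by
    have h := congrArg Matrix.det heq
    rw [Matrix.det_smul, Matrix.det_smul, Fintype.card_fin, Matrix.det_mul, Matrix.det_mul,
      Matrix.det_adjugate, Fintype.card_fin, hd] at h
    simp only [show 2 - 1 = 1 from rfl, pow_one] at h
    linear_combination -h
  refine ⟨r, ?_, ?_, ?_⟩
  · have hP : P.det ≠ 0 := by
      intro h0; rw [h0, mul_zero] at hdet
      exact mul_ne_zero (pow_ne_zero 2 hScd) (neg_ne_zero.mpr ha) hdet.symm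
    have h := congrArg ordO hdet
    rw [ordO_mul (pow_ne_zero _ (pow_ne_zero _ hπ.ne_zero)) hP, ← pow_mul, ordO_pow hπ.ne_zero,
      ordO_irreducible hπ, ordO_mul (pow_ne_zero _ hScd) (neg_ne_zero.mpr ha), ordO_pow hScd,
      show -a = (-1 : R) * a by ring, ordO_mul (by simp) ha, ordO_unit isUnit_one.neg] at h
    omega
  · intro s hs hle
    choose P' hP' using hs
    refine ⟨((↑u⁻¹ : R) * π ^ (J + s - r)) • Matrix.of P', smul_right_injective (Mat R) hS ?_⟩
    show S • (k.adjugate * γ * k) = S • _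
    rw [heq]
    ext i l
    simp only [Matrix.smul_apply, smul_eq_mul, Matrix.of_apply, hP' i l]
    have h2 : π ^ (J + s) = π ^ r * π ^ (J + s - r) := by rw [← pow_add, Nat.add_sub_cancel' hle]
    calc π ^ J * (π ^ s * P' i l) = π ^ (J + s) * P' i l := by ring
      _ = ((u : R) * ↑u⁻¹) * (π ^ r * π ^ (J + s - r)) * P' i l := by simp [h2]
      _ = _ := by linear_combination (-(π ^ (J + s - r)) * P' i l * (↑u⁻¹ : R)) * hu
  · have h := congrArg Matrix.trace heq
    rw [Matrix.trace_smul, Matrix.trace_smul, Matrix.trace_mul_comm, ← Matrix.mul_assoc,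
      Matrix.mul_adjugate, Matrix.smul_mul, Matrix.one_mul, Matrix.trace_smul, ht] at h
    simp only [smul_eq_mul] at h
    refine ⟨u⁻¹, ?_⟩
    calc π ^ r * b = (↑u⁻¹ * (u : R)) * (π ^ r * b) := by simp
      _ = _ := by linear_combination (↑u⁻¹ : R) * h - ((↑u⁻¹ : R) * b) * hu

variable (hπ : Irreducible π) (hc : c ≠ 0) (hk : k.det ≠ 0) (ha : a ≠ 0)
  (ht : γ.trace = c * b) (hd : γ.det = -(c ^ 2 * a)) (htype : NormalType π a b)
  {S : R} {J : ℕ} {P : Mat R} (hS : S ≠ 0) (heq : S • (k.adjugate * γ * k) = π ^ J • P)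
include hπ hc hk ha ht hd htype hS heq

/-- Unimodular product: elliptic type, stable. -/
theorem stable_unimodular (hν : ordO P.det = 0) : IsUnit a ∧ StableAt c γ k := by
  obtain ⟨r, hr, hst, w, hw⟩ := stable_core hπ hc hk ha ht hd hS heq
  rcases ord_facts hπ ha htype with ⟨h1, h0⟩ | ⟨-, -, h1⟩ | ⟨hb, -, h1⟩
  · exact ⟨h1, hst 0 (by simp) (by omega)⟩
  · omega
  · have h : π ^ J ∣ π ^ r := hb.dvd_mul_right.mp ⟨w * P.trace, by rw [hw]; ring⟩
    rw [pow_dvd_pow_iff hπ.ne_zero hπ.not_isUnit] at h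
    omega

/-- Nilpotent product: inversion type, stable. -/
theorem stable_nil (htr : π ∣ P.trace)
    (hν : ordO P.det = 1 ∨
      (ordO P.det = 3 ∧ (∀ i l, π ∣ P i l) ∧ (IsUnit b → π ∣ a → 3 ∣ ordO a))) :
    π ∣ b ∧ π ∣ a ∧ StableAt c γ k := by
  obtain ⟨r, hr, hst, w, hw⟩ := stable_core hπ hc hk ha ht hd hS heq
  rcases ord_facts hπ ha htype with ⟨-, h0⟩ | ⟨hb, ha', h1⟩ | ⟨hb, ha', h1⟩
  · omega
  · refine ⟨hb, ha', ?_⟩
    rcases hν with h | ⟨h, hP, -⟩
    · exact hst 0 (by simp) (by omega)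
    · exact hst 1 (by simpa using hP) (by omega)
  · have h : π ^ (J + 1) ∣ π ^ r := hb.dvd_mul_right.mp (by
      rw [hw, pow_succ]
      exact (mul_dvd_mul_left _ htr).mul_left _)
    rw [pow_dvd_pow_iff hπ.ne_zero hπ.not_isUnit] at h
    rcases hν with h' | ⟨h', -, h3⟩
    · omega
    · have := h3 hb ha'; omega

/-- Semisimple product: translation type, stable. -/
theorem stable_split (htr : IsUnit P.trace) (hν : 1 ≤ ordO P.det) :
    IsUnit b ∧ π ∣ a ∧ ordO P.det = ordO a ∧ StableAt c γ k := by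
  obtain ⟨r, hr, hst, w, hw⟩ := stable_core hπ hc hk ha ht hd hS heq
  have hassoc : π ^ J * ((w : R) * P.trace) = π ^ r * b := by rw [hw]; ring
  have hrJ : r ≤ J := by
    have h : π ^ r ∣ π ^ J := (w.isUnit.mul htr).dvd_mul_right.mp ⟨b, hassoc⟩
    rwa [pow_dvd_pow_iff hπ.ne_zero hπ.not_isUnit] at h
  rcases ord_facts hπ ha htype with ⟨-, h0⟩ | ⟨hb, -, h1⟩ | ⟨hb, ha', h1⟩
  · omega
  · have h : π ^ (r + 1) ∣ π ^ J := (w.isUnit.mul htr).dvd_mul_right.mp (by
      rw [hassoc, pow_succ]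
      exact mul_dvd_mul_left _ hb)
    rw [pow_dvd_pow_iff hπ.ne_zero hπ.not_isUnit] at h
    omega
  · have h : π ^ J ∣ π ^ r := hb.dvd_mul_right.mp ⟨_, hassoc.symm⟩
    rw [pow_dvd_pow_iff hπ.ne_zero hπ.not_isUnit] at h
    exact ⟨hb, ha', by omega, hst 0 (by simp) (by omega)⟩

end Core

section Local

variable {O : Type*} [CommRing O] [IsDomain O] [IsDiscreteValuationRing O]
  (D : TreeData O) {δ : Mat O} (hδ : δ.det ≠ 0)

theorem ordO_sigma (x : O) : ordO (D.σ x) = ordO x := by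
  rcases eq_or_ne x 0 with rfl | hx
  · simp
  obtain ⟨u, hu⟩ := exists_unit_of_ne_zero D.irreducible hx
  conv_lhs => rw [hu, map_mul, map_pow, D.σ_unif,
    ordO_mul (u.isUnit.map D.σ).ne_zero (pow_ne_zero _ D.irreducible.ne_zero),
    ordO_unit (u.isUnit.map D.σ), ordO_pow D.irreducible.ne_zero, ordO_irreducible D.irreducible,
    zero_add, mul_one]

theorem map_smul_sigma (r : O) (M : Mat O) : (r • M).map D.σ = D.σ r • M.map D.σ := by
  ext i j; simp

theorem adjugate_map_sigma (k : Mat O) : k.adjugate.map D.σ = (k.map D.σ).adjugate := by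
  rw [← RingEquiv.coe_toRingHom, ← RingHom.mapMatrix_apply, RingHom.map_adjugate,
    RingHom.mapMatrix_apply]

/-- A vertex whose local matrix is a multiple of a primitive one. -/
theorem disp_of_scalar {k Z : Mat O} {c : O} (hk : k.det ≠ 0) (hc : c ≠ 0) (hp : IsPrimMat Z)
    (hZ : Z.det ≠ 0) (heq : k.adjugate * (δ * k.map D.σ) = c • Z) :
    disp D δ hδ (Vertex.mk k hk) = ordO Z.det ∧
      ((ordO Z.det ≤ 1 ∨ ¬ ∀ i l, D.unif ∣ (Z * Z.map D.σ) i l) →
        IsMinimal D δ hδ (Vertex.mk k hk)) := by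
  obtain ⟨u, hu⟩ := exists_unit_of_ne_zero D.irreducible hc
  have hdisp : disp D δ hδ (Vertex.mk k hk) = ordO Z.det := by
    rw [disp_mk, heq, gap_smul D hZ hc, gap_of_prim D hZ hp]
  refine ⟨hdisp, fun hor => ?_⟩
  have hdet : ((u : O) • Z).det = (u : O) ^ 2 * Z.det := by
    rw [Matrix.det_smul, Fintype.card_fin]
  have hord : ordO ((u : O) • Z).det = ordO Z.det := by
    rw [hdet, ordO_mul (pow_ne_zero _ u.ne_zero) hZ, ordO_unit (u.isUnit.pow 2), zero_add]
  refine isMinimal_of_not_dvd D hδ hk (h := (u : O) • Z) (j := ordO c) ?_ ?_ ?_ ?_ ?_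
  · obtain ⟨i, l, hil⟩ := hp
    exact ⟨i, l, by simpa using u.isUnit.mul hil⟩
  · rw [hdet]; exact mul_ne_zero (pow_ne_zero _ u.ne_zero) hZ
  · rw [heq, smul_smul, mul_comm _ (u : O), ← hu]
  · rw [hdisp, hord]
  · refine hor.imp (fun h => by omega) fun h hall => h fun i l => ?_
    have := hall i l
    rw [map_smul_sigma, Matrix.smul_mul, Matrix.mul_smul, smul_smul, Matrix.smul_apply,
      smul_eq_mul] at this
    exact (u.isUnit.mul (u.isUnit.map D.σ)).dvd_mul_left.mp this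

variable [Finite (ResidueField O)]

/-- Representatives of minimal vertices in normal shape. -/
theorem exists_shape {y : Vertex O} (hy : IsMinimal D δ hδ y) :
    ∃ (k h : Mat O) (hk : k.det ≠ 0) (j : ℕ), Vertex.mk k hk = y ∧ IsPrimMat h ∧ h.det ≠ 0 ∧
      k.adjugate * (δ * k.map D.σ) = D.unif ^ j • h ∧ disp D δ hδ y = ordO h.det ∧
      (ordO h.det = 0 ∨ (ordO h.det = 1 ∧ IsNilShape D h) ∨
        (1 ≤ ordO h.det ∧ IsSplitShape D h)) := by
  obtain ⟨k, hk, rfl⟩ := y.exists_rep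
  obtain ⟨h, j, hp, hh, heq, hn⟩ := exists_localMatrix D δ hδ hk
  rcases minimal_cases D hδ hk hp hh heq hn hy with h0 | ⟨U, hU, hsh⟩
  · exact ⟨k, h, hk, j, rfl, hp, hh, heq, hn, Or.inl h0⟩
  refine ⟨k * U, twist D h U, by simp [hk, hU.ne_zero], j, (nbr_changeBasis hk hU).symm,
    hp.twist D hU, twist_det_ne_zero D hh hU, localMatrix_changeBasis D heq,
    hn.trans (ordO_det_twist D hh hU).symm, ?_⟩
  rcases hsh with ⟨h1, hnil⟩ | hsp
  · exact Or.inr (Or.inl ⟨(ordO_det_twist D hh hU).trans h1, hnil⟩)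
  · refine Or.inr (Or.inr ⟨?_, hsp⟩)
    have hd : D.unif ∣ (twist D h U).det := by
      rw [Matrix.det_fin_two]
      exact dvd_sub (hsp.1.mul_right _) (hsp.2.1.mul_right _)
    simpa using (pow_dvd_iff_le_ordO D.irreducible (twist_det_ne_zero D hh hU) (n := 1)).mp
      (by simpa using hd)

theorem dvd_mul_of_nilShape {h h' : Mat O} (hh : IsNilShape D h) (hh' : IsNilShape D h') :
    ∀ i l, D.unif ∣ (h * h') i l := by
  obtain ⟨a, b, d⟩ := hh
  obtain ⟨a', b', d'⟩ := hh'
  intro i l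
  rw [Matrix.mul_apply, Fin.sum_univ_two]
  fin_cases i <;> fin_cases l
  · exact dvd_add (a.mul_right _) (b.mul_right _)
  · exact dvd_add (a.mul_right _) (b.mul_right _)
  · exact dvd_add (a'.mul_left _) (d.mul_right _)
  · exact dvd_add (b'.mul_left _) (d.mul_right _)

theorem dvd_sigma {x : O} (hx : D.unif ∣ x) : D.unif ∣ D.σ x := by
  simpa [D.σ_unif] using map_dvd D.σ hx

theorem IsNilShape.map {h : Mat O} (hh : IsNilShape D h) : IsNilShape D (h.map D.σ) :=
  ⟨dvd_sigma D hh.1, dvd_sigma D hh.2.1, dvd_sigma D hh.2.2⟩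

theorem IsSplitShape.map {h : Mat O} (hh : IsSplitShape D h) : IsSplitShape D (h.map D.σ) :=
  ⟨dvd_sigma D hh.1, dvd_sigma D hh.2.1, hh.2.2.map D.σ⟩

theorem IsSplitShape.mul {h h' : Mat O} (hh : IsSplitShape D h) (hh' : IsSplitShape D h') :
    IsSplitShape D (h * h') := by
  refine ⟨?_, ?_, ?_⟩ <;> rw [Matrix.mul_apply, Fin.sum_univ_two]
  · exact dvd_add (hh.1.mul_right _) (hh.2.1.mul_right _)
  · exact dvd_add (hh.1.mul_right _) (hh.2.1.mul_right _)
  · rw [isUnit_iff_not_dvd D.irreducible, dvd_add_right (hh'.2.1.mul_left _)]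
    exact (isUnit_iff_not_dvd D.irreducible).mp (hh.2.2.mul hh'.2.2)

theorem IsSplitShape.isUnit_trace {h : Mat O} (hh : IsSplitShape D h) : IsUnit h.trace := by
  rw [Matrix.trace_fin_two, isUnit_iff_not_dvd D.irreducible, dvd_add_right hh.1]
  exact (isUnit_iff_not_dvd D.irreducible).mp hh.2.2

end Local

end Fermat.Agent.LT.Inert

end
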