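import Fermat.Agent.LT.Inert.Fibre
import Mathlib.LinearAlgebra.Matrix.Trace

/-!
# The three types of minimal vertices

Reduction shapes of the local matrix of a semilinear map at a minimal vertex, and the number of
minimal neighbours for the two non-elliptic shapes.
-/

set_option autoImplicit false
set_option linter.unusedSectionVars false

noncomputable section

namespace Fermat.Agent.LT.Inert

open IsLocalRing Matrix

variable {O : Type*} [CommRing O] [IsDomain O] [IsDiscreteValuationRing O]
  (D : TreeData O) {δ : Mat O} (hδ : δ.det ≠ 0)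

/-- The local matrix in the basis `U`. -/
def twist (h U : Mat O) : Mat O := U.adjugate * h * U.map D.σ

theorem twist_twist (h U W : Mat O) : twist D (twist D h U) W = twist D h (U * W) := by
  simp only [twist, Matrix.adjugate_mul_distrib, Matrix.map_mul, Matrix.mul_assoc]

theorem det_twist (h U : Mat O) : (twist D h U).det = U.det * h.det * D.σ U.det := by
  simp [twist, Matrix.det_adjugate, det_map_sigma]

theorem twist_det_ne_zero {h U : Mat O} (hh : h.det ≠ 0) (hU : IsUnit U.det) :
    (twist D h U).det ≠ 0 := by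
  rw [det_twist]
  exact mul_ne_zero (mul_ne_zero hU.ne_zero hh) (hU.map D.σ).ne_zero

theorem ordO_det_twist {h U : Mat O} (hh : h.det ≠ 0) (hU : IsUnit U.det) :
    ordO (twist D h U).det = ordO h.det := by
  rw [det_twist, ordO_mul (mul_ne_zero hU.ne_zero hh) (hU.map D.σ).ne_zero,
    ordO_mul hU.ne_zero hh, ordO_unit hU, ordO_unit (hU.map D.σ)]
  ring

theorem IsPrimMat.twist {h U : Mat O} (hp : IsPrimMat h) (hU : IsUnit U.det) :
    IsPrimMat (twist D h U) :=
  hp.mul_units (by simpa [Matrix.det_adjugate] using hU) (by rw [det_map_sigma]; exact hU.map _)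

/-- The line `L` descends. -/
theorem descend_of_dvd {k h : Mat O} (hk : k.det ≠ 0) {j : ℕ} (hp : IsPrimMat h) (hh : h.det ≠ 0)
    (heq : k.adjugate * (δ * k.map D.σ) = D.unif ^ j • h)
    (hn : disp D δ hδ (Vertex.mk k hk) = ordO h.det) (L : Line O)
    (h00 : D.unif ∣ twist D h (lineBasis L) 0 0) (h11 : D.unif ∣ twist D h (lineBasis L) 1 1)
    (h01 : D.unif ^ 2 ∣ twist D h (lineBasis L) 0 1) :
    disp D δ hδ (nbr D hk L) + 2 = disp D δ hδ (Vertex.mk k hk) := by
  have hU := isUnit_det_lineBasis L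
  rw [hn, nbr, disp_step D hδ hk hh heq hU, ← ordO_det_twist D hh hU]
  exact (gap_step D (twist_det_ne_zero D hh hU) (hp.twist D hU)).2.2 h00 h11 h01

/-- The displacement at a neighbour is the same iff the line is stable and does not descend. -/
theorem dvd_of_disp_nbr_eq {k h : Mat O} (hk : k.det ≠ 0) {j : ℕ} (hp : IsPrimMat h)
    (hh : h.det ≠ 0) (heq : k.adjugate * (δ * k.map D.σ) = D.unif ^ j • h)
    (hn : disp D δ hδ (Vertex.mk k hk) = ordO h.det) (L : Line O)
    (hL : disp D δ hδ (nbr D hk L) = disp D δ hδ (Vertex.mk k hk)) :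
    D.unif ∣ twist D h (lineBasis L) 0 1 := by
  have hU := isUnit_det_lineBasis L
  by_contra hb
  rw [hn, nbr, disp_step D hδ hk hh heq hU, ← ordO_det_twist D hh hU] at hL
  rw [show (lineBasis L).adjugate * h * (lineBasis L).map D.σ = twist D h (lineBasis L) from rfl] at hL
  have h1 : gap D _ = ordO (twist D h (lineBasis L)).det + 2 :=
    (gap_step D (twist_det_ne_zero D hh hU) (hp.twist D hU)).1 hb
  change gap D _ = _ at hL
  omega

theorem dvd_all_of_unit_det {h : Mat O} (hp : IsPrimMat h) (hd : D.unif ∣ h.det) :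
    ∃ L : Line O, D.unif ∣ ((lineBasis L).adjugate * h) 0 0 ∧
      D.unif ∣ ((lineBasis L).adjugate * h) 0 1 := by
  rw [Matrix.det_fin_two] at hd
  by_cases hrow : D.unif ∣ h 1 0 ∧ D.unif ∣ h 1 1
  · exact ⟨none, by simp [lineBasis, Matrix.adjugate_fin_two, Matrix.mul_apply, Matrix.vecMul,
      dotProduct, Fin.sum_univ_two, hrow.1, hrow.2]⟩
  obtain ⟨r, hr0, hr1⟩ : ∃ r : O, D.unif ∣ h 0 0 - r * h 1 0 ∧ D.unif ∣ h 0 1 - r * h 1 1 := by
    rcases not_and_or.mp hrow with hu | hu
    · obtain ⟨w, hw⟩ := ((isUnit_iff_not_dvd D.irreducible).mpr hu).exists_right_inv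
      refine ⟨h 0 0 * w, ⟨0, by linear_combination -(h 0 0) * hw⟩, ?_⟩
      rw [show h 0 1 - h 0 0 * w * h 1 1 = -(w * (h 0 0 * h 1 1 - h 0 1 * h 1 0)) by
        linear_combination -(h 0 1) * hw]
      exact (hd.mul_left w).neg_right
    · obtain ⟨w, hw⟩ := ((isUnit_iff_not_dvd D.irreducible).mpr hu).exists_right_inv
      refine ⟨h 0 1 * w, ?_, ⟨0, by linear_combination -(h 0 1) * hw⟩⟩
      rw [show h 0 0 - h 0 1 * w * h 1 0 = w * (h 0 0 * h 1 1 - h 0 1 * h 1 0) by
        linear_combination -(h 0 0) * hw]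
      exact hd.mul_left w
  have hlr : D.unif ∣ r - lift (IsLocalRing.residue O r) := by
    rw [← Ideal.mem_span_singleton, ← D.irreducible.maximalIdeal_eq,
      ← IsLocalRing.residue_eq_zero_iff, map_sub, residue_lift, sub_self]
  refine ⟨some (IsLocalRing.residue O r), ?_, ?_⟩
  · have := hr0.add (hlr.mul_right (h 1 0))
    simpa [lineBasis, Matrix.adjugate_fin_two, Matrix.mul_apply, Matrix.vecMul, dotProduct,
      Fin.sum_univ_two,
      show h 0 0 - r * h 1 0 + (r - lift (IsLocalRing.residue O r)) * h 1 0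
        = h 0 0 + -(lift (IsLocalRing.residue O r) * h 1 0) by ring] using this
  · have := hr1.add (hlr.mul_right (h 1 1))
    simpa [lineBasis, Matrix.adjugate_fin_two, Matrix.mul_apply, Matrix.vecMul, dotProduct,
      Fin.sum_univ_two,
      show h 0 1 - r * h 1 1 + (r - lift (IsLocalRing.residue O r)) * h 1 1
        = h 0 1 + -(lift (IsLocalRing.residue O r) * h 1 1) by ring] using this

/-- Nilpotent shape: first row and lower right entry vanish modulo the uniformiser. -/
def IsNilShape (h : Mat O) : Prop := D.unif ∣ h 0 0 ∧ D.unif ∣ h 0 1 ∧ D.unif ∣ h 1 1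

/-- Translation shape. -/
def IsSplitShape (h : Mat O) : Prop := D.unif ∣ h 0 0 ∧ D.unif ∣ h 0 1 ∧ IsUnit (h 1 1)

/-- A minimal vertex is fixed, of nilpotent shape with displacement one, or of translation
shape. -/
theorem minimal_cases {k h : Mat O} (hk : k.det ≠ 0) {j : ℕ} (hp : IsPrimMat h) (hh : h.det ≠ 0)
    (heq : k.adjugate * (δ * k.map D.σ) = D.unif ^ j • h)
    (hn : disp D δ hδ (Vertex.mk k hk) = ordO h.det)
    (hmin : IsMinimal D δ hδ (Vertex.mk k hk)) :
    ordO h.det = 0 ∨
      ∃ U : Mat O, IsUnit U.det ∧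
        ((ordO h.det = 1 ∧ IsNilShape D (twist D h U)) ∨ IsSplitShape D (twist D h U)) := by
  by_cases h0 : ordO h.det = 0
  · exact Or.inl h0
  right
  have hd : D.unif ∣ h.det := by
    have := (pow_dvd_iff_le_ordO D.irreducible hh (n := 1)).mpr (by omega)
    simpa using this
  obtain ⟨L, hL0, hL1⟩ := dvd_all_of_unit_det D hp hd
  have hU := isUnit_det_lineBasis L
  refine ⟨lineBasis L, hU, ?_⟩
  have e : ∀ c, D.unif ∣ twist D h (lineBasis L) 0 c := by
    intro c
    rw [twist, Matrix.mul_apply, Fin.sum_univ_two]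
    exact dvd_add (hL0.mul_right _) (hL1.mul_right _)
  by_cases hu : IsUnit (twist D h (lineBasis L) 1 1)
  · exact Or.inr ⟨e 0, e 1, hu⟩
  rw [isUnit_iff_not_dvd D.irreducible, not_not] at hu
  refine Or.inl ⟨?_, e 0, e 1, hu⟩
  by_cases h01 : D.unif ^ 2 ∣ twist D h (lineBasis L) 0 1
  · have hdesc := descend_of_dvd D hδ hk hp hh heq hn L (e 0) hu h01
    have := hmin _ (dist_nbr D hk L)
    omega
  · obtain ⟨a, ha⟩ := e 0
    obtain ⟨b, hb⟩ := e 1
    obtain ⟨d, hd'⟩ := hu
    rw [← ordO_det_twist D hh hU]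
    set g := twist D h (lineBasis L)
    have hgp : IsPrimMat g := hp.twist D hU
    have hc : IsUnit (g 1 0) := by
      by_contra hc
      rw [isUnit_iff_not_dvd D.irreducible, not_not] at hc
      refine (isPrimMat_iff D).mp hgp fun i l => ?_
      fin_cases i <;> fin_cases l
      · exact e 0
      · exact e 1
      · exact hc
      · exact ⟨d, hd'⟩
    have hb' : IsUnit b := by
      rw [isUnit_iff_not_dvd D.irreducible]
      intro hbd
      exact h01 (by rw [hb, pow_two]; exact mul_dvd_mul_left _ hbd)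
    have hdet : g.det = D.unif * (D.unif * a * d - b * g 1 0) := by
      rw [Matrix.det_fin_two g, ha, hb, hd']; ring
    have hu2 : IsUnit (D.unif * a * d - b * g 1 0) := by
      rw [isUnit_iff_not_dvd D.irreducible,
        dvd_sub_right ((dvd_mul_right _ a).mul_right d)]
      exact (isUnit_iff_not_dvd D.irreducible).mp (hb'.mul hc)
    rw [hdet, ordO_mul D.irreducible.ne_zero hu2.ne_zero, ordO_irreducible D.irreducible,
      ordO_unit hu2]

/-- A descending neighbour forces `h * σ h` to vanish modulo the uniformiser. -/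
theorem isMinimal_of_not_dvd {k h : Mat O} (hk : k.det ≠ 0) {j : ℕ} (hp : IsPrimMat h)
    (hh : h.det ≠ 0) (heq : k.adjugate * (δ * k.map D.σ) = D.unif ^ j • h)
    (hn : disp D δ hδ (Vertex.mk k hk) = ordO h.det)
    (hnd : ordO h.det ≤ 1 ∨ ¬ ∀ i l, D.unif ∣ (h * h.map D.σ) i l) :
    IsMinimal D δ hδ (Vertex.mk k hk) := by
  intro y hy
  by_contra hlt
  have hy2 : disp D δ hδ y + 2 = disp D δ hδ (Vertex.mk k hk) := by
    rcases disp_nbr_trichotomy D hδ hy with e | e | e <;> omega
  rcases hnd with h1 | h1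
  · omega
  obtain ⟨L, rfl⟩ := exists_nbr_eq D hk hy
  have hU := isUnit_det_lineBasis L
  rw [hn, nbr, disp_step D hδ hk hh heq hU, ← ordO_det_twist D hh hU] at hy2
  obtain ⟨g1, g2, -⟩ := gap_step D (twist_det_ne_zero D hh hU) (hp.twist D hU)
  change gap D !![D.unif * twist D h (lineBasis L) 0 0, twist D h (lineBasis L) 0 1;
    D.unif ^ 2 * twist D h (lineBasis L) 1 0, D.unif * twist D h (lineBasis L) 1 1] + 2 = _ at hy2
  set g := twist D h (lineBasis L) with hg
  have hb : D.unif ∣ g 0 1 := by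
    by_contra hb; have := g1 hb; omega
  have hdesc : D.unif ∣ g 0 0 ∧ D.unif ∣ g 1 1 := by
    by_contra hd
    have := g2 hb (fun h' => hd ⟨h'.1, h'.2.1⟩)
    omega
  apply h1
  have hkey : ∀ i l, D.unif ∣ (g * g.map D.σ) i l := by
    intro i l
    have hσ : ∀ x, D.unif ∣ x → D.unif ∣ D.σ x := fun x hx => by
      simpa [D.σ_unif] using map_dvd D.σ hx
    rw [Matrix.mul_apply, Fin.sum_univ_two, Matrix.map_apply, Matrix.map_apply]
    fin_cases i <;> fin_cases l
    · exact dvd_add (hdesc.1.mul_right _) (hb.mul_right _)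
    · exact dvd_add (hdesc.1.mul_right _) (hb.mul_right _)
    · exact dvd_add ((hσ _ hdesc.1).mul_left _) (hdesc.2.mul_right _)
    · exact dvd_add ((hσ _ hb).mul_left _) ((hσ _ hdesc.2).mul_left _)
  set U := lineBasis L with hUdef
  have hadj : U * U.adjugate = U.det • (1 : Mat O) := Matrix.mul_adjugate U
  have hmid : g * g.map D.σ = D.σ U.det • (U.adjugate * (h * h.map D.σ) * (U.map D.σ).map D.σ) := by
    have h' : U.map D.σ * (U.adjugate).map D.σ = D.σ U.det • (1 : Mat O) := by
      rw [← Matrix.map_mul, hadj]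
      ext i l
      simp [Matrix.one_apply, apply_ite D.σ]
    simp only [hg, twist, Matrix.map_mul]
    calc U.adjugate * h * U.map D.σ * (U.adjugate.map D.σ * h.map D.σ * (U.map D.σ).map D.σ)
        = U.adjugate * h * (U.map D.σ * U.adjugate.map D.σ) * (h.map D.σ * (U.map D.σ).map D.σ) := by
          simp only [Matrix.mul_assoc]
      _ = _ := by simp [h', Matrix.mul_assoc]
  have hUa : IsUnit U.adjugate.det := by simpa [Matrix.det_adjugate] using hU
  have hUss : IsUnit ((U.map D.σ).map D.σ).det := by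
    rw [det_map_sigma, det_map_sigma]; exact (hU.map _).map _
  intro i l
  have hall : ∀ i l, D.unif ∣ (U.adjugate * (h * h.map D.σ) * (U.map D.σ).map D.σ) i l := by
    intro i l
    have := hkey i l
    rw [hmid, Matrix.smul_apply, smul_eq_mul] at this
    exact (hU.map D.σ).dvd_mul_left.mp this
  have := dvd_mul_left_entries (dvd_mul_right_entries hall ((U.map D.σ).map D.σ)⁻¹) U.adjugate⁻¹ i l
  rwa [Matrix.mul_nonsing_inv_cancel_right _ _ hUss, Matrix.nonsing_inv_mul_cancel_left _ _ hUa]
    at this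

variable [Finite (ResidueField O)]

theorem nbr_changeBasis {k U : Mat O} (hk : k.det ≠ 0) (hU : IsUnit U.det) :
    Vertex.mk k hk = Vertex.mk (k * U) (by simp [hk, hU.ne_zero]) :=
  Quotient.sound ⟨U, 1, 1, hU, one_ne_zero, one_ne_zero, rfl⟩

theorem localMatrix_changeBasis {k h U : Mat O} {j : ℕ}
    (heq : k.adjugate * (δ * k.map D.σ) = D.unif ^ j • h) :
    (k * U).adjugate * (δ * (k * U).map D.σ) = D.unif ^ j • twist D h U := by
  rw [Matrix.adjugate_mul_distrib, Matrix.map_mul, twist]
  calc U.adjugate * k.adjugate * (δ * (k.map D.σ * U.map D.σ))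
      = U.adjugate * (k.adjugate * (δ * k.map D.σ)) * U.map D.σ := by simp only [Matrix.mul_assoc]
    _ = _ := by rw [heq]; simp [Matrix.mul_assoc]

/-- In the nilpotent shape there is at most one stable line, in the translation shape two. -/
theorem card_levelNbrs_of_shape {k h : Mat O} (hk : k.det ≠ 0) {j : ℕ} (hp : IsPrimMat h)
    (hh : h.det ≠ 0) (heq : k.adjugate * (δ * k.map D.σ) = D.unif ^ j • h)
    (hn : disp D δ hδ (Vertex.mk k hk) = ordO h.det)
    (hmin : IsMinimal D δ hδ (Vertex.mk k hk)) :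
    (IsNilShape D h → (levelNbrs D δ hδ (Vertex.mk k hk)).card = 1) ∧
    (IsSplitShape D h → (levelNbrs D δ hδ (Vertex.mk k hk)).card = 2) := by
  classical
  haveI := Fintype.ofFinite (ResidueField O)
  let S : Finset (Line O) :=
    Finset.univ.filter fun L => D.unif ∣ twist D h (lineBasis L) 0 1
  have hS : levelNbrs D δ hδ (Vertex.mk k hk) = S.image (nbr D hk) := by
    ext y
    simp only [mem_levelNbrs, Finset.mem_image, S, Finset.mem_filter, Finset.mem_univ, true_and]
    constructor
    · rintro ⟨hy, hy'⟩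
      obtain ⟨L, rfl⟩ := exists_nbr_eq D hk hy
      exact ⟨L, dvd_of_disp_nbr_eq D hδ hk hp hh heq hn L hy', rfl⟩
    · rintro ⟨L, hL, rfl⟩
      refine ⟨dist_nbr D hk L, ?_⟩
      have hU := isUnit_det_lineBasis L
      have hm := hmin _ (dist_nbr D hk L)
      rw [hn, nbr, disp_step D hδ hk hh heq hU, ← ordO_det_twist D hh hU] at hm ⊢
      rw [show (lineBasis L).adjugate * h * (lineBasis L).map D.σ = twist D h (lineBasis L) from rfl] at hm ⊢
      obtain ⟨-, g2, g3⟩ := gap_step D (twist_det_ne_zero D hh hU) (hp.twist D hU)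
      refine g2 hL fun hd => ?_
      have h3 : gap D _ + 2 = ordO (twist D h (lineBasis L)).det := g3 hd.1 hd.2.1 hd.2.2
      change _ ≤ gap D _ at hm
      omega
  rw [hS, Finset.card_image_of_injective _ (nbr_injective D hk)]
  have hnone : twist D h (lineBasis none) 0 1 = -(h 1 0) := by
    simp [twist, lineBasis, Matrix.adjugate_fin_two, Matrix.mul_apply, Matrix.vecMul, dotProduct,
      Fin.sum_univ_two]
  have hsome : ∀ r, twist D h (lineBasis (some r)) 0 1 = (h 0 0 * D.σ (lift r) + h 0 1)
      - lift r * (h 1 0 * D.σ (lift r) + h 1 1) := fun r => by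
    simp [twist, lineBasis, Matrix.adjugate_fin_two, Matrix.mul_apply, Matrix.vecMul, dotProduct,
      Fin.sum_univ_two]
    ring
  have hdvd : ∀ r, D.unif ∣ r ↔ IsLocalRing.residue O r = 0 := fun r => by
    rw [IsLocalRing.residue_eq_zero_iff, D.irreducible.maximalIdeal_eq, Ideal.mem_span_singleton]
  have hσk : ∀ x, IsLocalRing.residue O (D.σ x)
      = IsLocalRing.ResidueField.mapEquiv D.σ (IsLocalRing.residue O x) := fun x => rfl
  set σk := IsLocalRing.ResidueField.mapEquiv D.σ
  have hmem : ∀ r, D.unif ∣ h 0 0 → D.unif ∣ h 0 1 → (some r ∈ S ↔ r * (IsLocalRing.residue O (h 1 0)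
      * σk r + IsLocalRing.residue O (h 1 1)) = 0) := fun r h00 h01 => by
    simp only [S, Finset.mem_filter, Finset.mem_univ, true_and, hdvd, hsome, map_sub, map_add,
      map_mul, hσk, residue_lift, (hdvd _).mp h00, (hdvd _).mp h01, zero_mul, add_zero, zero_sub,
      neg_eq_zero]
  have hmemNone : none ∈ S ↔ IsLocalRing.residue O (h 1 0) = 0 := by
    simp only [S, Finset.mem_filter, Finset.mem_univ, true_and, hdvd, hnone, map_neg, neg_eq_zero]
  constructor
  · rintro ⟨h00, h01, h11⟩
    have hc : IsLocalRing.residue O (h 1 0) ≠ 0 := by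
      intro hc
      refine (isPrimMat_iff D).mp hp fun i l => ?_
      fin_cases i <;> fin_cases l
      · exact h00
      · exact h01
      · exact (hdvd _).mpr hc
      · exact h11
    rw [Finset.card_eq_one]
    refine ⟨some 0, Finset.ext fun L => ?_⟩
    cases L with
    | none => simp [hmemNone, hc]
    | some r => simp [hmem r h00 h01, (hdvd _).mp h11, hc]
  · rintro ⟨h00, h01, h11⟩
    have hD : IsLocalRing.residue O (h 1 1) ≠ 0 :=
      (IsLocalRing.residue_ne_zero_iff_isUnit _).mpr h11
    rw [Finset.card_eq_two]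
    by_cases hc : IsLocalRing.residue O (h 1 0) = 0
    · refine ⟨none, some 0, by simp, Finset.ext fun L => ?_⟩
      cases L with
      | none => simp [hmemNone, hc]
      | some r => simp [hmem r h00 h01, hc, hD]
    · set r₁ := σk.symm (-(IsLocalRing.residue O (h 1 1)) / IsLocalRing.residue O (h 1 0)) with hr₁
      have hr₁0 : r₁ ≠ 0 := by simp [hr₁, hc, hD]
      refine ⟨some 0, some r₁, by simpa using Ne.symm hr₁0, Finset.ext fun L => ?_⟩
      cases L with
      | none => simp [hmemNone, hc]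
      | some r =>
        rw [hmem r h00 h01, mul_eq_zero]
        simp only [Finset.mem_insert, Finset.mem_singleton, Option.some.injEq]
        refine or_congr Iff.rfl ?_
        rw [hr₁, RingEquiv.eq_symm_apply, eq_div_iff hc, add_eq_zero_iff_eq_neg, mul_comm]

end Fermat.Agent.LT.Inert

end
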